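import Fermat.Agent.Flat.Model
import Fermat.Agent.Mazur.Val
import Fermat.Agent.ECLocal.AtPrime
import Fermat.Agent.ECLocal.Inertia
import Fermat.Agent.ECLocal.IntCurve

/-!
# The exponent of tame inertia on a finite flat module killed by three

Let `M` be a finite Galois module killed by `3` with integral coordinates at a place over `3`,
`τ` an inertia element and `θ` the residue of `τ π / π`, `π ^ 8 = 3`.  If inertia acts on a stable
subgroup through powers of `τ` and `P ≠ 0` there satisfies `τ² P + t τ P = P`, `t = ± 1`, then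
`θ² + t θ = 1`: the smallest valuation `m / 8` of a coordinate of such a point satisfies
`m / 8 ≤ 1 / 2` as the point is killed by `3`, and the leading residue is additive and multiplied
by `θ ^ m` under `τ`.
-/

set_option autoImplicit false

noncomputable section

open FermatAgent.ECLocal FermatAgent.GaloisBasic

namespace FermatAgent.LT.Mod3

local notation "Qbar" => AlgebraicClosure ℚ
local notation "GQ" => AlgebraicClosure ℚ ≃ₐ[ℚ] AlgebraicClosure ℚ

open Classical in
/-- The residue of an element of the place, zero elsewhere. -/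
def resOf (A : ValuationSubring Qbar) (x : Qbar) : IsLocalRing.ResidueField A :=
  if h : x ∈ A then IsLocalRing.residue A ⟨x, h⟩ else 0

section

variable {A : ValuationSubring Qbar} {x y : Qbar}

/-- The residue of an integral element. -/
lemma resOf_eq (h : x ∈ A) : resOf A x = IsLocalRing.residue A ⟨x, h⟩ := dif_pos h

lemma resOf_add (hx : x ∈ A) (hy : y ∈ A) : resOf A (x + y) = resOf A x + resOf A y := by
  rw [resOf_eq hx, resOf_eq hy, resOf_eq (A.add_mem _ _ hx hy), ← map_add]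
  rfl

/-- Residues multiply. -/
lemma resOf_mul (hx : x ∈ A) (hy : y ∈ A) : resOf A (x * y) = resOf A x * resOf A y := by
  rw [resOf_eq hx, resOf_eq hy, resOf_eq (A.mul_mem _ _ hx hy), ← map_mul]
  rfl

lemma resOf_one : resOf A 1 = 1 := by
  rw [resOf_eq A.one_mem, ← map_one (IsLocalRing.residue A)]
  rfl

lemma resOf_pow (hx : x ∈ A) : ∀ n : ℕ, resOf A (x ^ n) = resOf A x ^ n
  | 0 => by rw [pow_zero, pow_zero, resOf_one]
  | n + 1 => by rw [pow_succ, pow_succ, resOf_mul (pow_mem hx n) hx, resOf_pow hx n]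

lemma resOf_eq_zero (hx : A.valuation x < 1) : resOf A x = 0 := by
  rw [resOf_eq (mem_of_valuation_lt_one A hx)]
  exact (residue_eq_zero_iff A _).2 hx

/-- Units have nonzero residue. -/
lemma resOf_ne_zero (hx : A.valuation x = 1) : resOf A x ≠ 0 := by
  rw [resOf_eq (A.mem_of_valuation_le_one _ hx.le)]
  exact (residue_ne_zero_iff A _).2 hx

/-- Inertia fixes residues. -/
lemma resOf_inertia {τ : GQ} (hτ : τ ∈ A.inertiaSubgroupIn ℚ) (hx : x ∈ A) :
    resOf A (τ x) = resOf A x := by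
  have h : A.valuation (τ x - x) < 1 := (actsInertially_of_mem A τ hτ).val_map_sub x hx
  have e : τ x = (τ x - x) + x := (sub_add_cancel _ _).symm
  rw [e, resOf_add (mem_of_valuation_lt_one A h) hx, resOf_eq_zero h, zero_add]

/-- Inertia preserves values. -/
lemma valuation_inertia {τ : GQ} (hτ : τ ∈ A.inertiaSubgroupIn ℚ) :
    A.valuation (τ x) = A.valuation x :=
  valuation_map_of_mem_decomposition A τ (inertiaSubgroupIn_le_decompositionSubgroup A hτ) x

end

/-- `π ^ 8 = 3` and `θ` is the residue of `τ π / π`. -/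
structure IsTheta (A : ValuationSubring Qbar) (τ : GQ) (π : Qbar)
    (θ : IsLocalRing.ResidueField A) : Prop where
  pow_eq : π ^ 8 = 3
  res : resOf A (τ π / π) = θ

/-- A tame parameter exists. -/
lemma exists_isTheta (A : ValuationSubring Qbar) (τ : GQ) : ∃ π θ, IsTheta A τ π θ := by
  obtain ⟨π, hπ⟩ := IsAlgClosed.exists_pow_nat_eq (3 : Qbar) (by norm_num : 0 < 8)
  exact ⟨π, _, hπ, rfl⟩

/-- The tame parameter is nonzero. -/
lemma IsTheta.ne_zero {A : ValuationSubring Qbar} {τ : GQ} {π : Qbar}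
    {θ : IsLocalRing.ResidueField A} (h : IsTheta A τ π θ) : π ≠ 0 := fun e => by
  have := h.pow_eq
  rw [e] at this
  norm_num at this

variable {A : ValuationSubring Qbar} {τ : GQ} {π : Qbar} {θ : IsLocalRing.ResidueField A}

/-- The tame ratio is a unit. -/
lemma IsTheta.val_div (h : IsTheta A τ π θ) (hτ : τ ∈ A.inertiaSubgroupIn ℚ) :
    A.valuation (τ π / π) = 1 := by
  rw [map_div₀, valuation_inertia hτ, div_self ((Valuation.ne_zero_iff _).2 h.ne_zero)]

/-- The tame exponent has order dividing eight. -/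
lemma IsTheta.pow_eight (h : IsTheta A τ π θ) (hτ : τ ∈ A.inertiaSubgroupIn ℚ) : θ ^ 8 = 1 := by
  rw [← h.res, ← resOf_pow (A.mem_of_valuation_le_one _ (h.val_div hτ).le), div_pow, ← map_pow,
    h.pow_eq, map_ofNat, div_self three_ne_zero, resOf_one]

/-- From a root among the first four powers to the root itself. -/
lemma root_of_pow [CharP (IsLocalRing.ResidueField A) 3] (h8 : θ ^ 8 = 1)
    {t : IsLocalRing.ResidueField A} (ht : t * t = 1) {m : ℕ} (h1 : 1 ≤ m) (h4 : m ≤ 4)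
    (hroot : (θ ^ m) ^ 2 + t * θ ^ m = 1) : θ ^ 2 + t * θ = 1 := by
  have h3 : (3 : IsLocalRing.ResidueField A) = 0 := by
    exact_mod_cast CharP.cast_eq_zero (IsLocalRing.ResidueField A) 3
  have heven : ∀ r : IsLocalRing.ResidueField A, r ^ 4 = 1 → r ^ 2 + t * r = 1 → False := by
    intro r hr h
    have h2 : (2 : IsLocalRing.ResidueField A) = 1 := by
      linear_combination hr - (r ^ 2 - t * r + 2) * h - r ^ 2 * ht + t * r * h3
    exact one_ne_zero (show (1 : IsLocalRing.ResidueField A) = 0 by linear_combination h2)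
  obtain rfl | rfl | rfl | rfl : m = 1 ∨ m = 2 ∨ m = 3 ∨ m = 4 := by omega
  · simpa using hroot
  · exact (heven (θ ^ 2) (by rw [← pow_mul]; exact h8) hroot).elim
  · have e : θ = (θ ^ 3) ^ 3 := by
      rw [← pow_mul, show (3 * 3 : ℕ) = 8 + 1 from rfl, pow_succ, h8, one_mul]
    have e3 : (θ ^ 3) ^ 3 = -θ ^ 3 - t := by
      linear_combination (θ ^ 3 - t) * hroot + θ ^ 3 * ht + θ ^ 3 * h3
    rw [e, e3]
    linear_combination hroot
  · exact (heven (θ ^ 4) (by rw [← pow_mul, show (4 * 4 : ℕ) = 8 * 2 from rfl, pow_mul, h8,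
      one_pow]) hroot).elim

variable {M : Type} [AddCommGroup M] [DistribMulAction GQ M]

/-- Centred invariant coordinates. -/
lemma exists_centred {L : IntermediateField ℚ Qbar} [FiniteDimensional ℚ L] [IsGalois ℚ L]
    [Finite M] [Fact (Nat.Prime 3)] (hA : A.LiesOverPrime 3) {Φ : Set (M → Qbar)}
    (h : Flat.IsCoordSystem L A Φ) :
    ∃ (ι : Type) (_ : Fintype ι) (e : ι → M → Qbar) (c : ι → ι × ι → Qbar),
      (∀ i x, e i x ∈ A) ∧ (∀ (σ : GQ) i x, σ (e i x) = e i (σ • x)) ∧ (∀ i, e i 0 = 0) ∧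
      (∀ x, x ≠ 0 → ∃ i, e i x ≠ 0) ∧ (∀ i p, c i p ∈ A) ∧
      ∀ i x y, e i (x + y) = e i x + e i y + ∑ p, c i p * (e p.1 x * e p.2 y) := by
  classical
  obtain ⟨n, b, -, -⟩ := Flat.exists_invAlg_basis hA h
  have hb : ∀ (σ : GQ) (i : Fin n) (x : M), σ ((b i : M → Qbar) x) = (b i : M → Qbar) (σ • x) := by
    intro σ i x
    have := congrFun ((b i).2.2 σ) (σ • x)
    rwa [Flat.tw_apply, inv_smul_smul] at this
  choose c hc using fun i => Flat.exists_add_eq hA h b (b i).2.1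
  refine ⟨Fin n, inferInstance, fun i x => (b i : M → Qbar) x - (b i : M → Qbar) 0,
    fun i p => c i p, fun i x => sub_mem (h.mem_adjoin_integral (b i).2.1 x)
      (h.mem_adjoin_integral (b i).2.1 0), fun σ i x => ?_, fun i => sub_self _, fun x hx => ?_,
    fun i p => (c i p).2, fun i x y => ?_⟩
  · rw [map_sub, hb, hb, smul_zero]
  · by_contra hcon
    push Not at hcon
    obtain ⟨φ, hφ, hne⟩ := h.separated x 0 hx
    obtain ⟨d, hd⟩ := (Submodule.mem_span_range_iff_exists_fun A).1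
      (Flat.mem_span_basis hA h b (Algebra.subset_adjoin hφ))
    refine hne ?_
    rw [← hd, Finset.sum_apply, Finset.sum_apply]
    refine Finset.sum_congr rfl fun j _ => ?_
    rw [Pi.smul_apply, Pi.smul_apply, sub_eq_zero.1 (hcon j)]
  · have e1 := hc i x y
    have e2 := hc i x 0
    have e3 := hc i 0 y
    have e4 := hc i 0 0
    rw [add_zero] at e2 e4
    rw [zero_add] at e3
    simp only [sub_mul, mul_sub, Finset.sum_sub_distrib]
    linear_combination e1 - (e2 - e4) - (e3 - e4) - e4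

section Coords

variable {ι : Type} [Fintype ι] {e : ι → M → Qbar} {c : ι → ι × ι → Qbar}

omit [AddCommGroup M] [DistribMulAction GQ M] in
/-- The quadratic part of the addition law is small. -/
private lemma val_quad_le (hcA : ∀ i p, c i p ∈ A) (i : ι) {x y : M}
    {B B' : A.ValueGroup} (hx : ∀ j, A.valuation (e j x) ≤ B)
    (hy : ∀ j, A.valuation (e j y) ≤ B') :
    A.valuation (∑ p, c i p * (e p.1 x * e p.2 y)) ≤ B * B' :=
  A.valuation.map_sum_le fun p _ => by
    rw [map_mul, map_mul]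
    exact (mul_le_of_le_one_left' ((A.valuation_le_one_iff _).2 (hcA i p))).trans
      (mul_le_mul' (hx _) (hy _))

/-- An inertia element moves a point by a point reducing to zero. -/
private lemma val_smul_sub_lt (heA : ∀ i x, e i x ∈ A)
    (heσ : ∀ (σ : GQ) i x, σ (e i x) = e i (σ • x)) (he0 : ∀ i, e i 0 = 0)
    (hcA : ∀ i p, c i p ∈ A)
    (hadd : ∀ i x y, e i (x + y) = e i x + e i y + ∑ p, c i p * (e p.1 x * e p.2 y))
    (hτ : τ ∈ A.inertiaSubgroupIn ℚ) (P : M) (i : ι) :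
    A.valuation (e i (τ • P - P)) < 1 := by
  have hd : ∀ j, A.valuation (e j (τ • P) - e j P) < 1 := fun j => by
    rw [← heσ]
    exact (actsInertially_of_mem A τ hτ).val_map_sub _ (heA j P)
  have h0 := hadd i P (-P)
  rw [add_neg_cancel, he0] at h0
  have e' : e i (τ • P - P) = (e i (τ • P) - e i P) +
      ∑ p, c i p * ((e p.1 (τ • P) - e p.1 P) * e p.2 (-P)) := by
    rw [sub_eq_add_neg, hadd]
    simp only [sub_mul, mul_sub, Finset.sum_sub_distrib]
    linear_combination -h0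
  rw [e']
  refine A.valuation.map_add_lt (hd i) (A.valuation.map_sum_lt one_ne_zero fun p _ => ?_)
  rw [map_mul, map_mul]
  exact (mul_le_of_le_one_left' ((A.valuation_le_one_iff _).2 (hcA i p))).trans_lt
    (mul_lt_one_of_lt_of_le (hd p.1) ((A.valuation_le_one_iff _).2 (heA p.2 _)))

omit [DistribMulAction GQ M] in
/-- A nonzero point killed by three has valuation at most half that of three. -/
private lemma val_three_le_sq (he0 : ∀ i, e i 0 = 0) (hcA : ∀ i p, c i p ∈ A)
    (hadd : ∀ i x y, e i (x + y) = e i x + e i y + ∑ p, c i p * (e p.1 x * e p.2 y))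
    {Q : M} (h3Q : 3 • Q = 0) {i₀ : ι} (hmax : ∀ i, A.valuation (e i Q) ≤ A.valuation (e i₀ Q))
    (hV0 : 0 < A.valuation (e i₀ Q)) (hV1 : A.valuation (e i₀ Q) < 1) :
    A.valuation (3 : Qbar) ≤ A.valuation (e i₀ Q) * A.valuation (e i₀ Q) := by
  set v := A.valuation
  set V := v (e i₀ Q)
  have hVV : V * V < V := mul_lt_of_lt_one_left hV0 hV1
  by_contra hcon
  rw [not_le] at hcon
  set q : ι → Qbar := fun k => ∑ p, c k p * (e p.1 Q * e p.2 Q)
  have hq : ∀ k, v (q k) ≤ V * V := fun k => val_quad_le hcA k hmax hmax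
  have e2 : ∀ k, e k (Q + Q) = 2 * e k Q + q k := fun k => by rw [hadd, two_mul]
  have e3 : 0 = 3 * e i₀ Q + (3 * q i₀ + ∑ p, c i₀ p * (e p.1 Q * q p.2)) := by
    conv_lhs => rw [← he0 i₀, ← h3Q, show 3 • Q = Q + (Q + Q) by abel, hadd]
    simp only [e2, mul_add, Finset.sum_add_distrib, q]
    rw [show ∑ p, c i₀ p * (e p.1 Q * (2 * e p.2 Q)) = 2 * ∑ p, c i₀ p * (e p.1 Q * e p.2 Q) by
      rw [Finset.mul_sum]; exact Finset.sum_congr rfl fun p _ => by ring]
    ring
  have h30 : 0 < v (3 : Qbar) := zero_lt_iff.2 ((Valuation.ne_zero_iff v).2 three_ne_zero)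
  have hlt : v (3 * q i₀ + ∑ p, c i₀ p * (e p.1 Q * q p.2)) < v (3 * e i₀ Q) := by
    rw [map_mul v 3 (e i₀ Q)]
    refine v.map_add_lt ?_ (v.map_sum_lt (mul_pos h30 hV0).ne' fun p _ => ?_)
    · rw [map_mul]
      exact mul_lt_mul_of_pos_left ((hq i₀).trans_lt hVV) h30
    · rw [map_mul, map_mul]
      refine (mul_le_of_le_one_left' ((A.valuation_le_one_iff _).2 (hcA i₀ p))).trans_lt
        ((mul_le_mul' (hmax p.1) (hq p.2)).trans_lt ?_)
      rw [mul_comm]
      exact mul_lt_mul_of_pos_right hcon hV0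
  have := v.map_add_eq_of_lt_left hlt
  rw [← e3, map_zero, map_mul] at this
  exact (mul_pos h30 hV0).ne this

omit [Fintype ι] in
/-- A coordinate on an orbit of inertia has valuation a multiple of one eighth that of three, the
product over eight translates being fixed by inertia. -/
private lemma exists_val_eq_pow (hA : A.LiesOverPrime 3)
    (hτ : τ ∈ A.inertiaSubgroupIn ℚ) (hθ : IsTheta A τ π θ)
    (heσ : ∀ (σ : GQ) i x, σ (e i x) = e i (σ • x)) {S : AddSubgroup M}
    (hS : ∀ x ∈ S, τ • x ∈ S)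
    (horb : ∀ σ ∈ A.inertiaSubgroupIn ℚ, ∃ j : ℕ, ∀ x ∈ S, σ • x = τ ^ j • x)
    {Q : M} (hQS : Q ∈ S) (h8 : τ ^ 8 • Q = Q) {i₀ : ι} (hV0 : 0 < A.valuation (e i₀ Q))
    (hV1 : A.valuation (e i₀ Q) < 1)
    (hb3 : A.valuation (3 : Qbar) ≤ A.valuation (e i₀ Q) * A.valuation (e i₀ Q)) :
    ∃ m : ℕ, 1 ≤ m ∧ m ≤ 4 ∧ A.valuation (e i₀ Q) = A.valuation π ^ m := by
  set v := A.valuation
  set V := v (e i₀ Q)
  have hpowS : ∀ (j : ℕ), ∀ x ∈ S, τ ^ j • x ∈ S := by
    intro j
    induction j with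
    | zero => intro x hx; rwa [pow_zero, one_smul]
    | succ j ih => intro x hx; rw [pow_succ', mul_smul]; exact hS _ (ih x hx)
  let G : ℕ → Qbar := fun j => e i₀ (τ ^ j • Q)
  have hper : ∀ j, G (j + 8) = G j := fun j => by simp only [G, pow_add, mul_smul, h8]
  have hGv : ∀ j, v (G j) = V := fun j => by
    show v (e i₀ (τ ^ j • Q)) = V
    rw [← heσ, valuation_inertia (pow_mem hτ j)]
  let w := G 0 * G 1 * G 2 * G 3 * G 4 * G 5 * G 6 * G 7
  have hshift : ∀ k, G k * G (k + 1) * G (k + 2) * G (k + 3) * G (k + 4) * G (k + 5) * G (k + 6) *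
      G (k + 7) = w := by
    intro k
    induction k with
    | zero => rfl
    | succ k ih => rw [← ih, show k + 1 + 7 = k + 8 from rfl, hper k]; ring_nf
  have hfix : ∀ σ ∈ A.inertiaSubgroupIn ℚ, σ w = w := fun σ hσ => by
    obtain ⟨k, hk⟩ := horb σ hσ
    have hstep : ∀ j, σ (G j) = G (k + j) := fun j => by
      show σ (e i₀ (τ ^ j • Q)) = e i₀ (τ ^ (k + j) • Q)
      rw [heσ, hk _ (hpowS j Q hQS), smul_smul, ← pow_add]
    simp only [w, map_mul, hstep, add_zero, hshift]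
  have hw : v w = V ^ 8 := by
    simp only [w, map_mul, hGv, pow_succ, pow_zero, one_mul]
  have hw0 : w ≠ 0 := fun e0 => (pow_ne_zero 8 hV0.ne') (by rw [← hw, e0, map_zero])
  obtain ⟨z, hz⟩ := Mazur.exists_zpow_valuation_eq Nat.prime_three hA hw0 hfix
  rw [hw, show ((3 : ℕ) : Qbar) = 3 by norm_num] at hz
  have h30 : 0 < v (3 : Qbar) := zero_lt_iff.2 ((Valuation.ne_zero_iff v).2 three_ne_zero)
  have h31 : v (3 : Qbar) < 1 := by simpa using valuation_natCast_lt_one hA
  have hz1 : 0 < z := by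
    by_contra hz0
    have h1 : (1 : _) ≤ v (3 : Qbar) ^ z := one_le_zpow_of_nonpos₀ h30 h31.le (not_lt.1 hz0)
    rw [← hz] at h1
    exact absurd h1 (not_le.2 (pow_lt_one₀ zero_le hV1 (by norm_num)))
  have hz4 : z ≤ 4 := by
    refine (zpow_le_zpow_iff_right_of_lt_one₀ h30 h31).1 ?_
    rw [← hz, show V ^ 8 = (V * V) ^ 4 by rw [← pow_two, ← pow_mul], zpow_ofNat]
    exact pow_le_pow_left₀ zero_le hb3 4
  obtain ⟨m, rfl⟩ := Int.eq_ofNat_of_zero_le hz1.le
  refine ⟨m, by omega, by omega,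
    pow_left_inj₀ zero_le zero_le (by norm_num : (8 : ℕ) ≠ 0) |>.1 ?_⟩
  rw [hz, zpow_natCast, ← pow_mul, mul_comm, pow_mul, ← map_pow v π 8, hθ.pow_eq]

/-- The leading residue is additive and multiplied by `θ ^ m` under `τ`, so `θ ^ m` is a root. -/
private lemma root_of_leading_residue (hτ : τ ∈ A.inertiaSubgroupIn ℚ) (hθ : IsTheta A τ π θ)
    (heσ : ∀ (σ : GQ) i x, σ (e i x) = e i (σ • x)) (hcA : ∀ i p, c i p ∈ A)
    (hadd : ∀ i x y, e i (x + y) = e i x + e i y + ∑ p, c i p * (e p.1 x * e p.2 y))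
    {t : ℤ} (ht : t = 1 ∨ t = -1) {Q : M} (hQ : τ • τ • Q + t • τ • Q = Q) {i₀ : ι}
    (hmax : ∀ i, A.valuation (e i Q) ≤ A.valuation (e i₀ Q))
    (hV0 : 0 < A.valuation (e i₀ Q)) (hV1 : A.valuation (e i₀ Q) < 1) {m : ℕ}
    (hVπ : A.valuation (e i₀ Q) = A.valuation π ^ m) :
    (θ ^ m) ^ 2 + (t : IsLocalRing.ResidueField A) * θ ^ m = 1 := by
  set v := A.valuation
  set V := v (e i₀ Q) with hV
  have hπ0 := hθ.ne_zero
  have hVV : V * V < V := mul_lt_of_lt_one_left hV0 hV1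
  let ζ : M → IsLocalRing.ResidueField A := fun x => resOf A (e i₀ x / π ^ m)
  have hmem : ∀ x, (∀ j, v (e j x) ≤ V) → e i₀ x / π ^ m ∈ A := fun x hx => by
    refine A.mem_of_valuation_le_one _ ?_
    rw [map_div₀, map_pow, ← hVπ]
    exact div_le_one_of_le₀ (hx i₀) zero_le
  have hsmall : ∀ x, (∀ j, v (e j x) ≤ V) → ∀ j, v (e j (τ • x)) ≤ V := fun x hx j => by
    rw [← heσ, valuation_inertia hτ]
    exact hx j
  have hζadd : ∀ x y, (∀ j, v (e j x) ≤ V) → (∀ j, v (e j y) ≤ V) → ζ (x + y) = ζ x + ζ y := by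
    intro x y hx hy
    have hs : v ((∑ p, c i₀ p * (e p.1 x * e p.2 y)) / π ^ m) < 1 := by
      rw [map_div₀, map_pow, ← hVπ, div_lt_one₀ hV0]
      exact (val_quad_le hcA i₀ hx hy).trans_lt hVV
    show resOf A _ = resOf A _ + resOf A _
    rw [hadd, add_div, add_div, resOf_add (A.add_mem _ _ (hmem x hx) (hmem y hy))
      (mem_of_valuation_lt_one A hs), resOf_eq_zero hs, add_zero,
      resOf_add (hmem x hx) (hmem y hy)]
  have hu : τ π / π ∈ A := A.mem_of_valuation_le_one _ (hθ.val_div hτ).le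
  have hζτ : ∀ x, (∀ j, v (e j x) ≤ V) → ζ (τ • x) = θ ^ m * ζ x := fun x hx => by
    show resOf A _ = _ * resOf A _
    have e' : e i₀ (τ • x) / π ^ m = (τ π / π) ^ m * τ (e i₀ x / π ^ m) := by
      rw [map_div₀, map_pow, heσ, div_pow]
      have : τ π ≠ 0 := (map_ne_zero τ).2 hπ0
      field_simp
    rw [e', resOf_mul (pow_mem hu m)
      (A.mem_of_valuation_le_one _ (by
        rw [valuation_inertia hτ]; exact (A.valuation_le_one_iff _).2 (hmem x hx))),
      resOf_pow hu, hθ.res, resOf_inertia hτ (hmem x hx)]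
  have hζ0 : ζ Q ≠ 0 := resOf_ne_zero (by
    rw [map_div₀, map_pow, ← hVπ, ← hV, div_self hV0.ne'])
  have h1 := hsmall Q hmax
  refine mul_right_cancel₀ hζ0 ?_
  rcases ht with rfl | rfl
  · rw [one_zsmul] at hQ
    conv_rhs => rw [one_mul, ← hQ, hζadd _ _ (hsmall _ h1) h1, hζτ _ h1, hζτ _ hmax]
    push_cast
    ring
  · rw [neg_one_zsmul, ← sub_eq_add_neg, sub_eq_iff_eq_add] at hQ
    have := congrArg ζ hQ
    rw [hζadd _ _ hmax h1, hζτ _ h1, hζτ _ hmax] at this
    push_cast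
    linear_combination this

end Coords

open Classical in
/-- **The exponent**: on a finite flat module killed by three, a nonzero point with
`τ² P + t τ P = P` in a stable subgroup where inertia acts through the powers of `τ` forces
`θ² + t θ = 1` for the residue `θ` of `τ π / π`, `π ^ 8 = 3`. -/
theorem root_of_coords {L : IntermediateField ℚ Qbar} [FiniteDimensional ℚ L] [IsGalois ℚ L]
    [Finite M] [Fact (Nat.Prime 3)] (hA : A.LiesOverPrime 3) (hτ : τ ∈ A.inertiaSubgroupIn ℚ)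
    (hθ : IsTheta A τ π θ) {Φ : Set (M → Qbar)} (h : Flat.IsCoordSystem L A Φ)
    (h3 : ∀ x : M, 3 • x = 0) (S : AddSubgroup M) (hS : ∀ x ∈ S, τ • x ∈ S)
    (horb : ∀ σ ∈ A.inertiaSubgroupIn ℚ, ∃ j : ℕ, ∀ x ∈ S, σ • x = τ ^ j • x)
    (h8 : ∀ x ∈ S, τ ^ 8 • x = x) {P : M} (hPS : P ∈ S) (hP0 : P ≠ 0) (t : ℤ)
    (ht : t = 1 ∨ t = -1) (hP : τ • τ • P + t • τ • P = P) :
    θ ^ 2 + (t : IsLocalRing.ResidueField A) * θ = 1 := by
  have := residueChar A hA
  obtain ⟨ι, _, e, c, heA, heσ, he0, hsep, hcA, hadd⟩ := exists_centred hA h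
  -- the difference `τ P - P` reduces to zero
  set Q := τ • P - P with hQdef
  have hQS : Q ∈ S := sub_mem (hS P hPS) hPS
  have hQ : τ • τ • Q + t • τ • Q = Q := by
    rw [hQdef]
    simp only [smul_sub]
    have e1 := congrArg (τ • ·) hP
    simp only [smul_add] at e1
    rw [show τ • (t • τ • P) = t • τ • τ • P from map_zsmul (DistribSMul.toAddMonoidHom M τ) t _]
      at e1
    linear_combination (norm := abel) e1 - hP
  have hQ0 : Q ≠ 0 := fun e0 => by
    have hfix : τ • P = P := sub_eq_zero.1 e0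
    rw [hfix, hfix, add_eq_left] at hP
    rcases ht with rfl | rfl <;> simp at hP <;> exact hP0 hP
  obtain ⟨i₁, hi₁⟩ := hsep Q hQ0
  have : Nonempty ι := ⟨i₁⟩
  obtain ⟨i₀, hi₀⟩ := Finite.exists_max fun i => A.valuation (e i Q)
  have hV0 : 0 < A.valuation (e i₀ Q) :=
    lt_of_lt_of_le (zero_lt_iff.2 ((Valuation.ne_zero_iff _).2 hi₁)) (hi₀ i₁)
  have hV1 : A.valuation (e i₀ Q) < 1 := val_smul_sub_lt heA heσ he0 hcA hadd hτ P i₀
  have hb3 := val_three_le_sq he0 hcA hadd (h3 Q) hi₀ hV0 hV1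
  obtain ⟨m, hm1, hm4, hVπ⟩ :=
    exists_val_eq_pow hA hτ hθ heσ hS horb hQS (h8 Q hQS) hV0 hV1 hb3
  exact root_of_pow (hθ.pow_eight hτ) (by rcases ht with rfl | rfl <;> simp) hm1 hm4
    (root_of_leading_residue hτ hθ heσ hcA hadd ht hQ hi₀ hV0 hV1 hVπ)

end FermatAgent.LT.Mod3
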