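import Fermat.Agent.LT.Octa.Curve
import Fermat.Agent.LT.Mod3.Galois.Exponent
import Fermat.Agent.ECLocal.NoTorsion

/-!
# The exponent of the three torsion of a curve with supersingular reduction

After scaling by `π`, `π ^ 8 = 3`, the nonzero points of order three reduce to smooth affine
points of the cuspidal cubic, so the residue of `z / π`, `z = x / y`, is an additive injection of
the three torsion which is multiplied by `θ` under `τ`.
-/

set_option autoImplicit false

noncomputable section

open WeierstrassCurve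
open scoped WeierstrassCurve.Affine Pointwise

namespace FermatAgent.LT.Mod3

open FermatAgent.ECLocal FermatAgent.GaloisBasic FermatAgent.Switch
open FermatAgent.LT.Octa (zOf zOf_smul valuation_three_torsion)

local notation "Qbar" => AlgebraicClosure ℚ
local notation "GQ" => AlgebraicClosure ℚ ≃ₐ[ℚ] AlgebraicClosure ℚ

variable {W : WeierstrassCurve ℤ}

set_option quotPrecheck false in
local notation "Tor" =>
  Submodule.torsionBy ℤ ((W.map (Int.castRingHom ℚ))⁄Qbar).Point ((3 : ℕ) : ℤ)

set_option quotPrecheck false in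
local notation "φ₃" =>
  Affine.Point.galoisRepModuleEnd ℚ (W.map (Int.castRingHom ℚ)).toAffine 3

/-- Good supersingular reduction at `3`. -/
structure IsSupersingularThree (W : WeierstrassCurve ℤ) : Prop where
  Δ_ne_zero : W.Δ ≠ 0
  good : W.IsGoodPrimeFor 3
  c₄ : (3 : ℤ) ∣ W.c₄

/-- The additive leading coordinate: the residue of `z / π`, `z = x / y`, on the three torsion. -/
lemma exists_leading (hW : IsSupersingularThree W) {A : ValuationSubring Qbar}
    (hA : A.LiesOverPrime 3) {π : Qbar} (hπ : π ^ 8 = 3) :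
    ∃ ζ : Tor →+ IsLocalRing.ResidueField A,
      ∀ v : Tor, v ≠ 0 → A.valuation (zOf v.1 / π) = 1 ∧ ζ v = resOf A (zOf v.1 / π) := by
  classical
  have hπ0 : π ≠ 0 := fun e => by rw [e] at hπ; norm_num at hπ
  have hv8 : A.valuation π ^ 8 = A.valuation (3 : Qbar) := by rw [← map_pow, hπ]
  have h31 : A.valuation (3 : Qbar) < 1 := by simpa using valuation_natCast_lt_one hA
  have hπ1 : A.valuation π < 1 := by
    by_contra h
    exact absurd (one_le_pow₀ (not_lt.1 h) (n := 8)) (by rw [hv8]; exact not_le.2 h31)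
  set z : A := ⟨π, mem_of_valuation_lt_one A hπ1⟩
  have hzr : IsLocalRing.residue A z = 0 := (residue_eq_zero_iff A _).2 hπ1
  set V := modelAt W A
  obtain ⟨e, he⟩ := exists_scaleHom V z hπ0
  let Φ : Tor →+ (gen (scaleCurve z V)).toAffine.Point :=
    e.comp ((toGen W A).toAddMonoidHom.comp (Tor).subtype.toAddMonoidHom)
  have hsp : (spc (scaleCurve z V)).toAffine = (cusp (IsLocalRing.ResidueField A)).toAffine :=
    spc_scaleCurve hzr
  have key : ∀ v : Tor, v ≠ 0 → IsE0 (Φ v) ∧ A.valuation (zOf v.1 / π) = 1 ∧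
      pointCongr hsp (red (Φ v)) = cuspFun (resOf A (zOf v.1 / π)) := by
    rintro ⟨_ | ⟨x, y, h⟩, hm⟩ hv
    · exact absurd (Subtype.ext rfl) hv
    have hn : 3 • Affine.Point.some x y h = 0 := by
      have := hm
      rwa [Submodule.mem_torsionBy_iff, natCast_zsmul] at this
    obtain ⟨hx1, hx4⟩ := valuation_three_torsion hA hW.Δ_ne_zero hW.good hW.c₄ h hn
    have hxA : x ∉ A := (one_lt_valuation_iff A).1 hx1
    have hx0 : x ≠ 0 := ne_zero_of_not_mem A hxA
    have hgen' : (gen V).toAffine.Nonsingular x y := gen_modelAt W A ▸ h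
    have hy0 := y_ne_zero_of_x_not_mem hgen'.1 hxA
    obtain ⟨-, hvsq⟩ := val_y_of_x_not_mem hgen'.1 hxA
    set x' := π ^ 2 * x with hx'def
    set y' := π ^ 3 * y with hy'def
    obtain ⟨hns', heq'⟩ := he x y hgen'
    have hΦ : Φ ⟨_, hm⟩ = .some x' y' hns' := by
      show e (toGen W A (Affine.Point.some x y h)) = _
      rw [toGen_some]
      exact heq'
    have hvπ : A.valuation π ≠ 0 := (Valuation.ne_zero_iff _).2 hπ0
    have hvx' : A.valuation x' = 1 := by
      refine pow_left_inj₀ zero_le zero_le (by norm_num : (4 : ℕ) ≠ 0) |>.1 ?_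
      rw [hx'def, map_mul, map_pow, mul_pow, ← pow_mul, one_pow, ← hx4,
        show (2 * 4 : ℕ) = 8 from rfl, hv8, mul_comm]
    have hvy' : A.valuation y' = 1 := by
      refine pow_left_inj₀ zero_le zero_le (by norm_num : (2 : ℕ) ≠ 0) |>.1 ?_
      rw [hy'def, map_mul, map_pow, mul_pow, hvsq, one_pow, ← one_pow 3, ← hvx', hx'def, map_mul,
        map_pow, mul_pow, ← pow_mul, ← pow_mul]
    obtain ⟨hxm, hym, ha0, hb0, h0', hred⟩ := exists_red_eq_cuspFun hzr hns' hvx'
    have hz : zOf (Affine.Point.some x y h) / π = x' / y' := by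
      show x / y / π = _
      rw [hx'def, hy'def]
      field_simp
    have hvz : A.valuation (x' / y') = 1 := by rw [map_div₀, hvx', hvy', div_self one_ne_zero]
    refine ⟨hΦ ▸ h0', ?_, ?_⟩
    · rw [hz, hvz]
    · rw [hΦ, hred, hz]
      congr 1
      rw [eq_comm, eq_div_iff hb0, ← resOf_eq hym,
        ← resOf_mul (A.mem_of_valuation_le_one _ hvz.le) hym, div_mul_cancel₀, resOf_eq hxm]
      exact fun e => by rw [e, map_zero] at hvy'; exact zero_ne_one hvy'
  have hE0 : ∀ v : Tor, IsE0 (Φ v) := fun v => by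
    rcases eq_or_ne v 0 with rfl | hv
    · rw [map_zero]; exact isE0_zero
    · exact (key v hv).1
  let r : Tor →+ (cusp (IsLocalRing.ResidueField A)).toAffine.Point :=
    AddMonoidHom.mk' (fun v => pointCongr hsp (red (Φ v))) fun v w => by
      rw [← map_add]
      congr 1
      rw [map_add]
      exact ((hE0 v).add (hE0 w)).2
  let c : Tor → IsLocalRing.ResidueField A := fun v =>
    if v = 0 then 0 else resOf A (zOf v.1 / π)
  have hc : ∀ v, r v = cuspFun (c v) := fun v => by
    by_cases hv : v = 0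
    · subst hv
      rw [map_zero, show c 0 = 0 from if_pos rfl, cuspFun_zero]
    · rw [show c v = resOf A (zOf v.1 / π) from if_neg hv]
      exact (key v hv).2.2
  have hinj : ∀ s t : IsLocalRing.ResidueField A, cuspFun s = cuspFun t → s = t := fun s t he => by
    by_contra hne
    refine cuspFun_ne_zero (sub_ne_zero.2 hne) ?_
    have h2 : cuspFun (s - t) + cuspFun t = cuspFun s := by rw [← cuspFun_add, sub_add_cancel]
    rw [he] at h2
    exact add_eq_right.1 h2
  refine ⟨AddMonoidHom.mk' c fun v w => hinj _ _ ?_, fun v hv => ⟨(key v hv).2.1, if_neg hv⟩⟩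
  rw [cuspFun_add, ← hc, ← hc, ← hc, map_add]

/-- **The exponent** of the three torsion of a curve with supersingular reduction at `3`: if
`τ² v + t τ v = v` for a nonzero point `v`, the residue `θ` of `τ π / π` satisfies
`θ² + t θ = 1`. -/
theorem root_of_curve (hW : IsSupersingularThree W) {A : ValuationSubring Qbar}
    (hA : A.LiesOverPrime 3) {τ : GQ}
    (hτ : τ ∈ A.inertiaSubgroupIn ℚ) {π : Qbar} {θ : IsLocalRing.ResidueField A}
    (hθ : IsTheta A τ π θ) {v : Tor} (hv : v ≠ 0) (t : ℤ)
    (hrel : φ₃ τ (φ₃ τ v) + t • φ₃ τ v = v) :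
    θ ^ 2 + (t : IsLocalRing.ResidueField A) * θ = 1 := by
  obtain ⟨ζ, hζ⟩ := exists_leading hW hA hθ.pow_eq
  have hu : τ π / π ∈ A := A.mem_of_valuation_le_one _ (hθ.val_div hτ).le
  have hstep : ∀ u : Tor, ζ (φ₃ τ u) = θ * ζ u := fun u => by
    rcases eq_or_ne u 0 with rfl | hu0
    · rw [map_zero, map_zero, mul_zero]
    have h1 : φ₃ τ u ≠ 0 := fun e => hu0 (by
      have h2 : φ₃ τ⁻¹ (φ₃ τ u) = u := by
        rw [← Module.End.mul_apply, ← map_mul, inv_mul_cancel, map_one]; rfl
      rw [← h2, e, map_zero])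
    obtain ⟨hvu, hζu⟩ := hζ u hu0
    rw [(hζ _ h1).2, hζu]
    have hz : zOf (φ₃ τ u).1 = τ (zOf u.1) := by rw [zOf_smul τ]; rfl
    have hm : zOf u.1 / π ∈ A := A.mem_of_valuation_le_one _ hvu.le
    have e' : τ (zOf u.1) / π = τ π / π * τ (zOf u.1 / π) := by
      rw [map_div₀]
      have : τ π ≠ 0 := (map_ne_zero τ).2 hθ.ne_zero
      field_simp
    rw [hz, e', resOf_mul hu (A.mem_of_valuation_le_one _ (by
      rw [valuation_inertia hτ]; exact hvu.le)), hθ.res, resOf_inertia hτ hm]
  have hne : ζ v ≠ 0 := by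
    rw [(hζ v hv).2]
    exact resOf_ne_zero (hζ v hv).1
  have h := congrArg ζ hrel
  rw [map_add, map_zsmul, hstep, hstep, zsmul_eq_mul] at h
  refine mul_right_cancel₀ hne ?_
  linear_combination h

end FermatAgent.LT.Mod3
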