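import Fermat.Agent.LT.Mod3.Galois.EigRep
import Fermat.Agent.LT.Mod3.Galois.Exponent
import Fermat.Agent.Flat.Hecke.FlatModule

/-!
# The exponent of an eigen representation of level prime to three

A two dimensional representation embedded in the reduction of the parabolic lattice of level
prime to `3` maps, after an `𝔽₃`-linear functional on the coordinates, onto a subgroup of the
finite flat module of characters of order three.
-/

set_option autoImplicit false

noncomputable section

open CongruenceSubgroup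
open scoped Matrix
open FermatAgent.Period (parRank parabolicCoords)
open FermatAgent.ES (galMat padChar redHom)
open FermatAgent.Flat.Hecke (padRange padChar_mem)

namespace FermatAgent.LT.Mod3

local notation "Qbar" => AlgebraicClosure ℚ
local notation "GQ" => AlgebraicClosure ℚ ≃ₐ[ℚ] AlgebraicClosure ℚ

variable [Fact (Nat.Prime 3)] {N : ℕ} [NeZero N]

/-- The character of order three of a vector of the lattice. -/
def padSection : (Fin (parRank (Gamma0 N)) → ℤ_[3]) →+ Additive (padRange 3 N 1) :=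
  AddMonoidHom.mk'
    (fun v => Additive.ofMul ⟨padChar 3 1 ((parabolicCoords (Gamma0 N) ℤ_[3] ℤ_[3]).symm v),
      padChar_mem 3 N 1 _⟩)
    fun v w => Additive.toMul.injective (Subtype.ext (by
      show padChar 3 1 ((parabolicCoords (Gamma0 N) ℤ_[3] ℤ_[3]).symm (v + w)) =
        padChar 3 1 ((parabolicCoords (Gamma0 N) ℤ_[3] ℤ_[3]).symm v) *
          padChar 3 1 ((parabolicCoords (Gamma0 N) ℤ_[3] ℤ_[3]).symm w)
      rw [map_add, ES.padChar_add]))

lemma padSection_apply (v : Fin (parRank (Gamma0 N)) → ℤ_[3]) :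
    ((Additive.toMul (padSection v) : padRange 3 N 1) : ES.parGroup (Gamma0 N) (3 ^ 1)) =
      padChar 3 1 ((parabolicCoords (Gamma0 N) ℤ_[3] ℤ_[3]).symm v) := rfl

lemma smul_padSection (σ : GQ) (v : Fin (parRank (Gamma0 N)) → ℤ_[3]) :
    σ • padSection v = padSection (galMat 3 N σ *ᵥ v) := by
  refine Additive.toMul.injective (Subtype.ext ?_)
  rw [padSection_apply]
  show ES.galChar (ES.goodLevel_Gamma0 N) (3 ^ 1) σ _ = _
  rw [padSection_apply, ← ES.padChar_galPad]
  congr 1
  apply (parabolicCoords (Gamma0 N) ℤ_[3] ℤ_[3]).injective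
  rw [← ES.galMat_mulVec, LinearEquiv.apply_symm_apply, LinearEquiv.apply_symm_apply]

lemma padSection_eq_zero_iff (v : Fin (parRank (Gamma0 N)) → ℤ_[3]) :
    padSection v = 0 ↔ ∀ i, PadicInt.toZMod (v i) = 0 := by
  constructor
  · intro h i
    have h1 : padChar 3 1 ((parabolicCoords (Gamma0 N) ℤ_[3] ℤ_[3]).symm v) = 1 := by
      rw [← padSection_apply, h]
      rfl
    set ψ := (parabolicCoords (Gamma0 N) ℤ_[3] ℤ_[3]).symm v
    have hv : ψ.1 (Additive.ofMul (Period.parElt (Gamma0 N) i)) = v i := by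
      show parabolicCoords (Gamma0 N) ℤ_[3] ℤ_[3] ψ i = v i
      rw [LinearEquiv.apply_symm_apply]
    have h2 := DFunLike.congr_fun (congrArg Subtype.val h1) (Period.parElt (Gamma0 N) i)
    rw [ES.padChar_apply, hv] at h2
    have h3 : PadicInt.toZModPow 1 (v i) = 0 := by
      have h4 : ES.zU (3 ^ 1) (Multiplicative.ofAdd (PadicInt.toZModPow 1 (v i))) =
          ES.zU (3 ^ 1) 1 := h2.trans (map_one _).symm
      exact Multiplicative.ofAdd.injective (ES.zU_injective _ h4)
    rw [← RingHom.mem_ker, PadicInt.ker_toZModPow, pow_one] at h3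
    rw [← RingHom.mem_ker, PadicInt.ker_toZMod, PadicInt.maximalIdeal_eq_span_p]
    exact h3
  · intro h
    have hdvd : ∀ i, (3 : ℤ_[3]) ∣ v i := fun i => by
      have h1 := h i
      rw [← RingHom.mem_ker, PadicInt.ker_toZMod, PadicInt.maximalIdeal_eq_span_p,
        Ideal.mem_span_singleton] at h1
      exact_mod_cast h1
    choose w hw using hdvd
    refine Additive.toMul.injective (Subtype.ext ?_)
    rw [padSection_apply, show v = (3 : ℤ_[3]) • w from funext hw, map_smul, ES.padChar_smul,
      show (PadicInt.toZModPow 1 (3 : ℤ_[3])).val = 0 by rw [map_ofNat]; rfl, pow_zero]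
    rfl

/-- The character of order three of a vector modulo three. -/
def padSectionMod : (Fin (parRank (Gamma0 N)) → ZMod 3) →+ Additive (padRange 3 N 1) :=
  AddMonoidHom.mk' (fun w => padSection fun i => ((w i).val : ℤ_[3])) fun v w => by
    rw [← map_add, ← sub_eq_zero, ← map_sub, padSection_eq_zero_iff]
    intro i
    simp

lemma padSectionMod_toZMod (v : Fin (parRank (Gamma0 N)) → ℤ_[3]) :
    padSectionMod (fun i => PadicInt.toZMod (v i)) = padSection v := by
  show padSection _ = _
  rw [← sub_eq_zero, ← map_sub, padSection_eq_zero_iff]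
  intro i
  simp only [Pi.sub_apply, map_sub, map_natCast, ZMod.natCast_zmod_val, sub_self]

lemma padSectionMod_eq_zero {w : Fin (parRank (Gamma0 N)) → ZMod 3} (h : padSectionMod w = 0) :
    w = 0 := funext fun i => by
  have := (padSection_eq_zero_iff _).1 h i
  simpa using this

lemma smul_padSectionMod (σ : GQ) (w : Fin (parRank (Gamma0 N)) → ZMod 3) :
    σ • padSectionMod w = padSectionMod ((galMat 3 N σ).map PadicInt.toZMod *ᵥ w) := by
  show σ • padSection _ = _
  rw [smul_padSection, ← padSectionMod_toZMod]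
  congr 1
  funext i
  rw [RingHom.map_mulVec]
  congr 1
  funext j
  simp

/-- **The exponent** of a representation inside the reduced lattice of level prime to three, whose
inertia at `3` is generated by `τ` of order dividing eight with `τ² + t τ = 1`: the residue `θ` of
`τ π / π` satisfies `θ² + t θ = 1`, the lattice being finite flat at `3`. -/
theorem root_of_embedded (hN : ¬ 3 ∣ N) {κ : Type} [Field κ] [CharP κ 3] {V : Type}
    [AddCommGroup V] [Module κ V] [Nontrivial V] (ρ : GQ →* Module.End κ V)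
    (E : LatticeEmbedding 3 N ρ) {A : ValuationSubring Qbar} (hA : A.LiesOverPrime 3) {τ : GQ}
    (hτ : τ ∈ A.inertiaSubgroupIn ℚ) {π : Qbar} {θ : IsLocalRing.ResidueField A}
    (hθ : IsTheta A τ π θ) (horb : ∀ σ ∈ A.inertiaSubgroupIn ℚ, ∃ j : ℕ, ρ σ = ρ τ ^ j)
    (h8 : ρ τ ^ 8 = 1) (t : ℤ) (ht : t = 1 ∨ t = -1) (hrel : ρ τ * ρ τ + t • ρ τ = 1) :
    θ ^ 2 + (t : IsLocalRing.ResidueField A) * θ = 1 := by
  classical
  let : Algebra (ZMod 3) κ := ZMod.algebra κ 3
  have := ES.finite_parGroup (ES.goodLevel_Gamma0 N) (3 ^ 1)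
  have : Finite (Additive (padRange 3 N 1)) :=
    Finite.of_equiv (padRange 3 N 1) Additive.ofMul
  obtain ⟨L, Φ, hL, hLG, hΦ⟩ := Flat.Hecke.exists_padRange_coords 3 N 1 hA hN
  have := hL; have := hLG
  obtain ⟨x, hx⟩ := exists_ne (0 : V)
  obtain ⟨i, hi⟩ : ∃ i, E.map x i ≠ 0 := Function.ne_iff.1 fun h =>
    hx (E.injective (h.trans (map_zero E.map).symm))
  obtain ⟨l, hl⟩ : ∃ l : κ →ₗ[ZMod 3] ZMod 3, l (E.map x i) ≠ 0 := by
    by_contra hcon
    push Not at hcon
    exact hi ((Module.forall_dual_apply_eq_zero_iff (ZMod 3) _).1 hcon)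
  let F : V →+ Additive (padRange 3 N 1) :=
    AddMonoidHom.mk' (fun v => padSectionMod fun j => l (E.map v j)) fun v w => by
      rw [← map_add]
      congr 1
      funext j
      simp [map_add]
  have hred : ∀ a : ℤ_[3], redHom 3 κ a = algebraMap (ZMod 3) κ (PadicInt.toZMod a) := fun a => rfl
  have hF : ∀ (σ : GQ) (v : V), σ • F v = F (ρ σ v) := fun σ v => by
    show σ • padSectionMod _ = padSectionMod _
    rw [smul_padSectionMod]
    congr 1
    funext j
    rw [E.equivariant]
    simp only [Matrix.mulVec, dotProduct, Matrix.map_apply, map_sum, hred, ← Algebra.smul_def,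
      map_smul, smul_eq_mul]
  have hFpow : ∀ (j : ℕ) (v : V), τ ^ j • F v = F ((ρ τ ^ j) v) := fun j v => by
    rw [hF, map_pow]
  have hkill : ∀ y : Additive (padRange 3 N 1), 3 • y = 0 := fun y =>
    Additive.toMul.injective (Subtype.ext (Subtype.ext y.toMul.1.2.1))
  have hP : τ • τ • F x + t • τ • F x = F x := by
    have h1 := LinearMap.congr_fun hrel x
    simp only [LinearMap.add_apply, LinearMap.smul_apply, Module.End.mul_apply,
      Module.End.one_apply] at h1
    calc τ • τ • F x + t • τ • F x = τ • F (ρ τ x) + t • F (ρ τ x) :=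
          congrArg₂ (fun a b => a + b) (congrArg (fun y => τ • y) (hF τ x))
            (congrArg (fun y => t • y) (hF τ x))
      _ = F (ρ τ (ρ τ x)) + t • F (ρ τ x) :=
          congrArg (fun y => y + t • F (ρ τ x)) (hF τ (ρ τ x))
      _ = F (ρ τ (ρ τ x) + t • ρ τ x) :=
          (by rw [map_add, map_zsmul])
      _ = F x := congrArg F h1
  refine root_of_coords hA hτ hθ hΦ hkill F.range ?_ (fun σ hσ => ?_) ?_ (P := F x) ⟨x, rfl⟩
    (fun h0 => hl ?_) t ht hP
  · rintro _ ⟨v, rfl⟩
    exact ⟨ρ τ v, (hF τ v).symm⟩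
  · obtain ⟨j, hj⟩ := horb σ hσ
    refine ⟨j, ?_⟩
    rintro _ ⟨v, rfl⟩
    exact (hF σ v).trans ((congrArg F (LinearMap.congr_fun hj v)).trans (hFpow j v).symm)
  · rintro _ ⟨v, rfl⟩
    exact (hFpow 8 v).trans (congrArg F (LinearMap.congr_fun h8 v))
  · exact congrFun (padSectionMod_eq_zero h0) i

end FermatAgent.LT.Mod3
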