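import Fermat.Agent.LT.Mod3.Galois.Twist
import Fermat.Agent.RT.Tame
import Fermat.Agent.Switch2.Supersingular

/-!
# The twisting character is trivial or cyclotomic

If `ρ = ψ ⊗ e` with `ψ² = 1` and inertia away from `3` acts through elements of order dividing
three, then `ψ` is unramified outside `3`, and at `3` it factors through the cyclic image of
inertia under `e`, so it is trivial or equal to the determinant.
-/

set_option autoImplicit false

noncomputable section

open FermatAgent.LT.Period (GL3)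

namespace FermatAgent.LT.Mod3

open FermatAgent.LT.Octa (OctaRep)

local notation "Qbar" => AlgebraicClosure ℚ
local notation "GQ" => AlgebraicClosure ℚ ≃ₐ[ℚ] AlgebraicClosure ℚ

variable {k : Type} [Field k] [CharP k 3] (R : OctaRep) (ρ : ResidualGaloisRep k)
  {b : Module.Basis (Fin 2) k ρ.V} {ψ : GQ →* k}

lemma neg_one_ne_one' : (-1 : k) ≠ 1 := fun h =>
  two_ne_zero' (k := k) (by linear_combination -h)

omit [CharP k 3] in
lemma smul_one_inj {a b : k} (h : a • (1 : Matrix (Fin 2) (Fin 2) k) = b • 1) : a = b := by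
  simpa using congrFun (congrFun h 0) 0

variable (hsq : ∀ g, ψ g ^ 2 = 1)
include hsq

omit [CharP k 3] in
/-- The twisting character takes values `±1`. -/
lemma psi_eq_one_or (g : GQ) : ψ g = 1 ∨ ψ g = -1 := by
  have h := hsq g
  rw [pow_two] at h
  exact mul_self_eq_one_iff.1 h

variable (htw : ∀ g, LinearMap.toMatrix b b (ρ.ρ g) = ψ g • castMat k (R.e g))
include htw

omit hsq in
lemma isOpen_psiKer : IsOpen ({g | ψ g = 1} : Set GQ) := by
  obtain ⟨L, hL, hfix⟩ := ρ.factorsThroughFiniteLevel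
  have hopen : IsOpen ((L.fixingSubgroup ⊓ R.e.ker : Subgroup GQ) : Set GQ) :=
    L.fixingSubgroup_isOpen.inter R.open_ker
  have hle : ∀ g ∈ (L.fixingSubgroup ⊓ R.e.ker : Subgroup GQ), ψ g = 1 := fun g hg => by
    have h := htw g
    rw [hfix g fun x hx => (IntermediateField.mem_fixingSubgroup_iff _ g).1 hg.1 x hx,
      MonoidHom.mem_ker.1 hg.2, LinearMap.toMatrix_one, map_one] at h
    exact smul_one_inj (a := ψ g) (b := 1) (by rw [one_smul, ← h])
  rw [isOpen_iff_mem_nhds]
  intro g hg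
  refine Filter.mem_of_superset ((hopen.leftCoset g).mem_nhds ⟨1, one_mem _, mul_one g⟩) ?_
  rintro _ ⟨u, hu, rfl⟩
  show ψ (g * u) = 1
  rw [map_mul, show ψ g = 1 from hg, hle u hu, one_mul]

variable (hram : ∀ q : ℕ, q.Prime → q ≠ 3 → ∀ A : ValuationSubring Qbar, A.LiesOverPrime q →
  ∀ σ ∈ A.inertiaSubgroupIn ℚ, ρ.ρ σ ^ 3 = 1)
include hram

lemma psi_inertia_ne {q : ℕ} (hq : q.Prime) (hq3 : q ≠ 3) {A : ValuationSubring Qbar}
    (hA : A.LiesOverPrime q) {σ : GQ} (hσ : σ ∈ A.inertiaSubgroupIn ℚ) : ψ σ = 1 := by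
  have h := htw (σ ^ 3)
  rw [map_pow, hram q hq hq3 A hA σ hσ, map_pow R.e, R.inertia_ne q hq hq3 A hA σ hσ,
    LinearMap.toMatrix_one, map_one] at h
  have h3 : ψ (σ ^ 3) = 1 := smul_one_inj (a := ψ (σ ^ 3)) (b := 1) (by rw [one_smul, ← h])
  rw [map_pow, pow_succ, hsq, one_mul] at h3
  exact h3

omit hram in
/-- At one place over `3` the character is trivial or the determinant on inertia. -/
lemma psi_inertia_three {A : ValuationSubring Qbar} (hA : A.LiesOverPrime 3) :
    (∀ σ ∈ A.inertiaSubgroupIn ℚ, ψ σ = 1) ∨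
      ∀ σ ∈ A.inertiaSubgroupIn ℚ,
        ψ σ = ZMod.castHom (dvd_refl 3) k (R.e σ).val.det := by
  classical
  have : Fact (Nat.Prime 2) := ⟨Nat.prime_two⟩
  have : Fact (Nat.Prime 3) := ⟨Nat.prime_three⟩
  let ψ' : GQ →* ℤˣ :=
    { toFun := fun g => if ψ g = 1 then 1 else -1
      map_one' := by simp
      map_mul' := fun g h => by
        rcases psi_eq_one_or hsq g with e | e <;> rcases psi_eq_one_or hsq h with e' | e' <;>
          simp [e, e', neg_one_ne_one'] }
  have hψ' : ∀ g, ψ g = ((ψ' g : ℤˣ) : ℤ) := fun g => by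
    rcases psi_eq_one_or hsq g with e | e <;> simp [ψ', e, neg_one_ne_one']
  let e' : GQ →* GL3 × ℤˣ := R.e.prod ψ'
  have hker : IsOpen (e'.ker : Set GQ) := by
    have : (e'.ker : Set GQ) = (R.e.ker : Set GQ) ∩ ({g | ψ g = 1} : Set GQ) := by
      ext g
      show e' g = 1 ↔ R.e g = 1 ∧ ψ g = 1
      rw [show e' g = (R.e g, ψ' g) from rfl, Prod.mk_eq_one]
      refine and_congr_right fun _ => ⟨fun h => ?_, fun h => if_pos h⟩
      rw [hψ', h]
      simp
    rw [this]
    exact R.open_ker.inter (isOpen_psiKer R ρ htw)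
  obtain ⟨x, hx, himg⟩ := R.inertia_three A hA
  have hP : IsPGroup 2 ((A.inertiaSubgroupIn ℚ).map e') := by
    rintro ⟨_, σ, hσ, rfl⟩
    refine ⟨3, Subtype.ext (Prod.ext ?_ ?_)⟩
    · show R.e σ ^ 8 = 1
      obtain ⟨i, hi⟩ := Subgroup.mem_zpowers_iff.1
        (show R.e σ ∈ Subgroup.zpowers x from himg ▸ ⟨σ, hσ, rfl⟩)
      rw [← hi, ← zpow_natCast, ← zpow_mul, mul_comm, zpow_mul, zpow_natCast, ← hx,
        pow_orderOf_eq_one, one_zpow]
    · show ψ' σ ^ 8 = 1
      rw [show (8 : ℕ) = 2 * 4 from rfl, pow_mul, Int.units_sq, one_pow]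
  obtain ⟨τ, hτI, hτ⟩ := RT.exists_inertia_cyclotomic Nat.prime_three hA (-1)
  have htame : RT.IsTameGen A 2 τ :=
    RT.isTameGen_of_cyclotomic Nat.prime_three (by norm_num)
      (fun u => Switch2.units_three_mem u) hτI hτ
  have hgen := RT.map_inertia_eq_zpowers e' Nat.prime_three hA (by norm_num) hker hP htame
  have hdet : (R.e τ).val.det = -1 := by
    have : NeZero ((3 : ℕ) : Qbar) := ⟨by norm_num⟩
    obtain ⟨ζ, hζ⟩ := HasEnoughRootsOfUnity.exists_primitiveRoot Qbar 3
    have h1 := (R.det τ ζ hζ.pow_eq_one).symm.trans (hτ ζ hζ.pow_eq_one)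
    refine ZMod.val_injective 3 (hζ.pow_inj (ZMod.val_lt _) (ZMod.val_lt _) ?_)
    rw [h1, Units.val_neg, Units.val_one]
  have key : ∀ σ ∈ A.inertiaSubgroupIn ℚ, ∃ i : ℕ, R.e σ = R.e τ ^ i ∧ ψ σ = ψ τ ^ i := by
    intro σ hσ
    obtain ⟨i, hi⟩ := (isOfFinOrder_of_finite (e' τ)).mem_powers_iff_mem_zpowers.2
      (show e' σ ∈ Subgroup.zpowers (e' τ) from hgen ▸ ⟨σ, hσ, rfl⟩)
    refine ⟨i, (congrArg Prod.fst hi).symm, ?_⟩
    have h2 : ψ' σ = ψ' τ ^ i := (congrArg Prod.snd hi).symm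
    rw [hψ', hψ' τ, h2]
    push_cast
    rfl
  rcases psi_eq_one_or hsq τ with e | e
  · left
    intro σ hσ
    obtain ⟨i, -, hi⟩ := key σ hσ
    rw [hi, e, one_pow]
  · right
    intro σ hσ
    obtain ⟨i, hie, hi⟩ := key σ hσ
    rw [hi, e, hie, Units.val_pow_eq_pow_val, Matrix.det_pow, map_pow, hdet, map_neg, map_one]

/-- **The twisting character is trivial or cyclotomic** if the twist of the octahedral
representation has inertia of order dividing three away from `3`. -/
theorem psi_cases :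
    (∀ g, ψ g = 1) ∨ ∀ g, ψ g = ZMod.castHom (dvd_refl 3) k (R.e g).val.det := by
  obtain ⟨A, hA⟩ := GaloisBasic.exists_liesOverPrime Nat.prime_three
  let d : GQ →* k :=
    ((ZMod.castHom (dvd_refl 3) k : ZMod 3 →+* k) : ZMod 3 →* k).comp
      (Matrix.detMonoidHom.comp ((Units.coeHom _).comp R.e))
  have hd : ∀ g, d g = ZMod.castHom (dvd_refl 3) k (R.e g).val.det := fun g => rfl
  have hd2 : ∀ g, d g * d g = 1 := fun g => by
    rw [hd, ← map_mul]
    have hu : IsUnit (R.e g).val.det := (Matrix.isUnit_iff_isUnit_det _).1 (Units.isUnit _)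
    obtain ⟨u, hu'⟩ := hu
    rw [← hu', ← Units.val_mul]
    rcases (show ∀ u : (ZMod 3)ˣ, u * u = 1 by decide) u with e
    rw [e, Units.val_one, map_one]
  -- a character trivial on all inertia and on an open subgroup is trivial
  have triv : ∀ f : GQ →* k, (∀ g, f g = ψ g ∨ f g = ψ g * d g) →
      (∀ g, ψ g = 1 → R.e g = 1 → f g = 1) →
      (∀ q : ℕ, q.Prime → ∀ B : ValuationSubring Qbar, B.LiesOverPrime q →
        ∀ σ ∈ B.inertiaSubgroupIn ℚ, f σ = 1) → ∀ g, f g = 1 := by
    intro f _ hopen hun g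
    let fu : GQ →* kˣ := f.toHomUnits
    have hk : IsOpen (fu.ker : Set GQ) := by
      rw [isOpen_iff_mem_nhds]
      intro a ha
      refine Filter.mem_of_superset ((((isOpen_psiKer R ρ htw).inter R.open_ker).leftCoset
        a).mem_nhds ⟨1, ⟨map_one ψ, one_mem _⟩, mul_one a⟩) ?_
      rintro _ ⟨u, ⟨hu, hu'⟩, rfl⟩
      show fu (a * u) = 1
      rw [map_mul, MonoidHom.mem_ker.1 ha, one_mul]
      exact Units.ext (hopen u hu (MonoidHom.mem_ker.1 hu'))
    exact congrArg Units.val (DFunLike.congr_fun (GaloisBasic.monoidHom_eq_one_of_unramified fu hk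
      (fun q hq B hB σ hσ => Units.ext (hun q hq B hB σ hσ))) g)
  have hconj : ∀ f : GQ →* k, (∀ σ ∈ A.inertiaSubgroupIn ℚ, f σ = 1) →
      ∀ B : ValuationSubring Qbar, B.LiesOverPrime 3 → ∀ σ ∈ B.inertiaSubgroupIn ℚ, f σ = 1 := by
    intro f hf B hB σ hσ
    obtain ⟨t, ht⟩ := GaloisBasic.exists_smul_eq Nat.prime_three hB hA
    have h := hf _ (ht ▸ GaloisBasic.conj_mem_inertiaSubgroupIn Nat.prime_three hB hσ t :
      t * σ * t⁻¹ ∈ A.inertiaSubgroupIn ℚ)
    rwa [map_mul, map_mul, mul_right_comm, ← map_mul, mul_inv_cancel, map_one, one_mul] at h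
  rcases psi_inertia_three R ρ hsq htw hA with h | h
  · refine Or.inl (triv ψ (fun g => Or.inl rfl) (fun g hg _ => hg) fun q hq B hB σ hσ => ?_)
    by_cases hq3 : q = 3
    · subst hq3
      exact hconj ψ h B hB σ hσ
    · exact psi_inertia_ne R ρ hsq htw hram hq hq3 hB hσ
  · right
    have h1 := triv (ψ * d) (fun g => Or.inr rfl) (fun g hg he => by
        rw [MonoidHom.mul_apply, hg, hd, he, Units.val_one, Matrix.det_one, map_one, one_mul])
      fun q hq B hB σ hσ => by
        by_cases hq3 : q = 3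
        · subst hq3
          refine hconj (ψ * d) (fun τ hτ => ?_) B hB σ hσ
          rw [MonoidHom.mul_apply, h τ hτ, ← hd, hd2]
        · have h3 : (R.e σ).val.det = 1 := by
            have := congrArg (fun x : GL3 => x.val.det) (R.inertia_ne q hq hq3 B hB σ hσ)
            simp only [Units.val_pow_eq_pow_val, Matrix.det_pow, Units.val_one,
              Matrix.det_one] at this
            revert this
            generalize (R.e σ).val.det = x
            revert x
            decide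
          rw [MonoidHom.mul_apply, psi_inertia_ne R ρ hsq htw hram hq hq3 hB hσ, hd, h3,
            map_one, one_mul]
    intro g
    rw [← hd, ← mul_one (ψ g), ← hd2 g, ← mul_assoc]
    exact (congrArg (· * d g) (h1 g)).trans (one_mul _)

end FermatAgent.LT.Mod3
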