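import Fermat.Agent.LT.Mod3.Galois.PointCount
import Fermat.Agent.EC.GoodPrimeTrace
import Fermat.Agent.Mazur.Kummer
import Fermat.Agent.ECLocal.PointMaps

/-!
# A Galois detectable family of Eisenstein primes congruent to one

The torsion of `y² = x³ + 1` generates abelian extensions of `ℚ(ζ₃)`: Galois elements fixing
`ζ₃` commute with the automorphism of order three.  A Frobenius fixing the `n`-torsion has
`n² ∣ #E(𝔽_p)`, so `p = π π̄` with `π ≡ 1 (mod n)`.
-/

set_option autoImplicit false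

noncomputable section

open WeierstrassCurve WeierstrassCurve.Affine
open scoped commutatorElement
open scoped WeierstrassCurve.Affine

namespace FermatAgent.LT.Mod3

open FermatAgent.ECLocal

local notation "Qbar" => AlgebraicClosure ℚ
local notation "GQ" => AlgebraicClosure ℚ ≃ₐ[ℚ] AlgebraicClosure ℚ
set_option quotPrecheck false in
local notation "EQ" => ((cmCurve.map (Int.castRingHom ℚ))⁄Qbar).Point

/-- A prime `π π̄` with `π ≡ 1 (mod n)` in the Eisenstein integers. -/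
def IsCMPrime (n p : ℕ) : Prop :=
  ∃ u v : ℤ, (p : ℤ) = eisNorm u v ∧ (n : ℤ) ∣ u - 1 ∧ (n : ℤ) ∣ v

/-- CM primes are congruent to one. -/
lemma IsCMPrime.cast_eq_one {n p : ℕ} (h : IsCMPrime n p) : (p : ZMod n) = 1 := by
  obtain ⟨u, v, hp, ⟨a, ha⟩, ⟨b, hb⟩⟩ := h
  have := congrArg (fun z : ℤ => (z : ZMod n)) hp
  rw [eisNorm, show u = 1 + n * a by linear_combination ha, hb] at this
  simpa using this

/-- Frobenius raises roots of unity to the power `ℓ`. -/
theorem frobenius_rootOfUnity {ℓ n : ℕ} (hℓ : ℓ.Prime) (hn : ¬ ℓ ∣ n)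
    {A : ValuationSubring Qbar} (hA : A.LiesOverPrime ℓ) {σ : GQ} (hσ : A.IsFrobeniusAt σ ℓ)
    {ζ : Qbar} (hζ : ζ ^ n = 1) : σ ζ = ζ ^ ℓ :=
  Mazur.frobenius_rootsOfUnity hℓ hA hn (fun e => hn (e ▸ dvd_zero ℓ)) hσ hζ

/-- A Frobenius fixing the `n`-torsion gives `n² ∣ #E(𝔽_ℓ)`. -/
theorem sq_dvd_card {W : WeierstrassCurve ℤ} {ℓ n : ℕ} (hℓ : ℓ.Prime)
    (hgood : W.IsGoodPrimeFor ℓ) (hn : ¬ ℓ ∣ n)
    {A : ValuationSubring Qbar} (hA : A.LiesOverPrime ℓ) {σ : GQ} (hσ : A.IsFrobeniusAt σ ℓ)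
    (hfix : ∀ P : ((W.map (Int.castRingHom ℚ))⁄Qbar).Point, n • P = 0 → σ • P = P) :
    n ^ 2 ∣ (W.reductionMod ℓ).card := by
  classical
  have := Fact.mk hℓ
  let k := IsLocalRing.ResidueField A
  have : IsAlgClosed k := isAlgClosed_residueField A
  have : CharP k ℓ := residueChar A hA
  let : Algebra (ZMod ℓ) k := ZMod.algebra k ℓ
  let : DecidableEq k := Classical.decEq k
  set W₀ : WeierstrassCurve (ZMod ℓ) := W.reductionMod ℓ with hW₀
  have hΔ : W.Δ ≠ 0 := fun h => hgood (h ▸ dvd_zero _)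
  have hΔq := EC.intMap_Δ_ne_zero hΔ
  have hn0 : n ≠ 0 := fun e => hn (e ▸ dvd_zero ℓ)
  obtain ⟨σk, G, hσk, hker, hconj⟩ := EC.exists_reduction_frobenius hgood hn hA hσ
  let F : AddSubgroup (W₀⁄k).Point :=
    AddMonoidHom.eqLocus (DistribSMul.toAddMonoidHom _ σk) (AddMonoidHom.id _)
  have hF : Nat.card F = W₀.card := EC.natCard_fixed_eq_card W₀ σk hσk
  let ι : Submodule.torsionBy ℤ ((W.map (Int.castRingHom ℚ))⁄Qbar).Point n →+ F :=
    AddMonoidHom.mk' (fun x => ⟨G x.1, by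
      have hx : n • x.1 = 0 := by
        rw [← natCast_zsmul]; exact (Submodule.mem_torsionBy_iff _ _).1 x.2
      show σk • G x.1 = G x.1
      rw [← hconj x.1 hx, hfix x.1 hx]⟩) fun x y => Subtype.ext (map_add G x.1 y.1)
  have hι : Function.Injective ι := (injective_iff_map_eq_zero _).2 fun x hx => by
    refine Subtype.ext (hker x.1 ?_ (congrArg Subtype.val hx))
    rw [← natCast_zsmul]; exact (Submodule.mem_torsionBy_iff _ _).1 x.2
  rw [← EC.natCard_torsionBy_rat (W.map (Int.castRingHom ℚ)) hΔq hn0, ← hF]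
  exact AddSubgroup.card_dvd_of_injective ι hι

section Omega

variable {ω : Qbar}

lemma omega_ne_zero (hω : ω ^ 3 = 1) : ω ≠ 0 := fun e => by
  rw [e, zero_pow three_ne_zero] at hω; exact zero_ne_one hω

lemma cm_smul_eq (hω : ω ^ 3 = 1) :
    (⟨Units.mk0 ω (omega_ne_zero hω), 0, 0, 0⟩ : VariableChange Qbar) •
      ((cmCurve.map (Int.castRingHom ℚ))⁄Qbar : WeierstrassCurve Qbar) =
      ((cmCurve.map (Int.castRingHom ℚ))⁄Qbar : WeierstrassCurve Qbar) := by
  have h6 : ω⁻¹ ^ 6 = 1 := by rw [inv_pow, show ω ^ 6 = (ω ^ 3) ^ 2 by ring, hω]; simp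
  ext <;>
    simp [WeierstrassCurve.variableChange_def, WeierstrassCurve.baseChange, cmCurve, h6]

/-- The automorphism `(x, y) ↦ (ω² x, y)`. -/
def omegaMap (hω : ω ^ 3 = 1) : EQ →+ EQ :=
  (vcHom ⟨Units.mk0 ω (omega_ne_zero hω), 0, 0, 0⟩ _).comp
    (pointCongr (congrArg WeierstrassCurve.toAffine (cm_smul_eq hω).symm)).toAddMonoidHom

lemma omegaMap_some (hω : ω ^ 3 = 1) {x y : Qbar}
    (h : ((cmCurve.map (Int.castRingHom ℚ))⁄Qbar).toAffine.Nonsingular x y) :
    ∃ h', omegaMap hω (.some x y h) = .some (ω ^ 2 * x) y h' := by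
  have key : omegaMap hω (.some x y h) = vcHom _ _ (pointCongr
    (congrArg WeierstrassCurve.toAffine (cm_smul_eq hω).symm) (.some x y h)) := rfl
  rw [pointCongr_some, vcHom_some] at key
  simp only [Units.val_mk0, add_zero, mul_zero, zero_mul, hω, one_mul] at key
  exact ⟨_, key⟩

lemma smul_omegaMap (hω : ω ^ 3 = 1) {ω' : Qbar} (hω' : ω' ^ 3 = 1) {σ : GQ} (hσ : σ ω = ω')
    (P : EQ) : σ • omegaMap hω P = omegaMap hω' (σ • P) := by
  rcases P with _ | ⟨x, y, h⟩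
  · rw [← Affine.Point.zero_def, map_zero, galois_smul_zero, map_zero]
  obtain ⟨h', e⟩ := omegaMap_some hω h
  have hns : ((cmCurve.map (Int.castRingHom ℚ))⁄Qbar).toAffine.Nonsingular (σ x) (σ y) :=
    (Affine.baseChange_nonsingular (W := cmCurve.map (Int.castRingHom ℚ))
        (f := σ.toAlgHom) σ.injective x y).mpr h
  have e0 : σ • (Affine.Point.some x y h : EQ) = .some (σ x) (σ y) hns := rfl
  rw [e, e0]
  obtain ⟨h'', e'⟩ := omegaMap_some hω' hns
  rw [e', Affine.Point.algEquiv_smul_def, Affine.Point.map_some]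
  simp only [Affine.Point.some.injEq]
  exact ⟨by simp [hσ], rfl⟩

lemma omegaMap_sq (hω : ω ^ 3 = 1) (hω' : (ω ^ 2) ^ 3 = 1) (P : EQ) :
    omegaMap hω' P = omegaMap hω (omegaMap hω P) := by
  rcases P with _ | ⟨x, y, h⟩
  · simp only [← Affine.Point.zero_def, map_zero]
  obtain ⟨h₁, e₁⟩ := omegaMap_some hω h
  obtain ⟨h₂, e₂⟩ := omegaMap_some hω h₁
  obtain ⟨h₃, e₃⟩ := omegaMap_some hω' h
  rw [e₁, e₂, e₃]
  simp only [Affine.Point.some.injEq]
  exact ⟨by ring, trivial⟩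

/-- There is an automorphism inverting the primitive cube root. -/
lemma exists_swap (hω : IsPrimitiveRoot ω 3) : ∃ τ : GQ, τ ω = ω ^ 2 := by
  have h1 : minpoly ℚ ω = Polynomial.cyclotomic 3 ℚ :=
    (Polynomial.cyclotomic_eq_minpoly_rat hω (by norm_num)).symm
  have h2 : minpoly ℚ (ω ^ 2) = Polynomial.cyclotomic 3 ℚ :=
    (Polynomial.cyclotomic_eq_minpoly_rat (hω.pow_of_coprime 2 (by decide)) (by norm_num)).symm
  obtain ⟨τ, hτ⟩ := minpoly.exists_algEquiv_of_root' (Algebra.IsAlgebraic.isAlgebraic ω)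
    (show Polynomial.aeval (ω ^ 2) (minpoly ℚ ω) = 0 by rw [h1, ← h2]; exact minpoly.aeval ℚ _)
  exact ⟨τ, hτ⟩

lemma natCard_cm_torsion {n : ℕ} (hn : n ≠ 0) :
    Nat.card (Submodule.torsionBy ℤ EQ n) = n ^ 2 :=
  EC.natCard_torsionBy_rat (cmCurve.map (Int.castRingHom ℚ))
    (by rw [WeierstrassCurve.map_Δ, cmCurve_Δ]; norm_num) hn

/-- A point of order `ℓ` which is not an eigenvector of the automorphism. -/
lemma exists_indep (hω : IsPrimitiveRoot ω 3) {ℓ : ℕ} (hℓ : ℓ.Prime) :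
    ∃ Q : EQ, ℓ • Q = 0 ∧ ∀ a b : ℤ, a • Q + b • omegaMap hω.pow_eq_one Q = 0 →
      (ℓ : ℤ) ∣ a ∧ (ℓ : ℤ) ∣ b := by
  classical
  have := Fact.mk hℓ
  have hΔ : (cmCurve.map (Int.castRingHom ℚ)).Δ ≠ 0 := by
    rw [WeierstrassCurve.map_Δ, cmCurve_Δ]; norm_num
  set V := Submodule.torsionBy ℤ EQ (ℓ : ℤ)
  have hrank : Module.finrank (ZMod ℓ) V = 2 := EC.finrank_torsionBy_rat _ hΔ ℓ
  have : Module.Finite (ZMod ℓ) V := Module.finite_of_finrank_eq_succ hrank
  have hmem : ∀ P : EQ, ℓ • P = 0 ↔ P ∈ V := fun P => by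
    rw [Submodule.mem_torsionBy_iff, natCast_zsmul]
  let f : V →ₗ[ZMod ℓ] V := AddMonoidHom.toZModLinearMap ℓ
    (AddMonoidHom.mk' (fun x => ⟨omegaMap hω.pow_eq_one x.1, (hmem _).1 (by
      rw [← map_nsmul, (hmem _).2 x.2, map_zero])⟩) fun x y => Subtype.ext (map_add _ x.1 y.1))
  have hf : ∀ x : V, (f x : EQ) = omegaMap hω.pow_eq_one x.1 := fun _ => rfl
  suffices h : ∃ v : V, LinearIndependent (ZMod ℓ) ![v, f v] by
    obtain ⟨v, hv⟩ := h
    refine ⟨v.1, (hmem _).2 v.2, fun a b hab => ?_⟩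
    have h0 : (a : ZMod ℓ) • v + (b : ZMod ℓ) • f v = 0 := by
      simp only [Int.cast_smul_eq_zsmul]
      exact Subtype.ext (by simpa [hf] using hab)
    have := LinearIndependent.pair_iff.1 hv _ _ h0
    exact ⟨(ZMod.intCast_zmod_eq_zero_iff_dvd _ _).1 this.1,
      (ZMod.intCast_zmod_eq_zero_iff_dvd _ _).1 this.2⟩
  by_contra hcon
  push Not at hcon
  obtain ⟨c, hc⟩ := f.exists_eq_smul_id_of_forall_notLinearIndependent hcon
  have hfc : ∀ x : V, f x = c • x := fun x => by rw [hc]; rfl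
  obtain ⟨τ, hτ⟩ := exists_swap hω
  have hω2 : (ω ^ 2) ^ 3 = 1 := by rw [← pow_mul, mul_comm, pow_mul, hω.pow_eq_one, one_pow]
  have hτf : ∀ x : V, τ • f x = f (f (τ • x)) := fun x => Subtype.ext (by
    show τ • (f x : EQ) = _
    rw [hf, hf, hf, smul_omegaMap hω.pow_eq_one hω2 hτ, omegaMap_sq hω.pow_eq_one]
    rfl)
  have : Nontrivial V := Module.nontrivial_of_finrank_eq_succ hrank
  obtain ⟨x₀, hx₀⟩ := exists_ne (0 : V)
  have hc1 : c = 1 := by
    have hz : (c * c - c) • x₀ = 0 := by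
      have h := hτf (τ⁻¹ • x₀)
      rw [smul_inv_smul, hfc, smul_comm, smul_inv_smul, hfc, hfc, smul_smul] at h
      rw [sub_smul, ← h, sub_self]
    have h2 := (smul_eq_zero.1 hz).resolve_right hx₀
    rw [← mul_sub_one, mul_eq_zero, sub_eq_zero] at h2
    refine h2.resolve_left fun e => hx₀ (Subtype.ext ?_)
    have h3 : omegaMap hω.pow_eq_one x₀.1 = 0 := by
      rw [← hf, hfc, e, zero_smul]; rfl
    rcases hp : x₀.1 with _ | ⟨x, y, h⟩
    · rfl
    · obtain ⟨h', e'⟩ := omegaMap_some hω.pow_eq_one h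
      rw [hp, e'] at h3
      exact absurd h3 (Affine.Point.some_ne_zero _)
  -- all points are fixed, so their abscissa vanishes
  have hfix : ∀ x : V, omegaMap hω.pow_eq_one x.1 = x.1 := fun x => by
    rw [← hf, hfc, hc1, one_smul]
  let ψ : V → Option {y : Qbar // y = 1 ∨ y = -1} := fun v =>
    match hp : v.1 with
    | .zero => none
    | .some x y h => some ⟨y, by
        obtain ⟨h', e'⟩ := omegaMap_some hω.pow_eq_one h
        have h1 := hfix v
        rw [hp, e'] at h1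
        simp only [Affine.Point.some.injEq] at h1
        have hx : x = 0 := by
          have h2 : (ω ^ 2 - 1) * x = 0 := by linear_combination h1.1
          exact (mul_eq_zero.1 h2).resolve_left
            (sub_ne_zero.2 (hω.pow_ne_one_of_pos_of_lt two_ne_zero (by norm_num)))
        have he := (Affine.equation_iff x y).1 h.1
        simp [WeierstrassCurve.baseChange, cmCurve, hx] at he
        exact he⟩
  have hψ : Function.Injective ψ := by
    intro v w hvw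
    refine Subtype.ext ?_
    have hzero :
        ∀ {x y : Qbar} (h : ((cmCurve.map (Int.castRingHom ℚ))⁄Qbar).toAffine.Nonsingular x y)
        (u : V), u.1 = .some x y h → x = 0 := by
      intro x y h u hu
      obtain ⟨h', e'⟩ := omegaMap_some hω.pow_eq_one h
      have h1 := hfix u
      rw [hu, e'] at h1
      simp only [Affine.Point.some.injEq] at h1
      have h2 : (ω ^ 2 - 1) * x = 0 := by linear_combination h1.1
      exact (mul_eq_zero.1 h2).resolve_left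
        (sub_ne_zero.2 (hω.pow_ne_one_of_pos_of_lt two_ne_zero (by norm_num)))
    simp only [ψ] at hvw
    split at hvw <;> rename_i hv <;> split at hvw <;> rename_i hw
    · rw [hv, hw]
    · simp at hvw
    · simp at hvw
    · simp only [Option.some.injEq, Subtype.mk.injEq] at hvw
      subst hvw
      rw [hv, hw]
      simp only [Affine.Point.some.injEq]
      exact ⟨(hzero _ v hv).trans (hzero _ w hw).symm, trivial⟩
  have : Finite {y : Qbar // y = 1 ∨ y = -1} :=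
    Finite.of_equiv ({1, -1} : Finset Qbar) (Equiv.subtypeEquivRight (by simp))
  have hcard := Nat.card_le_card_of_injective ψ hψ
  rw [natCard_cm_torsion hℓ.ne_zero, Finite.card_option] at hcard
  have h2 : Nat.card {y : Qbar // y = 1 ∨ y = -1} ≤ 2 := by
    rw [← Nat.card_congr (Equiv.subtypeEquivRight (p := fun y => y ∈ ({1, -1} : Finset Qbar))
      (q := fun y => y = 1 ∨ y = -1) (by simp)), Nat.card_eq_finsetCard]
    exact Finset.card_le_two
  have := Nat.pow_le_pow_left hℓ.two_le 2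
  omega

/-- The elements fixing `ω` commute on the `n`-torsion of `y² = x³ + 1`. -/
def Commutes (ω : Qbar) (n : ℕ) : Prop :=
  ∀ σ σ' : GQ, σ ω = ω → σ' ω = ω → ∀ P : EQ, n • P = 0 → σ • σ' • P = σ' • σ • P

/-! The laws of the three actions on the points, stated for `EQ`: the general lemmas do not rewrite
here. -/

lemma gsmul_add (σ : GQ) (P R : EQ) : σ • (P + R) = σ • P + σ • R := smul_add σ P R

lemma npt_add (n : ℕ) (P R : EQ) : n • (P + R) = n • P + n • R := smul_add n P R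

lemma zpt_add (n : ℤ) (P R : EQ) : n • (P + R) = n • P + n • R := smul_add n P R

lemma zpt_zero (n : ℤ) : n • (0 : EQ) = 0 := zsmul_zero n

lemma zpt_mul (m n : ℤ) (P : EQ) : (m * n) • P = m • n • P := mul_smul m n P

lemma zpt_split (m n : ℤ) (P : EQ) : (m + n) • P = m • P + n • P := add_smul m n P

lemma zpt_nat_comm (m : ℕ) (n : ℤ) (P : EQ) : m • n • P = n • m • P := smul_comm m n P

lemma nsmul_smul_comm (σ : GQ) (n : ℕ) (P : EQ) : n • σ • P = σ • (n • P) :=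
  (map_nsmul (DistribSMul.toAddMonoidHom EQ σ) n P).symm

lemma zsmul_smul_comm (σ : GQ) (n : ℤ) (P : EQ) : σ • (n • P) = n • σ • P :=
  map_zsmul (DistribSMul.toAddMonoidHom EQ σ) n P

lemma commutes_primePow (hω : IsPrimitiveRoot ω 3) {ℓ : ℕ} (hℓ : ℓ.Prime) (e : ℕ) :
    Commutes ω (ℓ ^ e) := by
  classical
  set w := omegaMap hω.pow_eq_one
  obtain ⟨Q, hQ, hind⟩ := exists_indep hω hℓ
  have hgen : ∀ e : ℕ, ∃ P₀ : EQ, ℓ ^ e • P₀ = 0 ∧
      ∀ R : EQ, ℓ ^ e • R = 0 → ∃ a b : ℤ, R = a • P₀ + b • w P₀ := by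
    intro e
    obtain ⟨P₀, hP₀⟩ : ∃ P₀ : EQ, ℓ ^ e • (ℓ • P₀) = ℓ • Q ∧ (0 < e → ℓ ^ (e - 1) • P₀ = Q) := by
      obtain ⟨P₀, hP₀⟩ := EC.exists_nsmul_eq (V := ((cmCurve.map (Int.castRingHom ℚ))⁄Qbar))
        (EC.baseChange_Δ_ne_zero (cmCurve.map (Int.castRingHom ℚ))
          (by rw [WeierstrassCurve.map_Δ, cmCurve_Δ]; norm_num))
        (pow_ne_zero (e - 1) hℓ.ne_zero) Q
      refine ⟨P₀, ?_, fun _ => hP₀⟩
      rw [← mul_nsmul', ← pow_succ]
      rcases Nat.eq_zero_or_pos e with rfl | he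
      · simp at hP₀; simp [hP₀]
      · rw [show e + 1 = (e - 1) + 2 by omega, pow_add, mul_comm, mul_nsmul', hP₀,
          pow_two, mul_nsmul']
        simp [hQ]
    have h0 : ℓ ^ e • P₀ = 0 ∨ e = 0 := by
      rcases Nat.eq_zero_or_pos e with he | he
      · exact Or.inr he
      · left
        rw [show ℓ ^ e = ℓ * ℓ ^ (e - 1) by rw [← pow_succ']; congr 1; omega, mul_nsmul',
          hP₀.2 he, hQ]
    rcases h0 with h0 | rfl
    swap
    · exact ⟨0, by simp, fun R hR => ⟨0, 0, by simpa using hR⟩⟩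
    refine ⟨P₀, h0, fun R hR => ?_⟩
    set V := Submodule.torsionBy ℤ EQ ((ℓ ^ e : ℕ) : ℤ)
    have hmem : ∀ P : EQ, ℓ ^ e • P = 0 ↔ P ∈ V := fun P => by
      rw [Submodule.mem_torsionBy_iff, natCast_zsmul]
    let φ : ZMod (ℓ ^ e) × ZMod (ℓ ^ e) → V := fun ab =>
      ⟨(ab.1.val : ℤ) • P₀ + (ab.2.val : ℤ) • w P₀, (hmem _).1 (by
        rw [npt_add, zpt_nat_comm, h0, zpt_nat_comm, ← map_nsmul, h0, map_zero,
          zpt_zero, zpt_zero, add_zero])⟩
    have key : ∀ i, i ≤ e → ∀ a b : ℤ, a • P₀ + b • w P₀ = 0 →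
        (ℓ : ℤ) ^ i ∣ a ∧ (ℓ : ℤ) ^ i ∣ b := by
      intro i
      induction i with
      | zero => intro _ a b _; simp
      | succ i ih =>
        intro hi a b hab
        obtain ⟨⟨a', rfl⟩, ⟨b', rfl⟩⟩ := ih (by omega) a b hab
        have he : 0 < e := by omega
        have h1 : a' • Q + b' • w Q = 0 := by
          have h2 := congrArg (fun x : EQ => ((ℓ : ℤ) ^ (e - 1 - i)) • x) hab
          simp only [zpt_add, zpt_zero, ← zpt_mul] at h2
          rw [← hP₀.2 he, map_nsmul, ← natCast_zsmul, ← natCast_zsmul, ← zpt_mul, ← zpt_mul]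
          rw [← h2]
          push_cast
          rw [show (ℓ : ℤ) ^ (e - 1) = (ℓ : ℤ) ^ (e - 1 - i) * (ℓ : ℤ) ^ i by
            rw [← pow_add]; congr 1; omega]
          congr 2 <;> ring
        obtain ⟨⟨a'', rfl⟩, ⟨b'', rfl⟩⟩ := hind a' b' h1
        exact ⟨⟨a'', by rw [pow_succ]; ring⟩, ⟨b'', by rw [pow_succ]; ring⟩⟩
    have hφ : Function.Injective φ := by
      rintro ⟨a, b⟩ ⟨a', b'⟩ h
      have h1 := congrArg Subtype.val h
      simp only [φ] at h1
      obtain ⟨d1, d2⟩ := key e le_rfl ((a.val : ℤ) - a'.val) ((b.val : ℤ) - b'.val) (by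
        rw [sub_smul, sub_smul, ← sub_eq_zero.2 h1]; abel)
      have : NeZero (ℓ ^ e) := ⟨pow_ne_zero e hℓ.ne_zero⟩
      have h3 : ∀ z z' : ZMod (ℓ ^ e), (ℓ : ℤ) ^ e ∣ (z.val : ℤ) - z'.val → z = z' :=
        fun z z' hd => by
        rw [← ZMod.natCast_zmod_val z, ← ZMod.natCast_zmod_val z', ZMod.natCast_eq_natCast_iff,
          Nat.modEq_iff_dvd, ← dvd_neg, neg_sub]
        exact_mod_cast hd
      rw [h3 a a' d1, h3 b b' d2]
    have : NeZero (ℓ ^ e) := ⟨pow_ne_zero e hℓ.ne_zero⟩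
    have : Finite V := Nat.finite_of_card_ne_zero (by
      rw [natCard_cm_torsion (pow_ne_zero e hℓ.ne_zero)]
      exact pow_ne_zero 2 (pow_ne_zero e hℓ.ne_zero))
    have hbij := hφ.bijective_of_nat_card_le (by
      rw [natCard_cm_torsion (pow_ne_zero e hℓ.ne_zero), Nat.card_prod, Nat.card_zmod, pow_two])
    obtain ⟨⟨a, b⟩, hab⟩ := hbij.2 ⟨R, (hmem R).1 hR⟩
    exact ⟨_, _, (congrArg Subtype.val hab).symm⟩
  obtain ⟨P₀, hP₀, hspan⟩ := hgen e
  intro σ σ' hσ hσ' R hR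
  have hw : ∀ (g : GQ), g ω = ω → ∀ S : EQ, g • w S = w (g • S) := fun g hg S =>
    smul_omegaMap hω.pow_eq_one hω.pow_eq_one hg S
  have hlin : ∀ (g : GQ), g ω = ω → ∀ a b : ℤ, g • (a • P₀ + b • w P₀) =
      a • g • P₀ + b • w (g • P₀) := fun g hg a b => by
    rw [gsmul_add, zsmul_smul_comm, zsmul_smul_comm, hw g hg]
  obtain ⟨c, d, hcd⟩ := hspan (σ • P₀) (by rw [nsmul_smul_comm, hP₀, galois_smul_zero])
  obtain ⟨c', d', hcd'⟩ := hspan (σ' • P₀) (by rw [nsmul_smul_comm, hP₀, galois_smul_zero])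
  obtain ⟨a, b, rfl⟩ := hspan R hR
  rw [hlin σ' hσ', hlin σ hσ, hcd', hcd]
  simp only [gsmul_add, zpt_add, map_add, map_zsmul, zsmul_smul_comm, hw σ hσ, hw σ' hσ', hcd,
    hcd']
  module

/-- The elements fixing `ω` act `ℤ[ω]`-linearly on the torsion, a cyclic module, so they commute. -/
theorem commutes (hω : IsPrimitiveRoot ω 3) {n : ℕ} (hn : n ≠ 0) : Commutes ω n := by
  induction n using Nat.recOnPrimeCoprime with
  | zero => exact absurd rfl hn
  | prime_pow ℓ e hℓ => exact commutes_primePow hω hℓ e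
  | coprime a b ha hb hab iha ihb =>
    intro σ σ' hσ hσ' P hP
    obtain ⟨u, v, huv⟩ := (Int.isCoprime_iff_nat_coprime.2 (by simpa using hab) :
      IsCoprime (a : ℤ) (b : ℤ))
    have hsplit : P = (u * a) • P + (v * b) • P := by
      rw [← zpt_split, huv]; exact (one_zsmul P).symm
    have hab0 : ((a : ℤ) * b) • P = 0 := by rw [← Nat.cast_mul, natCast_zsmul, hP]
    have h1 : b • ((u * a) • P) = 0 := by
      rw [← natCast_zsmul, ← zpt_mul, show (b : ℤ) * (u * a) = u * (a * b) by ring, zpt_mul, hab0,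
        zpt_zero]
    have h2 : a • ((v * b) • P) = 0 := by
      rw [← natCast_zsmul, ← zpt_mul, show (a : ℤ) * (v * b) = v * (a * b) by ring, zpt_mul, hab0,
        zpt_zero]
    have e1 := ihb (by omega) σ σ' hσ hσ' _ h1
    have e2 := iha (by omega) σ σ' hσ hσ' _ h2
    rw [hsplit, gsmul_add, gsmul_add, gsmul_add, gsmul_add, e1, e2]

end Omega

/-- The elements fixing the `n`-torsion of `y² = x³ + 1` and the roots of unity of order `3n`. -/
def cmGroup (n : ℕ) : Subgroup GQ where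
  carrier := {σ | (∀ P : EQ, n • P = 0 → σ • P = P) ∧ ∀ z : Qbar, z ^ (3 * n) = 1 → σ z = z}
  one_mem' := ⟨fun P _ => one_smul _ P, fun _ _ => rfl⟩
  mul_mem' := fun {a b} ha hb => ⟨fun P hP => by rw [mul_smul, hb.1 P hP, ha.1 P hP],
    fun z hz => by rw [AlgEquiv.mul_apply, hb.2 z hz, ha.2 z hz]⟩
  inv_mem' := fun {a} ha => ⟨fun P hP => inv_smul_eq_iff.2 (ha.1 P hP).symm,
    fun z hz => a.symm_apply_eq.2 (ha.2 z hz).symm⟩

instance cmGroup_normal (n : ℕ) : (cmGroup n).Normal where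
  conj_mem σ hσ g := ⟨fun P hP => by
      rw [mul_smul, mul_smul, hσ.1 _ (by rw [nsmul_smul_comm, hP, galois_smul_zero]),
        smul_inv_smul],
    fun z hz => by
      rw [AlgEquiv.mul_apply, AlgEquiv.mul_apply, hσ.2 _ (by rw [← map_pow, hz, map_one]),
        ← AlgEquiv.mul_apply, mul_inv_cancel, AlgEquiv.one_apply]⟩

/-- The CM group is open. -/
lemma isOpen_cmGroup {n : ℕ} (hn : n ≠ 0) : IsOpen (cmGroup n : Set GQ) := by
  have hΔ : (cmCurve.map (Int.castRingHom ℚ)).Δ ≠ 0 := by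
    rw [WeierstrassCurve.map_Δ, cmCurve_Δ]; norm_num
  have := EC.finite_torsionBy_rat (cmCurve.map (Int.castRingHom ℚ)) hΔ hn
  obtain ⟨L, hL, hLfix⟩ := EC.exists_finiteDimensional_fixing (cmCurve.map (Int.castRingHom ℚ))
    (Submodule.torsionBy ℤ EQ n : Set EQ) (Set.toFinite _)
  set Z : Set Qbar := {z | z ^ (3 * n) = 1}
  have : Finite Z := Set.Finite.to_subtype <|
    (Polynomial.nthRootsFinset (3 * n) (1 : Qbar)).finite_toSet.subset fun z hz => by
      exact (Polynomial.mem_nthRootsFinset (by omega : 0 < 3 * n) _).2 hz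
  have : FiniteDimensional ℚ (IntermediateField.adjoin ℚ Z) :=
    IntermediateField.finiteDimensional_adjoin fun x _ =>
      ((AlgebraicClosure.isAlgebraic ℚ).isAlgebraic x).isIntegral
  refine Subgroup.isOpen_mono (fun σ hσ => ⟨fun P hP => ?_, fun z hz => ?_⟩)
    (L ⊔ IntermediateField.adjoin ℚ Z).fixingSubgroup_isOpen
  · refine hLfix σ (fun x hx => (IntermediateField.mem_fixingSubgroup_iff _ σ).1 hσ x
      (le_sup_left (b := IntermediateField.adjoin ℚ Z) hx)) P ?_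
    rw [SetLike.mem_coe, Submodule.mem_torsionBy_iff, natCast_zsmul, hP]
  · exact (IntermediateField.mem_fixingSubgroup_iff _ σ).1 hσ z
      (le_sup_right (a := L) (IntermediateField.subset_adjoin ℚ Z hz))

/-- Commutators of elements fixing the cube roots of unity lie in `cmGroup n`. -/
theorem commutator_mem_cmGroup {n : ℕ} (hn : n ≠ 0) {ω : Qbar} (hω : IsPrimitiveRoot ω 3)
    {σ τ : GQ} (hσ : σ ω = ω) (hτ : τ ω = ω) : ⁅σ, τ⁆ ∈ cmGroup n := by
  have hσi : σ⁻¹ ω = ω := σ.symm_apply_eq.2 hσ.symm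
  have hτi : τ⁻¹ ω = ω := τ.symm_apply_eq.2 hτ.symm
  refine ⟨fun P hP => ?_, fun z hz => ?_⟩
  · rw [commutatorElement_def, mul_smul, mul_smul, mul_smul,
      commutes hω hn σ⁻¹ τ⁻¹ hσi hτi P hP, smul_inv_smul, smul_inv_smul]
  · have : NeZero (3 * n) := ⟨by omega⟩
    obtain ⟨ζ, hζ⟩ := HasEnoughRootsOfUnity.exists_primitiveRoot Qbar (3 * n)
    obtain ⟨i, -, rfl⟩ := hζ.eq_pow_of_pow_eq_one hz
    have hroot : ∀ g : GQ, ∃ j : ℕ, g ζ = ζ ^ j := fun g =>
      (hζ.eq_pow_of_pow_eq_one (by rw [← map_pow, hζ.pow_eq_one, map_one])).imp fun j h => h.2.symm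
    obtain ⟨a, ha⟩ := hroot σ
    obtain ⟨b, hb⟩ := hroot τ
    obtain ⟨a', ha'⟩ := hroot σ⁻¹
    obtain ⟨b', hb'⟩ := hroot τ⁻¹
    have h1 : ζ ^ (a * a') = ζ := by
      rw [pow_mul, ← ha, ← map_pow, ← ha', ← AlgEquiv.mul_apply, mul_inv_cancel, AlgEquiv.one_apply]
    have h2 : ζ ^ (b * b') = ζ := by
      rw [pow_mul, ← hb, ← map_pow, ← hb', ← AlgEquiv.mul_apply, mul_inv_cancel, AlgEquiv.one_apply]
    rw [map_pow]
    congr 1
    simp only [commutatorElement_def, AlgEquiv.mul_apply, hb', map_pow, ha', hb, ha, ← pow_mul]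
    rw [show a * b * a' * b' = a * a' * (b * b') by ring, pow_mul, h1, h2]

/-- A Frobenius in `cmGroup n` gives a prime `π π̄` with `π ≡ 1 (mod n)`. -/
theorem isCMPrime_of_frobenius {n p : ℕ} (hn : n ≠ 0) (hp : p.Prime) (hpn : ¬ p ∣ 6 * n)
    {A : ValuationSubring Qbar} (hA : A.LiesOverPrime p) {σ : GQ} (hσ : A.IsFrobeniusAt σ p)
    (hmem : σ ∈ cmGroup n) : IsCMPrime n p := by
  have := Fact.mk hp
  have : NeZero (3 * n) := ⟨by omega⟩
  obtain ⟨ζ, hζ⟩ := HasEnoughRootsOfUnity.exists_primitiveRoot Qbar (3 * n)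
  have h3n : ¬ p ∣ 3 * n := fun h => hpn (h.trans (mul_dvd_mul_right (by norm_num) n))
  have h1 := (frobenius_rootOfUnity hp h3n hA hσ hζ.pow_eq_one).symm.trans
    (hmem.2 ζ hζ.pow_eq_one)
  have hdvd : 3 * n ∣ p - 1 := by
    refine hζ.dvd_of_pow_eq_one (p - 1) (mul_right_cancel₀ (hζ.ne_zero (by omega)) ?_)
    rw [← pow_succ, Nat.sub_add_cancel hp.one_lt.le, h1, one_mul]
  have h6 : ¬ p ∣ 6 := fun h => hpn (h.mul_right n)
  have h3 : p % 3 = 1 := by
    obtain ⟨c, hc⟩ := (dvd_mul_right 3 n).trans hdvd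
    have := hp.one_lt
    omega
  obtain ⟨u, v, huv, ha⟩ := exists_trace_eq h6 h3
  refine ⟨u, v, huv, eisNorm_congr (by exact_mod_cast hn) huv ?_ ?_⟩
  · rw [show ((p : ℤ) - 1) = ((p - 1 : ℕ) : ℤ) by have := hp.one_lt; omega]
    exact_mod_cast (dvd_mul_left n 3).trans hdvd
  · have hcard := sq_dvd_card hp (cmCurve_good hp h6) (fun h => hpn (h.mul_left 6)) hA hσ hmem.1
    rw [← ha, WeierstrassCurve.apOfModel, WeierstrassCurve.traceOfFrobenius, Nat.card_zmod]
    rw [show (p : ℤ) + 1 - ((p : ℤ) + 1 - ((cmCurve.reductionMod p).card : ℤ)) =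
      ((cmCurve.reductionMod p).card : ℤ) by ring]
    exact_mod_cast hcard

end FermatAgent.LT.Mod3
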