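import Fermat.Agent.LT.Mod3.Galois.Frob
import Fermat.Agent.LT.Mod3.Galois.Psi
import Fermat.Agent.LT.Mod3.Galois.ModularExponent
import Fermat.Agent.LT.Mod3.Galois.CurveExponent
import Fermat.Agent.LT.Mod3.Congr
import Fermat.Agent.LT.Mod3.Lift
import Fermat.Agent.LT.Octa.Main
import Fermat.Agent.HM.Newform
import Fermat.Agent.PSEMI.Ord.New

/-!
# The modulo three base from the weight one input

The weight one forms give an eigenform of level dividing `3M` whose residual representation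
agrees with the three torsion at the primes `π π̄`, `π ≡ 1 (mod 27M)`, with central Frobenius.
Hence it is a quadratic twist of the torsion, trivial or cyclotomic.  The level is prime to `3`,
as inertia at a newly ordinary `3` has eigenvalue one, and then the twist is trivial, as both
representations are finite flat with the same exponent.
-/

set_option autoImplicit false

noncomputable section

open Polynomial CongruenceSubgroup WeierstrassCurve ModularFormClass
open scoped WeierstrassCurve.Affine Matrix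
open FermatAgent.LT.Period (GL3)

namespace FermatAgent.LT.Mod3

open FermatAgent.LT.Octa (OctaRep OctaData)
open FermatAgent.Assembly (ZC)
open FermatAgent.ES (redHom)

local notation "Qbar" => AlgebraicClosure ℚ
local notation "GQ" => AlgebraicClosure ℚ ≃ₐ[ℚ] AlgebraicClosure ℚ

variable {k : Type} [Field k] [CharP k 3]

/-- The matrices of an element of order eight have no eigenvalue one, up to sign. -/
lemma not_isRoot_one {c : k} (hc : c = 1 ∨ c = -1) {x : GL3} (h4 : x ^ 4 ≠ 1) (h8 : x ^ 8 = 1) :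
    ¬ ((c • castMat k x).charpoly).IsRoot 1 := by
  obtain ⟨hdet, htr⟩ := gl3_eight x h4 h8
  have hT : (castMat k x).trace = ZMod.castHom (dvd_refl 3) k x.val.trace :=
    (AddMonoidHom.map_trace (ZMod.castHom (dvd_refl 3) k).toAddMonoidHom x.val).symm
  have hcc : c * c = 1 := by rcases hc with rfl | rfl <;> ring
  intro h
  rw [Polynomial.IsRoot, Matrix.charpoly_fin_two, Matrix.trace_smul, Matrix.det_smul, castMat_det,
    hdet, hT, map_neg (ZMod.castHom (dvd_refl 3) k), map_one] at h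
  simp only [Fintype.card_fin, smul_eq_mul, eval_add, eval_sub, eval_X, eval_mul,
    eval_C, mul_one, mul_neg, pow_two, hcc, add_neg_eq_iff_eq_add] at h
  rcases htr with ⟨e, -⟩ | ⟨e, -⟩ <;> rcases hc with rfl | rfl <;>
    simp [e] at h

/-- The relation of an element of order eight. -/
lemma exists_relation {x : GL3} (h4 : x ^ 4 ≠ 1) (h8 : x ^ 8 = 1) :
    x.val.det = -1 ∧ ∃ t : ℤ, (t = 1 ∨ t = -1) ∧ x.val * x.val + t • x.val = 1 := by
  obtain ⟨hdet, ⟨-, e⟩ | ⟨-, e⟩⟩ := gl3_eight x h4 h8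
  · exact ⟨hdet, 1, Or.inl rfl, by rw [one_zsmul, e]⟩
  · exact ⟨hdet, -1, Or.inr rfl, by rw [neg_one_zsmul, ← sub_eq_add_neg, e]⟩

/-- The trace of a class read off from the characteristic polynomial. -/
private lemma trace_eq_of_charpoly {x : GL3} {a c : k}
    (h : (castMat k x).charpoly = X ^ 2 - C a * X + C c) :
    ZMod.castHom (dvd_refl 3) k x.val.trace = a := by
  rw [Matrix.charpoly_fin_two] at h
  have h2 := congrArg (fun P => P.coeff 1) h
  simp only [coeff_add, coeff_sub, coeff_X_pow, coeff_C_mul, coeff_X_one, mul_one,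
    show (coeff (C (castMat k x).det) 1) = 0 from coeff_C_of_ne_zero one_ne_zero,
    show (coeff (C c) 1) = 0 from coeff_C_of_ne_zero one_ne_zero,
    if_neg (show ¬ (1 : ℕ) = 2 by norm_num), zero_sub, add_zero, neg_inj] at h2
  rw [castMat_apply] at h2
  exact (AddMonoidHom.map_trace (ZMod.castHom (dvd_refl 3) k).toAddMonoidHom x.val).trans h2

/-- In characteristic three a unipotent endomorphism has order dividing three. -/
private lemma pow_three_of_unipotent {V : Type*} [AddCommGroup V] [Module k V]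
    {f : Module.End k V} (h2 : (f - 1) ^ 2 = 0) : f ^ 3 = 1 := by
  have h3 : (3 : k) = 0 := by exact_mod_cast CharP.cast_eq_zero k 3
  have h30 : (3 : ℕ) • (f * f - f) = 0 := by
    rw [← Nat.cast_smul_eq_nsmul k, Nat.cast_ofNat, h3, zero_smul]
  rw [← sub_eq_zero]
  calc f ^ 3 - 1 = (f - 1) ^ 2 * (f - 1) + (3 : ℕ) • (f * f - f) := by noncomm_ring
    _ = 0 := by rw [h2, h30, zero_mul, add_zero]

/-- A prime congruent to one modulo a multiple of three is one in characteristic three. -/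
private lemma natCast_eq_one_of_isCMPrime {L : Type*} [Ring L] [CharP L 3] {n p : ℕ} (h3 : 3 ∣ n)
    (hcm : IsCMPrime n p) : (p : L) = 1 := by
  have h1 := congrArg (ZMod.castHom h3 (ZMod 3)) hcm.cast_eq_one
  rw [map_natCast, map_one] at h1
  have h2 := congrArg (ZMod.castHom (dvd_refl 3) L) h1
  rwa [map_natCast, map_one] at h2

omit [CharP k 3] in
/-- Traces lifting the central classes give the agreement at the Eisenstein primes. -/
private lemma agreesAt_of_trace {R : OctaRep} {D : OctaData R} {T : Finset ℕ}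
    (hT : ∀ p : ℕ, p.Prime → p ∉ T → ∀ A : ValuationSubring Qbar, A.LiesOverPrime p →
      ∀ σ ∈ A.inertiaSubgroupIn ℚ, R.e σ = 1)
    {ρ : ResidualGaloisRep k} {n : ℕ} {S : Finset ℕ}
    (hS : ∀ p : ℕ, p.Prime → p ∉ S → p ∉ D.bad ∧ p ∉ T)
    (htr : ∀ p : ℕ, p.Prime → p ∉ S → IsCMPrime n p → (D.g p = 1 ∨ D.g p = -1) →
      ∀ A : ValuationSubring Qbar, A.LiesOverPrime p → ∀ σ : GQ, A.IsFrobeniusAt σ p →
        LinearMap.charpoly (ρ.ρ σ) = X ^ 2 - C ((liftTrace D p : ℤ) : k) * X + C 1) :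
    AgreesAt R ρ n S := by
  intro p hp hpS hcm A hA σ hσ
  obtain ⟨hpb, hpT⟩ := hS p hp hpS
  refine ⟨fun he => ?_, fun he => ?_⟩
  · have hg := class_eq D hT hp hpT hpb hA hσ (mem_pmOne.2 (Or.inl he))
    rw [htr p hp hpS hcm (hg ▸ Or.inl he) A hA σ hσ, liftTrace, hg, he, if_pos rfl]
    simp only [map_one, Int.cast_ofNat, map_ofNat]
    ring
  · have hg := class_eq D hT hp hpT hpb hA hσ (mem_pmOne.2 (Or.inr he))
    rw [htr p hp hpS hcm (hg ▸ Or.inr he) A hA σ hσ, liftTrace, hg, he, if_neg (by decide)]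
    simp only [map_one, map_neg, Int.cast_neg, Int.cast_ofNat, map_ofNat]
    ring

/-- A quadratic twist of the octahedral representation cannot come from a newform at a level
divisible exactly once by three, where inertia has eigenvalue one. -/
private lemma not_three_dvd_level [IsAlgClosed k] {R : OctaRep} {N : ℕ}
    [NeZero N] (hsqN : Squarefree N) {g : CuspForm (Gamma0 N) 2} (hnew : g.IsNewform)
    {ι : ZC →+* k} {a : ZC} (ha : (a : ℂ) = qCoeff g 3) {ρ : ResidualGaloisRep k}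
    (hatt : ρ.IsAttachedTo g ι) (hirr : ρ.IsIrreducible) {β : Module.Basis (Fin 2) k ρ.V}
    {ψ : GQ →* k} (hsq : ∀ g, ψ g ^ 2 = 1)
    (htw : ∀ g, LinearMap.toMatrix β β (ρ.ρ g) = ψ g • castMat k (R.e g)) : ¬ 3 ∣ N := fun h3N => by
  have h9 : ¬ 3 ^ 2 ∣ N := fun h => Nat.prime_three.not_isUnit (hsqN 3 (by rwa [← pow_two]))
  have hsqc : qCoeff g 3 ^ 2 = 1 :=
    (HM.newformBadPrimeCoeff N g hnew 3 Nat.prime_three h3N).1 h9
  obtain ⟨A, hA⟩ := GaloisBasic.exists_liesOverPrime Nat.prime_three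
  obtain ⟨x, hx, himg⟩ := R.inertia_three A hA
  obtain ⟨τ, hτ, hτx⟩ : x ∈ (A.inertiaSubgroupIn ℚ).map R.e :=
    himg ▸ Subgroup.mem_zpowers x
  have hroot := (PSEMI.isRoot_one_of_unit Nat.prime_three (by norm_num) h3N h9 hnew.1 ι
    ⟨a, ha, fun h0 => by
      have hu : a ^ 2 = 1 := Subtype.ext (by
        show (a : ℂ) ^ 2 = 1
        rw [ha, hsqc])
      have := congrArg ι hu
      rw [map_pow, h0, map_one, zero_pow two_ne_zero] at this
      exact zero_ne_one this⟩ ρ hatt hirr hA hτ).2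
  rw [← LinearMap.charpoly_toMatrix (ρ.ρ τ) β, htw, hτx] at hroot
  exact not_isRoot_one (psi_eq_one_or hsq τ)
    (pow_ne_one_of_lt_orderOf (by norm_num) (by omega)) (hx ▸ pow_orderOf_eq_one x) hroot

variable {W : WeierstrassCurve ℤ}

set_option quotPrecheck false in
local notation "Tor" =>
  Submodule.torsionBy ℤ ((W.map (Int.castRingHom ℚ))⁄(AlgebraicClosure ℚ)).Point ((3 : ℕ) : ℤ)

set_option quotPrecheck false in
local notation "φ₃" =>
  Affine.Point.galoisRepModuleEnd (K := AlgebraicClosure ℚ) ℚ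
    (W.map (Int.castRingHom ℚ)).toAffine 3

/-- The twist by the cyclotomic character does not occur at level prime to three. -/
lemma not_det_twist [Fact (Nat.Prime 3)] (hW : IsSupersingularThree W) {R : OctaRep}
    {b : Module.Basis (Fin 2) (ZMod 3) Tor} (hb : ∀ σ, (R.e σ).val = LinearMap.toMatrix b b (φ₃ σ))
    {N : ℕ} [NeZero N] (hN : ¬ 3 ∣ N) {ρ : ResidualGaloisRep k} (E : LatticeEmbedding 3 N ρ.ρ)
    {β : Module.Basis (Fin 2) k ρ.V}
    (htw : ∀ g, LinearMap.toMatrix β β (ρ.ρ g) =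
      ZMod.castHom (dvd_refl 3) k (R.e g).val.det • castMat k (R.e g)) : False := by
  obtain ⟨A, hA⟩ := GaloisBasic.exists_liesOverPrime Nat.prime_three
  obtain ⟨x, hx, himg⟩ := R.inertia_three A hA
  obtain ⟨τ, hτ, hτx⟩ : x ∈ (A.inertiaSubgroupIn ℚ).map R.e :=
    himg ▸ Subgroup.mem_zpowers x
  have h4x : x ^ 4 ≠ 1 := pow_ne_one_of_lt_orderOf (by norm_num) (by omega)
  have h8x : x ^ 8 = 1 := hx ▸ pow_orderOf_eq_one x
  obtain ⟨hdet, t, ht, hrel⟩ := exists_relation h4x h8x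
  obtain ⟨π, θ, hθ⟩ := exists_isTheta A τ
  have : Nontrivial Tor := Module.nontrivial_of_finrank_eq_succ (R := ZMod 3)
    (EC.finrank_torsionBy_rat (W.map (Int.castRingHom ℚ)) (EC.intMap_Δ_ne_zero hW.Δ_ne_zero) 3)
  obtain ⟨v, hv⟩ := exists_ne (0 : Tor)
  have hφ : φ₃ τ * φ₃ τ + t • φ₃ τ = 1 := by
    apply (LinearMap.toMatrixAlgEquiv b).injective
    rw [map_add, map_mul, map_zsmul, map_one, show LinearMap.toMatrixAlgEquiv b (φ₃ τ) =
      (R.e τ).val from (hb τ).symm, hτx, hrel]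
  have h1 := root_of_curve hW hA hτ hθ hv t (by
    have := LinearMap.congr_fun hφ v
    simpa using this)
  have : Nontrivial ρ.V := Module.nontrivial_of_finrank_eq_succ ρ.finrank_eq
  let m := LinearMap.toMatrixAlgEquiv β
  have hm : ∀ g, m (ρ.ρ g) =
      ZMod.castHom (dvd_refl 3) k (R.e g).val.det • castMat k (R.e g) := htw
  have h2 := root_of_embedded hN ρ.ρ E hA hτ hθ (fun σ hσ => ?_) ?_ (-t) (by omega) ?_
  · have hθ0 : θ ≠ 0 := fun e => by
      have := hθ.pow_eight hτ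
      rw [e] at this
      simp at this
    have := ECLocal.residueChar A hA
    have h2t : (2 : IsLocalRing.ResidueField A) * ((t : IsLocalRing.ResidueField A) * θ) = 0 := by
      push_cast at h2
      linear_combination h1 - h2
    have h20 : (2 : IsLocalRing.ResidueField A) ≠ 0 := two_ne_zero'
    rcases mul_eq_zero.1 ((mul_eq_zero.1 h2t).resolve_left h20) with e | e
    · rcases ht with rfl | rfl <;> simp at e
    · exact hθ0 e
  · obtain ⟨j, hj⟩ := (isOfFinOrder_of_finite x).mem_powers_iff_mem_zpowers.2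
      (show R.e σ ∈ Subgroup.zpowers x from himg ▸ ⟨σ, hσ, rfl⟩)
    have hj' : R.e σ = R.e (τ ^ j) := by rw [map_pow, hτx]; exact hj.symm
    refine ⟨j, m.injective ?_⟩
    rw [← map_pow ρ.ρ, hm, hm, hj']
  · refine m.injective ?_
    rw [← map_pow ρ.ρ, hm, map_pow R.e, hτx, h8x, Units.val_one, Matrix.det_one, map_one, map_one,
      one_smul, map_one]
  · refine m.injective ?_
    rw [map_add, map_mul, map_zsmul, hm, map_one, hτx, hdet, map_neg, map_one, neg_one_smul,
      neg_mul_neg, neg_zsmul, zsmul_neg, neg_neg, castMat_apply]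
    have h := congrArg (fun X => (ZMod.castHom (dvd_refl 3) k).mapMatrix X) hrel
    simp only [map_add, map_mul, map_zsmul, map_one] at h
    exact h

open Classical in
/-- **The modulo three base from the weight one input**: a curve with supersingular reduction at
`3` whose mod `3` representation is the octahedral `R` is residually modular at `3`, of a squarefree
level prime to `3`, if there is a weight one input for `R`. -/
theorem residually_modular [Fact (Nat.Prime 3)] (hW : IsSupersingularThree W) {R : OctaRep}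
    (b : Module.Basis (Fin 2) (ZMod 3) Tor) (hb : ∀ σ, (R.e σ).val = LinearMap.toMatrix b b (φ₃ σ))
    (D : OctaData R) {M : ℕ} (hM : IsInputLevel M) {O : ValuationSubring ℂ}
    (hO : (3 : O) ∈ IsLocalRing.maximalIdeal O) (I : Input M O (liftTrace D) (liftPrimes D M)) :
    ∃ N : ℕ, 0 < N ∧ Squarefree N ∧ ¬ 3 ∣ N ∧ W.IsResiduallyModularOfLevel 3 N := by
  have : CharP (IsLocalRing.ResidueField O) 3 := (CharP.charP_iff_prime_eq_zero Nat.prime_three).2
    (by rw [Nat.cast_ofNat, ← map_ofNat (IsLocalRing.residue O) 3,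
      IsLocalRing.residue_eq_zero_iff]; exact hO)
  have hM0 : M ≠ 0 := hM.squarefree.ne_zero
  have : NeZero (27 * M) := ⟨by omega⟩
  have : NeZero (3 * M) := ⟨by omega⟩
  obtain ⟨p₀, hp₀, ht₀⟩ := exists_neg_prime D hM0
  have ht₀' : (liftTrace D p₀ : IsLocalRing.ResidueField O) ≠ 2 := by
    rw [ht₀]
    push_cast
    intro e
    exact two_ne_zero' (k := IsLocalRing.ResidueField O)
      ((mul_eq_zero.1 (show (2 : IsLocalRing.ResidueField O) * 2 = 0 by
        linear_combination -e)).elim id id)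
  have hocc := occurs_parHoms I hM (fun p hp => isCongPrime_of_mem D hp) hp₀ ht₀'
  obtain ⟨g, χ, 𝔐, hg, h𝔐, h3𝔐, hχ, hcong⟩ :=
    exists_eigenform _ hM.exists_inert (liftTrace D) hocc
  have hg' := (MF.isEigen_iff_isNormalizedEigenform g).mp hg
  obtain ⟨N, g₁, hN, hN0, hnew, hval⟩ := HM.exists_newform hg'
  have : NeZero N := ⟨hN0.ne'⟩
  have hsqN : Squarefree N := Squarefree.squarefree_of_dvd hN ((Nat.squarefree_mul
    ((Nat.prime_three.coprime_iff_not_dvd).2 hM.not_three)).2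
      ⟨Nat.prime_three.squarefree, hM.squarefree⟩)
  have hg₁ := (MF.isEigen_iff_isNormalizedEigenform g₁).mpr hnew.1
  have : Module.Finite ℤ (CuspForm.heckeAlgebra N 2 ∅) := MF.moduleFinite_heckeAlgebra N 2 ∅
  let χ₁ : CuspForm.heckeAlgebra N 2 ∅ →+* ZC :=
    (hg₁.char ∅).codRestrict (integralClosure ℤ ℂ) fun t =>
      map_isIntegral_int _ (Algebra.IsIntegral.isIntegral t)
  have hχ₁ : ∀ (ℓ : ℕ) (hℓ : ℓ.Prime),
      (χ₁ ⟨_, MF.heckeAt_mem hℓ (Set.notMem_empty ℓ)⟩ : ℂ) = qCoeff g₁ ℓ :=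
    fun ℓ hℓ => hg₁.char_heckeAt hℓ (Set.notMem_empty ℓ)
  have := h𝔐
  let : Field (ZC ⧸ 𝔐) := Ideal.Quotient.field 𝔐
  have : IsAlgClosed (ZC ⧸ 𝔐) := ES.isAlgClosed_quotient_integralClosure 𝔐
  have : CharP (ZC ⧸ 𝔐) 3 :=
    Assembly.charP_quotient Nat.prime_three h𝔐 (by exact_mod_cast h3𝔐)
  obtain ⟨ρ, ⟨E⟩, hdet, hfrob, hunr, hunip⟩ :=
    exists_residual_unipotent 3 N ((Ideal.Quotient.mk 𝔐).comp χ₁)
  set n := 27 * M
  obtain ⟨T, hT⟩ := exists_unramified D
  set S : Finset ℕ := D.bad ∪ T ∪ (6 * n).primeFactors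
  have hn : n ≠ 0 := by omega
  have hS : ∀ p : ℕ, p.Prime → p ∉ S → p ∉ D.bad ∧ p ∉ T ∧ ¬ p ∣ 6 * n ∧ p ≠ 3 ∧ ¬ p ∣ 3 * M := by
    intro p hp hpS
    simp only [S, Finset.mem_union, not_or, Nat.mem_primeFactors] at hpS
    have h6 : ¬ p ∣ 6 * n := fun h => hpS.2 ⟨hp, h, by omega⟩
    exact ⟨hpS.1.1, hpS.1.2, h6, fun e => h6 (e ▸ Dvd.dvd.mul_right (by norm_num) n),
      fun h => h6 (h.trans (mul_dvd_mul (by norm_num) (dvd_mul_left M 27)))⟩
  have hagree : AgreesAt R ρ n S := agreesAt_of_trace hT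
    (fun p hp hpS => ⟨(hS p hp hpS).1, (hS p hp hpS).2.1⟩) fun p hp hpS hcm hgp A hA σ hσ => by
    obtain ⟨hpb, hpT, hp6, hp3, hp3M⟩ := hS p hp hpS
    have hp1 : ((p : ℕ) : ZC ⧸ 𝔐) = 1 :=
      natCast_eq_one_of_isCMPrime (Dvd.dvd.mul_right (by norm_num) M) hcm
    have hmem : p ∈ liftPrimes D M :=
      ⟨hp, hpb, fun h => hp6 (h.trans (mul_dvd_mul_left 6 (dvd_mul_left M 27))), hcm, hgp⟩
    have hc := hcong ⟨p, hmem⟩
    rw [hfrob p hp (fun h => hp3M (h.trans hN)) hp3 A hA σ hσ, hp1, RingHom.comp_apply]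
    congr 3
    refine congrArg C ?_
    rw [← map_intCast (Ideal.Quotient.mk 𝔐), Ideal.Quotient.eq]
    convert hc using 2
    exact Subtype.ext (by rw [hχ₁, hval p hp (fun h => hp3M h), hχ])
  have hdetc : DetCyclo ρ S := by
    intro p hp hpS A hA σ hσ
    rw [hdet σ, ES.padCyclo_frobenius 3 hp (hS p hp hpS).2.2.2.1 hA hσ, map_natCast]
  obtain ⟨β, ψ, hψ2, htw⟩ := exists_twist R ρ hagree hn hdetc
  have hirr : ρ.IsIrreducible := irreducible R ρ hagree hn
  have hram : ∀ q : ℕ, q.Prime → q ≠ 3 → ∀ A : ValuationSubring Qbar, A.LiesOverPrime q →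
      ∀ σ ∈ A.inertiaSubgroupIn ℚ, ρ.ρ σ ^ 3 = 1 := by
    intro q hq' hq3 A hA σ hσ
    refine pow_three_of_unipotent ?_
    by_cases hqN : q ∣ N
    · refine hunip q hq' hqN (fun h => ?_) hq3 A hA σ hσ
      exact hq'.not_isUnit (hsqN q (by rwa [← pow_two]))
    · rw [hunr q hq' hqN hq3 A hA σ hσ, sub_self, zero_pow two_ne_zero]
  have hψ := psi_cases R ρ hψ2 htw hram
  -- three does not divide the level
  have hatt : ρ.IsAttachedTo g₁ (Ideal.Quotient.mk 𝔐) := fun ℓ hℓ hℓN hℓk A hA σ hσ =>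
    ⟨_, hχ₁ ℓ hℓ, hfrob ℓ hℓ hℓN
      (fun e => hℓk (by rw [e, CharP.cast_eq_zero])) A hA σ hσ⟩
  have hN3 : ¬ 3 ∣ N :=
    not_three_dvd_level hsqN hnew (hχ₁ 3 Nat.prime_three) hatt hirr hψ2 htw
  rcases hψ with hψ | hψ
  swap
  · exact (not_det_twist hW hb hN3 E (fun g => by rw [htw, hψ])).elim
  refine ⟨N, hN0, hsqN, hN3, Assembly.isResiduallyModularOfLevel_iff.2 ⟨g₁, 𝔐,
    Assembly.congr_of_cofinite hW.Δ_ne_zero Nat.prime_three hnew.1 h𝔐 (by exact_mod_cast h3𝔐) ∅
      fun ℓ hℓ _ hℓg hℓN hℓ3 => ⟨_, hχ₁ ℓ hℓ, ?_⟩⟩⟩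
  obtain ⟨A, hA⟩ := GaloisBasic.exists_liesOverPrime hℓ
  obtain ⟨σ, hσ⟩ := GaloisBasic.exists_isFrobeniusAt hℓ hA
  have h1 := hfrob ℓ hℓ hℓN hℓ3 A hA σ hσ
  rw [← LinearMap.charpoly_toMatrix (ρ.ρ σ) β, htw, hψ, one_smul] at h1
  have h2 := trace_eq_of_charpoly h1
  have htr : (R.e σ).val.trace = (W.apOfModel ℓ : ZMod 3) := by
    rw [hb, ← LinearMap.trace_eq_matrix_trace (ZMod 3) b]
    exact EC.galoisTrace_frobenius_eq_apOfModel W hℓ hℓg hℓ3 hA hσ
  rw [htr, map_intCast, RingHom.comp_apply] at h2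
  rw [← Ideal.Quotient.eq, map_intCast]
  exact h2.symm

end FermatAgent.LT.Mod3
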