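import Fermat.Agent.LT.Mod3.Galois.Main
import Fermat.Agent.LT.Lift.Main

/-!
# The modulo three base of the switch chain

A semistable curve with supersingular reduction at `3` and surjective mod `3` representation is
residually modular at `3`, of a squarefree level prime to `3`, by the weight one input of the
theorem of Langlands and Tunnell.
-/

set_option autoImplicit false

noncomputable section

open FermatAgent.LT.Octa (OctaRep OctaData)

namespace FermatAgent.LT.Mod3

/-- **Langlands–Tunnell for the base curves**: semistable curves with good supersingular reduction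
at `3` and surjective mod `3` representation are residually modular of a squarefree level prime
to `3`. -/
theorem modThreeBase (W : WeierstrassCurve ℤ) (hΔ : W.Δ ≠ 0) (hW : W.IsSemistableModel)
    (hgood : W.IsGoodPrimeFor 3) (hap : (3 : ℤ) ∣ W.apOfModel 3) :
    ∃ M : ℕ, 0 < M ∧ Squarefree M ∧ ¬ 3 ∣ M ∧ W.IsResiduallyModularOfLevel 3 M := by
  have : Fact (Nat.Prime 3) := ⟨Nat.prime_three⟩
  have hss : IsSupersingularThree W := ⟨hΔ, hgood, three_dvd_c₄ hgood hap⟩
  obtain ⟨R, b, ⟨D⟩, hb⟩ := Octa.exists_octaData_of_curve hΔ hW hgood hss.c₄
  obtain ⟨M, O, hM, hO, ⟨I⟩⟩ := Lift.weightOneInput R D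
  exact residually_modular hss b hb D hM hO I

end FermatAgent.LT.Mod3
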