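import Fermat.Agent.BAD.GalMat
import Fermat.Agent.ES.Tate.Residual

/-!
# The residual representation of an eigensystem inside the parabolic characters mod `p`

The residual representation of the eigenlattice comes with an injective equivariant map into the
reduction of the parabolic lattice, so that its inertia inherits the unipotence at primes exactly
dividing the level and the local structure at `p`.
-/

set_option autoImplicit false

noncomputable section

open Polynomial IsLocalRing CongruenceSubgroup TensorProduct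
open scoped Matrix
open FermatAgent.Period (parRank)
open FermatAgent.ES (galMat padCyclo redHom)

namespace FermatAgent.LT.Mod3

local notation "GQ" => AlgebraicClosure ℚ ≃ₐ[ℚ] AlgebraicClosure ℚ

/-- An injective map of a Galois module into the reduction of the parabolic lattice of level `N`,
commuting with the Galois action. -/
structure LatticeEmbedding (p : ℕ) [Fact p.Prime] (N : ℕ) [NeZero N] {κ : Type} [Field κ]
    [CharP κ p] {V : Type} [AddCommGroup V] [Module κ V] (ρ : GQ →* Module.End κ V) where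
  /-- the map -/
  map : V →ₗ[κ] (Fin (parRank (Gamma0 N)) → κ)
  injective : Function.Injective map
  equivariant : ∀ g v, map (ρ g v) = (galMat p N g).map (redHom p κ) *ᵥ map v

/-- **The residual representation of an eigensystem**, embedded in the reduced lattice, with
inertia unipotent at the primes exactly dividing the level. -/
theorem exists_residual_unipotent (p : ℕ) [Fact p.Prime] (N : ℕ) [NeZero N] {κ : Type} [Field κ]
    [IsAlgClosed κ] [CharP κ p] (θ : CuspForm.heckeAlgebra N 2 ∅ →+* κ) :
    ∃ ρ : ResidualGaloisRep κ, Nonempty (LatticeEmbedding p N ρ.ρ) ∧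
      (∀ g : GQ, LinearMap.det (ρ.ρ g) = redHom p κ (padCyclo p g)) ∧
      (∀ (ℓ : ℕ) (hℓ : ℓ.Prime), ¬ ℓ ∣ N → ℓ ≠ p →
        ∀ A : ValuationSubring (AlgebraicClosure ℚ), A.LiesOverPrime ℓ →
          ∀ σ : GQ, A.IsFrobeniusAt σ ℓ →
            LinearMap.charpoly (ρ.ρ σ) =
              X ^ 2 - C (θ ⟨_, MF.heckeAt_mem hℓ (Set.notMem_empty ℓ)⟩) * X + C (ℓ : κ)) ∧
      (∀ q : ℕ, q.Prime → ¬ q ∣ N → q ≠ p → ρ.IsUnramifiedAt q) ∧
      ∀ q : ℕ, q.Prime → q ∣ N → ¬ q ^ 2 ∣ N → q ≠ p →
        ∀ A : ValuationSubring (AlgebraicClosure ℚ), A.LiesOverPrime q →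
          ∀ σ ∈ A.inertiaSubgroupIn ℚ, (ρ.ρ σ - 1) ^ 2 = 0 := by
  obtain ⟨ρ, U, hU, hequiv, hdet, hfrob, hunr⟩ := ES.exists_residual_embedded p N θ
  refine ⟨ρ, ⟨⟨U, hU, hequiv⟩⟩, hdet, hfrob, hunr, fun q hq hqN hq2 hqp A hA σ hσ => ?_⟩
  refine LinearMap.ext fun v => hU ?_
  have hz := congrArg (fun X : Matrix _ _ ℤ_[p] => X.map (redHom p κ) *ᵥ U v)
    (BAD.galMat_unipotent p hq hqN hq2 hqp hA hσ)
  simp only [sq, Matrix.map_mul, Matrix.map_sub _ (map_sub (redHom p κ)),
    Matrix.map_one _ (map_zero (redHom p κ)) (map_one (redHom p κ)),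
    Matrix.map_zero _ (map_zero (redHom p κ)), Matrix.zero_mulVec, ← Matrix.mulVec_mulVec,
    Matrix.sub_mulVec, Matrix.one_mulVec, Matrix.mulVec_sub] at hz
  simp only [sq, Module.End.mul_apply, LinearMap.sub_apply, Module.End.one_apply, map_sub,
    hequiv, LinearMap.zero_apply, map_zero]
  exact hz

end FermatAgent.LT.Mod3
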