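import Fermat.Agent.LT.Mod3.Galois.Twist
import Fermat.Agent.LT.Mod3.Corr
import Fermat.Agent.LT.Octa.Bundle
import Fermat.Agent.GaloisBasic.FiniteFrobenius
import Fermat.Agent.Switch2.AtThree

/-!
# The primes of the lifted eigensystem

The primes `π π̄`, `π ≡ 1 (mod 27 M)`, with Frobenius class `± 1`: their Frobenius classes do not
depend on the choices and the sign `-1` occurs.
-/

set_option autoImplicit false

noncomputable section

open Polynomial
open scoped commutatorElement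
open FermatAgent.LT.Period (GL3)

namespace FermatAgent.LT.Mod3

open FermatAgent.LT.Octa (OctaRep OctaData gI)

local notation "Qbar" => AlgebraicClosure ℚ
local notation "GQ" => AlgebraicClosure ℚ ≃ₐ[ℚ] AlgebraicClosure ℚ

variable {R : OctaRep} (D : OctaData R)

/-- The primes of the lifted eigensystem. -/
def liftPrimes (M : ℕ) : Set ℕ :=
  {p | p.Prime ∧ p ∉ D.bad ∧ ¬ p ∣ 6 * M ∧ IsCMPrime (27 * M) p ∧ (D.g p = 1 ∨ D.g p = -1)}

/-- The lifted eigenvalues. -/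
def liftTrace (p : ℕ) : ℤ := if D.g p = 1 then 2 else -2

/-- The lifting primes are congruence primes. -/
lemma isCongPrime_of_mem {M p : ℕ} (hp : p ∈ liftPrimes D M) : IsCongPrime (27 * M) p := by
  obtain ⟨hp, -, hpM, hcm, -⟩ := hp
  refine ⟨hp, fun h => ?_, hcm.cast_eq_one⟩
  rcases hp.dvd_mul.1 h with h27 | hM
  · exact hpM ((hp.dvd_of_dvd_pow (show p ∣ 3 ^ 3 from h27)).trans
      (Dvd.dvd.mul_right (by norm_num) M))
  · exact hpM (hM.trans (dvd_mul_left M 6))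

include D in
/-- Outside a finite set the representation is unramified. -/
lemma exists_unramified :
    ∃ T : Finset ℕ, ∀ p : ℕ, p.Prime → p ∉ T → ∀ A : ValuationSubring Qbar, A.LiesOverPrime p →
      ∀ σ ∈ A.inertiaSubgroupIn ℚ, R.e σ = 1 := by
  obtain ⟨T, hT⟩ := GaloisBasic.exists_finite_inertiaTrivial D.N
  refine ⟨T, fun p hp hpT A hA σ hσ => ?_⟩
  rw [← D.eN_eq σ, hT p hp hpT A hA _ (fun c => GaloisBasic.mem_centerIn_of_inertia D.N hp hA hσ c),
    map_one]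

/-- A central Frobenius class is the recorded one. -/
lemma class_eq {T : Finset ℕ}
    (hT : ∀ p : ℕ, p.Prime → p ∉ T → ∀ A : ValuationSubring Qbar, A.LiesOverPrime p →
      ∀ σ ∈ A.inertiaSubgroupIn ℚ, R.e σ = 1)
    {p : ℕ} (hp : p.Prime) (hpT : p ∉ T) (hpb : p ∉ D.bad) {A : ValuationSubring Qbar}
    (hA : A.LiesOverPrime p) {σ : GQ} (hσ : A.IsFrobeniusAt σ p) (hc : R.e σ ∈ pmOne) :
    D.g p = R.e σ := by
  obtain ⟨A', σ', hA', hσ', heq⟩ := D.hg p hp hpb
  rw [D.eN_eq] at heq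
  obtain ⟨t, ht⟩ := GaloisBasic.exists_smul_eq hp hA' hA
  have hF := GaloisBasic.conj_isFrobeniusAt hp hA' hσ' t
  rw [ht] at hF
  have h1 := hT p hp hpT A hA _ (GaloisBasic.mul_inv_mem_inertiaSubgroupIn hp hA hσ hF)
  rw [map_mul, map_inv, map_mul, map_mul, map_inv, mul_inv_eq_one, heq] at h1
  have hcomm : Commute (R.e t) (R.e σ) := by
    rcases mem_pmOne.1 hc with e | e <;> rw [e]
    · exact Commute.one_right _
    · exact (Commute.one_right _).neg_right
  have h2 : R.e σ * R.e t = R.e t * D.g p := by rw [h1, inv_mul_cancel_right]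
  rw [← hcomm.eq] at h2
  exact (mul_left_cancel h2).symm

/-- Both signs occur. -/
lemma exists_neg_prime {M : ℕ} (hM : M ≠ 0) :
    ∃ p, p ∈ liftPrimes D M ∧ liftTrace D p = -2 := by
  classical
  have hn : 27 * M ≠ 0 := by omega
  obtain ⟨a, b, ha, hb, hab⟩ := exists_commutator_gI
  obtain ⟨σa, rfl⟩ := R.surj a
  obtain ⟨σb, rfl⟩ := R.surj b
  have : NeZero ((3 : ℕ) : Qbar) := ⟨by norm_num⟩
  obtain ⟨ζ, hζ⟩ := HasEnoughRootsOfUnity.exists_primitiveRoot Qbar 3
  have hfix : ∀ g : GQ, (R.e g).val.det = 1 → g ζ = ζ := fun g hg => by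
    rw [R.det g ζ hζ.pow_eq_one, hg, ZMod.val_one, pow_one]
  set c := ⁅σa, σb⁆ * ⁅σa, σb⁆
  have hcm : c ∈ cmGroup (27 * M) :=
    mul_mem (commutator_mem_cmGroup hn hζ (hfix σa ha) (hfix σb hb))
      (commutator_mem_cmGroup hn hζ (hfix σa ha) (hfix σb hb))
  have hc : R.e c = -1 := by rw [map_mul, map_commutatorElement, hab, gI_sq]
  obtain ⟨T, hT⟩ := exists_unramified D
  obtain ⟨p, A, σ, j, hp, hpS, hA, hσ, -, he, hmem⟩ := exists_approx R.toGRep
    (ρ := (1 : GQ →* ZMod 3)) hn ⟨⊥, inferInstance, fun _ _ => rfl⟩ c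
    (D.bad ∪ T ∪ (6 * (27 * M)).primeFactors)
  simp only [Finset.mem_union, not_or, Nat.mem_primeFactors] at hpS
  have hpn : ¬ p ∣ 6 * (27 * M) := fun h => hpS.2 ⟨hp, h, by omega⟩
  have hσmem : σ ∈ cmGroup (27 * M) ⊓ pmOne.comap R.e := hmem ⟨hcm, Or.inr hc⟩
  have hσe : R.e σ = -1 := by
    rcases mem_pmOne.1 hσmem.2 with e | e
    · rw [hc, e, one_pow] at he
      exact absurd he (by decide)
    · exact e
  have hg : D.g p = -1 := (class_eq D hT hp hpS.1.2 hpS.1.1 hA hσ hσmem.2).trans hσe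
  refine ⟨p, ⟨hp, hpS.1.1, fun h => hpn (h.trans ?_),
    isCMPrime_of_frobenius hn hp hpn hA hσ hσmem.1, Or.inr hg⟩, ?_⟩
  · exact mul_dvd_mul_left 6 (dvd_mul_left M 27)
  · rw [liftTrace, hg, if_neg (by decide)]

set_option maxRecDepth 100000 in
/-- Elements of order eight. -/
lemma gl3_eight : ∀ x : GL3, x ^ 4 ≠ 1 → x ^ 8 = 1 → x.val.det = -1 ∧
    ((x.val.trace = -1 ∧ x.val * x.val + x.val = 1) ∨
      (x.val.trace = 1 ∧ x.val * x.val - x.val = 1)) := by
  rw [Octa.forall_gl3]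
  decide +kernel

/-- Supersingular reduction at `3` makes `c₄` divisible by `3`. -/
lemma three_dvd_c₄ {W : WeierstrassCurve ℤ} (hg : W.IsGoodPrimeFor 3)
    (h : (3 : ℤ) ∣ W.apOfModel 3) : (3 : ℤ) ∣ W.c₄ := by
  have : Fact (Nat.Prime 3) := ⟨Nat.prime_three⟩
  by_contra h4
  have hΔ : (W.reductionMod 3).Δ ≠ 0 := by
    rw [WeierstrassCurve.reductionMod, WeierstrassCurve.map_Δ, eq_intCast, Ne,
      ZMod.intCast_zmod_eq_zero_iff_dvd]
    exact hg
  have h4' : (W.reductionMod 3).c₄ ≠ 0 := by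
    rw [WeierstrassCurve.reductionMod, WeierstrassCurve.map_c₄, eq_intCast, Ne,
      ZMod.intCast_zmod_eq_zero_iff_dvd]
    exact h4
  rw [WeierstrassCurve.apOfModel, Switch2.traceOfFrobenius_three _ hΔ] at h
  have ht : Switch2.affineCountThree (W.reductionMod 3).a₁ (W.reductionMod 3).a₂
      (W.reductionMod 3).a₃ (W.reductionMod 3).a₄ (W.reductionMod 3).a₆ % 3 ≠ 0 :=
    fun h0 => h4' (((Switch2.trace_table _ _ _ _ _).1 hΔ).1 h0)
  omega

end FermatAgent.LT.Mod3
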