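import Mathlib
import Fermat.Prelude.Def_FLTPrelim_Modularity

/-!
# Counting the points of `y² = x³ + 1`

At a prime `p ≡ 1 (mod 3)` the trace of Frobenius is `π + π̄` with `π π̄ = p`, the Jacobi sum of a
cubic and the quadratic character; if moreover `n² ∣ #E(𝔽_p)` and `p ≡ 1 (mod n)` then
`π ≡ 1 (mod n)`.
-/

set_option autoImplicit false

noncomputable section

open scoped ComplexConjugate
open Finset

namespace FermatAgent.LT.Mod3

/-- The curve `y² = x³ + 1`. -/
def cmCurve : WeierstrassCurve ℤ := ⟨0, 0, 0, 0, 1⟩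

/-- The discriminant of the CM curve. -/
lemma cmCurve_Δ : cmCurve.Δ = -432 := by
  simp [cmCurve, WeierstrassCurve.Δ, WeierstrassCurve.b₂, WeierstrassCurve.b₄, WeierstrassCurve.b₆,
    WeierstrassCurve.b₈]

/-- The CM curve is good away from six. -/
lemma cmCurve_good {p : ℕ} (hp : p.Prime) (h6 : ¬ p ∣ 6) : cmCurve.IsGoodPrimeFor p := by
  intro hd
  rw [cmCurve_Δ, Int.dvd_neg] at hd
  have h1 : p ∣ 432 := by exact_mod_cast hd
  refine h6 (hp.dvd_of_dvd_pow (n := 4) (h1.trans ?_))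
  norm_num

/-- The norm form of the Eisenstein integers. -/
def eisNorm (u v : ℤ) : ℤ := u ^ 2 - u * v + v ^ 2

section Count

variable {p : ℕ} [hp : Fact p.Prime]

/-- Solutions of `x³ = u`. -/
lemma card_cube_roots {χ : MulChar (ZMod p) ℂ} (hχ : orderOf χ = 3) (u : ZMod p) (hu : u ≠ 0) :
    (#{x : ZMod p | x ^ 3 = u} : ℂ) = 1 + χ u + χ u ^ 2 := by
  classical
  have h3 : χ ^ 3 = 1 := hχ ▸ pow_orderOf_eq_one χ
  have hc3 : ∀ x : ZMod p, x ≠ 0 → χ x ^ 3 = 1 := fun x hx => by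
    rw [← MulChar.pow_apply' χ (by norm_num : (3 : ℕ) ≠ 0), h3,
      MulChar.one_apply (isUnit_iff_ne_zero.2 hx)]
  have hp3 : 3 ∣ p - 1 := by
    have h := orderOf_dvd_of_pow_eq_one χ.pow_card_eq_one
    rwa [hχ, ZMod.card_units] at h
  obtain ⟨ζ, hζ⟩ : ∃ ζ : ZMod p, IsPrimitiveRoot ζ 3 := by
    obtain ⟨g, hg⟩ := IsCyclic.exists_ofOrder_eq_natCard (α := (ZMod p)ˣ)
    rw [Nat.card_eq_fintype_card, ZMod.card_units] at hg
    obtain ⟨m, hm⟩ := hp3
    have hpos : p - 1 ≠ 0 := by have := hp.out.one_lt; omega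
    exact ⟨((g ^ m : (ZMod p)ˣ) : ZMod p), IsPrimitiveRoot.coe_units_iff.2
      ((hg ▸ IsPrimitiveRoot.orderOf g).pow (Nat.pos_of_ne_zero hpos) (by rw [hm, mul_comm]))⟩
  by_cases hex : ∃ x₀ : ZMod p, x₀ ^ 3 = u
  · obtain ⟨x₀, rfl⟩ := hex
    have hx₀ : x₀ ≠ 0 := fun e => hu (by rw [e]; ring)
    have he : χ (x₀ ^ 3) = 1 := by rw [map_pow]; exact hc3 x₀ hx₀
    have hset : ({x : ZMod p | x ^ 3 = x₀ ^ 3} : Finset (ZMod p)) =
        (Polynomial.nthRoots 3 (x₀ ^ 3)).toFinset := by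
      ext x
      simp [Polynomial.mem_nthRoots]
    rw [he, hset, Multiset.toFinset_card_of_nodup (hζ.nthRoots_nodup (pow_ne_zero 3 hx₀)),
      IsPrimitiveRoot.card_nthRoots hζ, if_pos ⟨x₀, rfl⟩]
    norm_num
  · have hne : χ u ≠ 1 := by
      intro h1
      obtain ⟨g, hg⟩ := IsCyclic.exists_generator (α := (ZMod p)ˣ)
      obtain ⟨k, hk⟩ := (isOfFinOrder_of_finite g).mem_powers_iff_mem_zpowers.2
        (hg (Units.mk0 u hu))
      have hk' : u = (g : ZMod p) ^ k := by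
        have := congrArg Units.val hk
        simpa using this.symm
      have hg1 : χ (g : ZMod p) ≠ 1 := by
        intro e
        have : χ = 1 := by
          refine MulChar.ext fun a => ?_
          obtain ⟨j, hj⟩ := (isOfFinOrder_of_finite g).mem_powers_iff_mem_zpowers.2 (hg a)
          rw [MulChar.one_apply_coe, ← hj]
          simp [e]
        rw [this, orderOf_one] at hχ
        omega
      have hprim : orderOf (χ (g : ZMod p)) = 3 :=
        orderOf_eq_prime (hc3 _ g.ne_zero) hg1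
      have h3k : 3 ∣ k := hprim ▸ orderOf_dvd_of_pow_eq_one (by rw [← map_pow, ← hk', h1])
      obtain ⟨j, rfl⟩ := h3k
      exact hex ⟨(g : ZMod p) ^ j, by rw [hk', ← pow_mul, mul_comm]⟩
    have h1 : χ u ^ 3 = 1 := hc3 u hu
    have h2 : (χ u - 1) * (1 + χ u + χ u ^ 2) = 0 := by linear_combination h1
    rw [(mul_eq_zero.1 h2).resolve_left (sub_ne_zero.2 hne), Finset.card_eq_zero.2]
    · simp
    · exact Finset.filter_eq_empty_iff.2 fun x _ e => hex ⟨x, e⟩

/-- The quadratic character in `ℂ`. -/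
def qchar (p : ℕ) [Fact p.Prime] : MulChar (ZMod p) ℂ :=
  (quadraticChar (ZMod p)).ringHomComp (Int.castRingHom ℂ)

/-- The sum of the quadratic character over the values `x³ + 1`. -/
lemma sum_qchar_cube (h2 : p ≠ 2) {χ : MulChar (ZMod p) ℂ} (hχ : orderOf χ = 3) :
    ∑ x : ZMod p, qchar p (x ^ 3 + 1) = jacobiSum χ (qchar p) + jacobiSum (χ ^ 2) (qchar p) := by
  classical
  have hφ : qchar p ≠ 1 := (MulChar.ringHomComp_ne_one_iff (Int.cast_injective)).2
    (quadraticChar_ne_one (by rwa [ZMod.ringChar_zmod_n]))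
  have h0 : ∀ f : MulChar (ZMod p) ℂ, f (0 : ZMod p) = 0 := fun f => MulChar.map_zero f
  have hcount : ∀ u : ZMod p,
      (#{x : ZMod p | x ^ 3 = u} : ℂ) = 1 + χ u + (χ ^ 2) u := fun u => by
    rw [MulChar.pow_apply' χ (by norm_num : (2 : ℕ) ≠ 0)]
    rcases eq_or_ne u 0 with rfl | hu
    · rw [h0]
      have : ({x : ZMod p | x ^ 3 = 0} : Finset (ZMod p)) = {0} := by ext x; simp
      rw [this]; simp
    · exact card_cube_roots hχ u hu
  have hfib : ∑ x : ZMod p, qchar p (x ^ 3 + 1) =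
      ∑ u : ZMod p, (#{x : ZMod p | x ^ 3 = u} : ℂ) * qchar p (u + 1) := by
    rw [← Finset.sum_fiberwise (s := univ) (g := fun x : ZMod p => x ^ 3)
      (f := fun x => qchar p (x ^ 3 + 1))]
    refine Finset.sum_congr rfl fun u _ => ?_
    rw [Finset.sum_congr rfl (g := fun _ => qchar p (u + 1)) (fun x hx => by
      rw [(Finset.mem_filter.1 hx).2]), Finset.sum_const, nsmul_eq_mul]
  have hneg : ∀ f : MulChar (ZMod p) ℂ, f ^ 3 = 1 →
      ∑ u : ZMod p, f u * qchar p (u + 1) = jacobiSum f (qchar p) := fun f hf => by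
    rw [jacobiSum, ← Equiv.sum_comp (Equiv.neg (ZMod p))]
    refine Finset.sum_congr rfl fun u _ => ?_
    rw [Equiv.neg_apply, show -u + 1 = 1 - u by ring, show -u = (-1) * u by ring, map_mul,
      MulChar.val_neg_one_eq_one_of_odd_order (n := 3) (by decide) hf, one_mul]
  have h3 : χ ^ 3 = 1 := hχ ▸ pow_orderOf_eq_one χ
  rw [hfib]
  simp only [hcount, add_mul, one_mul, Finset.sum_add_distrib]
  rw [hneg χ h3, hneg (χ ^ 2) (by rw [← pow_mul, mul_comm, pow_mul, h3, one_pow]),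
    show ∑ x : ZMod p, qchar p (x + 1) = 0 from
      (Equiv.sum_comp (Equiv.addRight (1 : ZMod p)) (fun u => qchar p u)).trans
        (MulChar.sum_eq_zero_of_ne_one hφ), zero_add]

/-- The number of points. -/
lemma natCard_cmCurve_points (hgood : cmCurve.IsGoodPrimeFor p) (h2 : p ≠ 2) :
    ((cmCurve.reductionMod p).card : ℂ) = 1 + p + ∑ x : ZMod p, qchar p (x ^ 3 + 1) := by
  classical
  set W := cmCurve.reductionMod p
  have hΔ : W.toAffine.Δ ≠ 0 := by
    show (cmCurve.map (Int.castRingHom (ZMod p))).Δ ≠ 0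
    rw [WeierstrassCurve.map_Δ, eq_intCast, Ne, ZMod.intCast_zmod_eq_zero_iff_dvd]
    exact hgood
  let S := {z : ZMod p × ZMod p // z.2 ^ 2 = z.1 ^ 3 + 1}
  have hiff : ∀ x y : ZMod p, W.toAffine.Nonsingular x y ↔ y ^ 2 = x ^ 3 + 1 := fun x y => by
    rw [← WeierstrassCurve.Affine.equation_iff_nonsingular_of_Δ_ne_zero hΔ,
      WeierstrassCurve.Affine.equation_iff]
    simp [W, WeierstrassCurve.reductionMod, cmCurve]
  let e : W.toAffine.Point ≃ Option S :=
    { toFun := fun P => match P with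
        | .zero => none
        | .some x y h => some ⟨(x, y), (hiff x y).1 h⟩
      invFun := fun o => match o with
        | none => .zero
        | some s => .some s.1.1 s.1.2 ((hiff _ _).2 s.2)
      left_inv := fun P => by rcases P with _ | ⟨x, y, h⟩ <;> rfl
      right_inv := fun o => by rcases o with _ | s <;> rfl }
  rw [WeierstrassCurve.card, Nat.card_congr e, Finite.card_option, Nat.cast_add, Nat.cast_one,
    add_comm, add_assoc]
  congr 1
  have hfib : ∀ x : ZMod p, (#{y : ZMod p | y ^ 2 = x ^ 3 + 1} : ℂ) = 1 + qchar p (x ^ 3 + 1) := by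
    intro x
    have h := quadraticChar_card_sqrts (F := ZMod p) (by rwa [ZMod.ringChar_zmod_n]) (x ^ 3 + 1)
    have h' := congrArg (fun z : ℤ => (z : ℂ)) h
    simp only [Int.cast_natCast, Int.cast_add, Int.cast_one] at h'
    rw [show ({y : ZMod p | y ^ 2 = x ^ 3 + 1} : Finset (ZMod p)) =
      {y : ZMod p | y ^ 2 = x ^ 3 + 1}.toFinset by ext; simp, h', add_comm]
    rfl
  have hS : Nat.card S = ∑ x : ZMod p, #{y : ZMod p | y ^ 2 = x ^ 3 + 1} := by
    rw [Nat.card_eq_fintype_card, Fintype.card_subtype, Finset.card_filter, Fintype.sum_prod_type]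
    simp only [Finset.card_filter]
  rw [hS, Nat.cast_sum]
  simp only [hfib]
  rw [Finset.sum_add_distrib]
  simp

/-- The Jacobi sum as an Eisenstein integer. -/
lemma exists_eq_of_mem_adjoin {ω x : ℂ} (hω : ω ^ 2 + ω + 1 = 0)
    (hx : x ∈ Algebra.adjoin ℤ ({ω} : Set ℂ)) : ∃ u v : ℤ, x = u + v * ω := by
  induction hx using Algebra.adjoin_induction with
  | mem y hy => obtain rfl := hy; exact ⟨0, 1, by simp⟩
  | algebraMap r => exact ⟨r, 0, by simp⟩
  | add y z _ _ hy hz =>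
    obtain ⟨a, b, rfl⟩ := hy; obtain ⟨c, d, rfl⟩ := hz
    exact ⟨a + c, b + d, by push_cast; ring⟩
  | mul y z _ _ hy hz =>
    obtain ⟨a, b, rfl⟩ := hy; obtain ⟨c, d, rfl⟩ := hz
    exact ⟨a * c - b * d, a * d + b * c - b * d, by push_cast; linear_combination (b * d : ℂ) * hω⟩

/-- **The trace of Frobenius of `y² = x³ + 1`**: at a prime `p ≡ 1 (mod 3)` it is `π + π̄` for an
Eisenstein integer `π` of norm `p`. -/
theorem exists_trace_eq (h6 : ¬ p ∣ 6) (h3 : p % 3 = 1) :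
    ∃ u v : ℤ, (p : ℤ) = eisNorm u v ∧ cmCurve.apOfModel p = 2 * u - v := by
  classical
  have h2 : p ≠ 2 := fun e => h6 (by rw [e]; norm_num)
  obtain ⟨ω, hω⟩ : ∃ ω : ℂ, IsPrimitiveRoot ω 3 :=
    ⟨_, Complex.isPrimitiveRoot_exp 3 (by norm_num)⟩
  have hω2 : ω ^ 2 + ω + 1 = 0 := by
    have := hω.geom_sum_eq_zero (by norm_num)
    rw [Finset.sum_range_succ, Finset.sum_range_succ, Finset.sum_range_one] at this
    linear_combination this
  obtain ⟨χ, hχ⟩ := MulChar.exists_mulChar_orderOf (ZMod p) (n := 3)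
    (by rw [ZMod.card]; omega) hω
  have h3' : χ ^ 3 = 1 := hχ ▸ pow_orderOf_eq_one χ
  have hχ1 : χ ≠ 1 := fun e => by rw [e, orderOf_one] at hχ; omega
  have hφ : qchar p ≠ 1 := (MulChar.ringHomComp_ne_one_iff (Int.cast_injective)).2
    (quadraticChar_ne_one (by rwa [ZMod.ringChar_zmod_n]))
  have hφ2 : qchar p ^ 2 = 1 := by
    have h := (quadraticChar_isQuadratic (ZMod p)).sq_eq_one
    rw [qchar, pow_two, ← MulChar.ringHomComp_mul, ← pow_two, h, MulChar.ringHomComp_one]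
  have hφinv : (qchar p)⁻¹ = qchar p := inv_eq_of_mul_eq_one_right (by rw [← pow_two, hφ2])
  have hχinv : χ⁻¹ = χ ^ 2 := inv_eq_of_mul_eq_one_right (by rw [← h3']; group)
  have hχφ : χ * qchar p ≠ 1 := fun e => hχ1 (by
    have h1 : (χ * qchar p) ^ 2 = 1 := by rw [e, one_pow]
    rw [mul_pow, hφ2, mul_one] at h1
    rwa [pow_succ, h1, one_mul] at h3')
  set J := jacobiSum χ (qchar p)
  have hmem : J ∈ Algebra.adjoin ℤ ({ω} : Set ℂ) := by
    refine Subalgebra.sum_mem _ fun x _ => Subalgebra.mul_mem _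
      (MulChar.apply_mem_algebraAdjoin_of_pow_eq_one h3' hω x) ?_
    exact Subalgebra.intCast_mem _ _
  obtain ⟨u, v, huv⟩ := exists_eq_of_mem_adjoin hω2 hmem
  have hconjω : (starRingEnd ℂ) ω = ω ^ 2 := by
    have h1 := Complex.conj_mul' ω
    rw [hω.norm'_eq_one (by norm_num), Complex.ofReal_one, one_pow] at h1
    have h2 : ω ^ 3 = 1 := hω.pow_eq_one
    calc (starRingEnd ℂ) ω = (starRingEnd ℂ) ω * ω ^ 3 := by rw [h2, mul_one]
      _ = ((starRingEnd ℂ) ω * ω) * ω ^ 2 := by ring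
      _ = ω ^ 2 := by rw [h1, one_mul]
  have hJ2 : jacobiSum (χ ^ 2) (qchar p) = (starRingEnd ℂ) J := by
    simp only [J, jacobiSum, map_sum]
    refine Finset.sum_congr rfl fun x _ => ?_
    rw [map_mul, starRingEnd_apply, starRingEnd_apply, MulChar.star_apply', MulChar.star_apply',
      hχinv, hφinv]
  have hmul : J * jacobiSum (χ ^ 2) (qchar p) = p := by
    have h := jacobiSum_mul_jacobiSum_inv (F := ZMod p) (F' := ℂ)
      (by rw [ZMod.ringChar_zmod_n, ringChar.eq_zero]; exact hp.out.ne_zero.symm) hχ1 hφ hχφ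
    rw [hχinv, hφinv, ZMod.card] at h
    exact h
  rw [hJ2, huv, map_add, map_mul, map_intCast, map_intCast, hconjω] at hmul
  refine ⟨-u, -v, ?_, ?_⟩
  · have hC : ((p : ℤ) : ℂ) = (eisNorm (-u) (-v) : ℤ) := by
      rw [eisNorm]
      push_cast
      linear_combination -hmul + ((u * v : ℂ) + (v : ℂ) ^ 2 * (ω - 1)) * hω2
    exact_mod_cast hC
  · have hcard := natCard_cmCurve_points (cmCurve_good hp.out h6) h2
    rw [sum_qchar_cube h2 hχ, hJ2, show jacobiSum χ (qchar p) = J from rfl, huv, map_add, map_mul,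
      map_intCast, map_intCast, hconjω] at hcard
    have hC : ((cmCurve.apOfModel p : ℤ) : ℂ) = ((2 * -u - -v : ℤ) : ℂ) := by
      rw [WeierstrassCurve.apOfModel, WeierstrassCurve.traceOfFrobenius, Nat.card_zmod]
      push_cast
      rw [hcard]
      linear_combination (-(v : ℂ)) * hω2
    exact_mod_cast hC

end Count

/-- An Eisenstein integer `π` with `n² ∣ N(π - 1)` and `n ∣ N(π) - 1` is `1` modulo `n`. -/
theorem eisNorm_congr {n p : ℤ} (hn : n ≠ 0) {u v : ℤ} (hp : p = eisNorm u v)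
    (h1 : n ∣ p - 1) (h2 : n ^ 2 ∣ p + 1 - (2 * u - v)) : n ∣ u - 1 ∧ n ∣ v := by
  obtain ⟨m, hm⟩ := h2
  obtain ⟨k, hk⟩ := h1
  set t := k - n * m
  have ht : 2 * u - v - 2 = n * t := by
    simp only [t]; linear_combination hk - hm
  subst hp
  have key : 3 * v ^ 2 = n ^ 2 * (4 * m - t ^ 2) := by
    simp only [eisNorm] at hm
    linear_combination 4 * hm - (2 * u - v - 2 + n * t) * ht
  have hv : n ∣ v := by
    obtain ⟨g, a, b, hg, hcop, rfl, rfl⟩ : ∃ g a b : ℤ, g ≠ 0 ∧ IsCoprime a b ∧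
        n = g * a ∧ v = g * b := by
      obtain ⟨a, ha⟩ := Int.gcd_dvd_left n v
      obtain ⟨b, hb⟩ := Int.gcd_dvd_right n v
      have hg : (Int.gcd n v : ℤ) ≠ 0 := by
        exact_mod_cast (Int.gcd_pos_of_ne_zero_left v hn).ne'
      refine ⟨_, a, b, hg, ?_, ha, hb⟩
      refine ⟨Int.gcdA n v, Int.gcdB n v, mul_left_cancel₀ hg ?_⟩
      linear_combination (-Int.gcdA n v) * ha + (-Int.gcdB n v) * hb - Int.gcd_eq_gcd_ab n v
    have h3 : a ^ 2 ∣ 3 := by
      refine IsCoprime.dvd_of_dvd_mul_right (hcop.pow (m := 2) (n := 2)) ⟨4 * m - t ^ 2, ?_⟩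
      exact mul_left_cancel₀ (pow_ne_zero 2 hg) (by linear_combination key)
    have ha : a ^ 2 = 1 := by
      have hle := Int.le_of_dvd (by norm_num) h3
      have h0 : a ≠ 0 := fun e => hn (by rw [e, mul_zero])
      have : a ≤ 1 := by nlinarith
      have : -1 ≤ a := by nlinarith
      rcases (show a = 1 ∨ a = -1 by omega) with rfl | rfl <;> norm_num
    exact ⟨a * b, by linear_combination (-g * b) * ha⟩
  refine ⟨?_, hv⟩
  obtain ⟨s, rfl⟩ := hv
  have h3 : 3 * s ^ 2 = 4 * m - t ^ 2 :=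
    mul_left_cancel₀ (pow_ne_zero 2 hn) (by linear_combination key)
  have heven : Even (t + s) := by
    have h4 : Even ((t + s) ^ 2) := ⟨2 * m - s ^ 2 + t * s, by linear_combination h3⟩
    exact ((Int.even_pow' two_ne_zero).1 h4)
  obtain ⟨r, hr⟩ := heven
  exact ⟨r, mul_left_cancel₀ two_ne_zero (by linear_combination ht + n * hr)⟩

end FermatAgent.LT.Mod3
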