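import Mathlib.LinearAlgebra.Matrix.NonsingularInverse
import Mathlib.LinearAlgebra.Matrix.GeneralLinearGroup.Defs
import Mathlib.Tactic

/-!
# Anticommuting square roots of minus one in `M₂(k)`

Away from characteristic two only scalars commute with such a pair, and any two such pairs are
conjugate: the average `X - A X A' - B X B' - AB X A'B'` intertwines them, and is invertible as
soon as it is non-zero.
-/

set_option autoImplicit false

noncomputable section

namespace FermatAgent.LT.Mod3

variable {k : Type} [Field k]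

local notation "Mat2" => Matrix (Fin 2) (Fin 2)

/-- A pair of anticommuting square roots of minus one. -/
def IsQuatPair (A B : Mat2 k) : Prop := A * A = -1 ∧ B * B = -1 ∧ A * B = -(B * A)

/-- The average of `X` intertwining two pairs. -/
private def intertwiner (A B A' B' X : Mat2 k) : Mat2 k :=
  X - A * X * A' - B * X * B' - A * B * X * (A' * B')

namespace IsQuatPair

variable {A B A' B' : Mat2 k}

lemma bab (h : IsQuatPair A B) : B * A * B = A := by
  rw [mul_assoc, h.2.2, mul_neg, ← mul_assoc, h.2.1, neg_one_mul, neg_neg]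

lemma abab (h : IsQuatPair A B) : A * B * (A * B) = -1 := by
  rw [mul_assoc, ← mul_assoc B A B, h.bab, h.1]

private lemma trace_fst (h2 : (2 : k) ≠ 0) (h : IsQuatPair A B) : A.trace = 0 := by
  have e : A.trace = -A.trace := by
    conv_lhs => rw [← h.bab, Matrix.trace_mul_cycle, h.2.1, neg_one_mul, Matrix.trace_neg]
  exact (mul_eq_zero.1 (show (2 : k) * A.trace = 0 by linear_combination e)).resolve_left h2

lemma trace_zero (h2 : (2 : k) ≠ 0) (h : IsQuatPair A B) :
    A.trace = 0 ∧ B.trace = 0 ∧ (A * B).trace = 0 := by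
  refine ⟨h.trace_fst h2, trace_fst (B := A) h2 ⟨h.2.1, h.1, by rw [h.2.2, neg_neg]⟩,
    trace_fst (B := B) h2 ⟨h.abab, h.2.1, ?_⟩⟩
  rw [mul_assoc, h.2.1, ← mul_assoc, h.bab, mul_neg, mul_one]

/-- Only scalars commute with the pair. -/
theorem eq_smul_one (h2 : (2 : k) ≠ 0) (h : IsQuatPair A B) {M : Mat2 k} (hA : Commute M A)
    (hB : Commute M B) : M = M 0 0 • 1 := by
  obtain ⟨c, N, hN, rfl⟩ : ∃ (c : k) (N : Mat2 k), N.trace = 0 ∧ M = c • 1 + N :=
    ⟨M.trace / 2, M - (M.trace / 2) • 1, by
      rw [Matrix.trace_sub, Matrix.trace_smul, Matrix.trace_one, Fintype.card_fin, smul_eq_mul,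
        Nat.cast_ofNat, div_mul_cancel₀ _ h2, sub_self], by abel⟩
  have hNA : Commute N A := by simpa using hA.sub_left ((Commute.one_left A).smul_left c)
  have hNB : Commute N B := by simpa using hB.sub_left ((Commute.one_left B).smul_left c)
  obtain ⟨htA, -, -⟩ := h.trace_zero h2
  have e : N * A + A * N = (N * A).trace • (1 : Mat2 k) := by
    rw [Matrix.trace_fin_two, add_eq_zero_iff_neg_eq] at hN htA
    ext i j
    fin_cases i <;> fin_cases j <;>
      simp [Matrix.mul_apply, Matrix.trace_fin_two, Fin.sum_univ_two, ← hN, ← htA] <;> ring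
  set s := -((N * A).trace / 2)
  have hNs : N = s • A := by
    rw [← hNA.eq, ← two_smul k] at e
    have e2 : N * A = ((N * A).trace / 2) • 1 :=
      smul_right_injective (Mat2 k) h2
        (e.trans (by simp only [smul_smul, mul_div_cancel₀ _ h2]))
    calc N = -(N * A * A) := by rw [mul_assoc, h.1, mul_neg, mul_one, neg_neg]
      _ = s • A := by rw [e2, smul_mul_assoc, one_mul, ← neg_smul]
  have hz : (2 * s) • (A * B) = 0 := by
    have e1 : s • (A * B) = s • (B * A) := by
      rw [← smul_mul_assoc, ← mul_smul_comm, ← hNs]; exact hNB.eq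
    rw [show B * A = -(A * B) by rw [h.2.2, neg_neg], smul_neg] at e1
    rw [mul_smul, two_smul]
    linear_combination (norm := abel) e1
  have hAB : A * B ≠ 0 := fun e0 => by
    have := h.abab
    rw [e0, zero_mul] at this
    exact one_ne_zero (neg_eq_zero.1 this.symm)
  have hs : s = 0 :=
    (mul_eq_zero.1 ((smul_eq_zero.1 hz).resolve_right hAB)).resolve_left h2
  simp [hNs, hs]

private lemma mul_intertwiner (h : IsQuatPair A B) (h' : IsQuatPair A' B') (X : Mat2 k) :
    A * intertwiner A B A' B' X = intertwiner A B A' B' X * A' ∧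
      B * intertwiner A B A' B' X = intertwiner A B A' B' X * B' := by
  have e1 : ∀ Y, A * (A * Y) = -Y := fun Y => by rw [← mul_assoc, h.1, neg_one_mul]
  have e2 : ∀ Y, B * (B * Y) = -Y := fun Y => by rw [← mul_assoc, h.2.1, neg_one_mul]
  have e3 : ∀ Y, B * (A * Y) = -(A * (B * Y)) := fun Y => by
    rw [← mul_assoc, show B * A = -(A * B) by rw [h.2.2, neg_neg], neg_mul, mul_assoc]
  have f3 : B' * A' = -(A' * B') := by rw [h'.2.2, neg_neg]
  have f4 : ∀ Y, A' * (A' * Y) = -Y := fun Y => by rw [← mul_assoc, h'.1, neg_one_mul]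
  constructor <;>
    simp only [intertwiner, mul_sub, sub_mul, mul_assoc, e1, e2, e3, f3, f4, h'.1, h'.2.1,
      mul_neg, mul_one, neg_neg] <;> abel

/-- Two pairs are conjugate. -/
theorem exists_conj (h2 : (2 : k) ≠ 0) (h : IsQuatPair A B) (h' : IsQuatPair A' B') :
    ∃ P : Mat2 k, IsUnit P ∧ A * P = P * A' ∧ B * P = P * B' := by
  obtain ⟨htA, htB, htAB⟩ := h.trace_zero h2
  obtain ⟨X, hX⟩ : ∃ X, intertwiner A B A' B' X ≠ 0 := by
    by_contra hcon
    push Not at hcon
    have a0 := congrFun (congrFun (hcon (Matrix.single 0 0 1)) 0) 0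
    have a1 := congrFun (congrFun (hcon (Matrix.single 1 0 1)) 1) 0
    rw [Matrix.trace_fin_two] at htA htB htAB
    simp [intertwiner, Matrix.mul_apply, Fin.sum_univ_two] at a0 a1 htAB
    exact h2 (by
      linear_combination a0 + a1 + A' 0 0 * htA + B' 0 0 * htB +
        (A' 0 0 * B' 0 0 + A' 0 1 * B' 1 0) * htAB)
  set P := intertwiner A B A' B' X
  obtain ⟨hPA, hPB⟩ : A * P = P * A' ∧ B * P = P * B' := mul_intertwiner h h' X
  obtain ⟨i, j, hij⟩ : ∃ i j, P i j ≠ 0 := by
    by_contra hcon
    push Not at hcon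
    exact hX (Matrix.ext hcon)
  set Z : Mat2 k := P * Matrix.single j i 1
  -- the average the other way is an inverse up to a scalar
  have hprod : P * intertwiner A' B' A B (Matrix.single j i 1) = intertwiner A B A B Z := by
    have e1 : ∀ Y, P * (A' * Y) = A * (P * Y) := fun Y => by rw [← mul_assoc, ← hPA, mul_assoc]
    have e2 : ∀ Y, P * (B' * Y) = B * (P * Y) := fun Y => by rw [← mul_assoc, ← hPB, mul_assoc]
    simp only [Z, intertwiner, mul_sub, mul_assoc, e1, e2]
  obtain ⟨hcA, hcB⟩ := mul_intertwiner h h Z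
  have hsc := eq_smul_one h2 h (Commute.symm hcA) (Commute.symm hcB)
  set c := intertwiner A B A B Z 0 0
  have htr : 2 * c = 4 * P i j := by
    have e := congrArg Matrix.trace hsc
    have hT : ∀ C : Mat2 k, C * C = -1 → (C * Z * C).trace = -Z.trace :=
      fun C hC => by
      rw [Matrix.trace_mul_cycle, hC, neg_one_mul, Matrix.trace_neg]
    rw [intertwiner, Matrix.trace_sub, Matrix.trace_sub, Matrix.trace_sub, hT A h.1, hT B h.2.1,
      hT _ h.abab, Matrix.trace_smul, Matrix.trace_one, Fintype.card_fin, smul_eq_mul,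
      Nat.cast_ofNat] at e
    have hZ : Z.trace = P i j := by simp [Z, Matrix.trace_mul_single]
    linear_combination -e + 4 * hZ
  have hc : c ≠ 0 := fun e => hij
    ((mul_eq_zero.1 (show (2 * 2 : k) * P i j = 0 by linear_combination -htr + 2 * e)).resolve_left
      (mul_ne_zero h2 h2))
  refine ⟨P, IsUnit.of_mul_eq_one
    (c⁻¹ • intertwiner A' B' A B (Matrix.single j i 1)) ?_, hPA, hPB⟩
  rw [mul_smul_comm, hprod, hsc, smul_smul, inv_mul_cancel₀ hc, one_smul]

end IsQuatPair

end FermatAgent.LT.Mod3
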