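import Fermat.Agent.LT.Mod3.Galois.Torsion
import Fermat.Agent.LT.Mod3.Galois.Quaternion
import Fermat.Agent.LT.Octa.Fields
import Fermat.Agent.GaloisBasic.CharpolyDensity
import Fermat.Agent.Assembly.Residual
import Fermat.Prelude.Def_GaloisRep_Residual

/-!
# A representation matching the octahedral one at the Eisenstein primes is a quadratic twist

If a two dimensional representation `ρ` in characteristic three has, at the Frobenius elements
with class `± 1` lying over primes `π π̄` with `π ≡ 1 (mod n)`, the characteristic polynomial of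
that class, and cyclotomic determinant, then `ρ ≅ ψ ⊗ e` with `ψ² = 1`: the elements concerned
contain commutators mapping onto the quaternion group, whose two dimensional representation
with `-1 ↦ -1` is unique.  The last step is stated over any field of characteristic not two.
-/

set_option autoImplicit false

noncomputable section

open Polynomial
open scoped commutatorElement
open FermatAgent.LT.Period (GL3)

namespace FermatAgent.LT.Mod3

open FermatAgent.LT.Octa (OctaRep IsQ8 gI)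

local notation "Qbar" => AlgebraicClosure ℚ
local notation "GQ" => AlgebraicClosure ℚ ≃ₐ[ℚ] AlgebraicClosure ℚ

/-- The scalars `± 1`. -/
def pmOne : Subgroup GL3 where
  carrier := {g | g = 1 ∨ g = -1}
  one_mem' := Or.inl rfl
  mul_mem' := fun {a b} ha hb => by
    rcases ha with rfl | rfl <;> rcases hb with rfl | rfl <;> simp
  inv_mem' := fun {a} ha => by
    rcases ha with rfl | rfl <;> simp

/-- Membership in `±1`. -/
lemma mem_pmOne {g : GL3} : g ∈ pmOne ↔ g = 1 ∨ g = -1 := Iff.rfl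

/-- The second generator of the quaternion group. -/
def gJ : GL3 := ⟨!![1, 1; 1, -1], !![-1, -1; -1, 1], by decide, by decide⟩

set_option maxRecDepth 100000 in
/-- The element of order four squares to minus one. -/
lemma gI_sq : gI * gI = -1 := by decide

set_option maxRecDepth 100000 in
lemma gJ_sq : gJ * gJ = -1 := by decide

set_option maxRecDepth 100000 in
lemma gIJ : gI * gJ = -1 * (gJ * gI) := by decide

set_option maxRecDepth 100000 in
/-- The element of order four is a commutator in the special linear group. -/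
lemma exists_commutator_gI : ∃ a b : GL3, a.val.det = 1 ∧ b.val.det = 1 ∧ ⁅a, b⁆ = gI := by
  simp only [FermatAgent.LT.Octa.exists_gl3]
  decide +kernel

set_option maxRecDepth 100000 in
lemma exists_commutator_gJ : ∃ a b : GL3, a.val.det = 1 ∧ b.val.det = 1 ∧ ⁅a, b⁆ = gJ := by
  simp only [FermatAgent.LT.Octa.exists_gl3]
  decide +kernel

set_option maxRecDepth 100000 in
lemma q8_cases : ∀ g : GL3, IsQ8 g → g = 1 ∨ g = -1 ∨ g = gI ∨ g = gI * -1 ∨ g = gJ ∨
    g = gJ * -1 ∨ g = gI * gJ ∨ g = gJ * gI := by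
  rw [FermatAgent.LT.Octa.forall_gl3]
  decide +kernel

section

variable {k : Type} [Field k]

/-- The matrix of a class over `k`. -/
def castMat (k : Type) [Field k] [CharP k 3] : GL3 →* Matrix (Fin 2) (Fin 2) k :=
  ((ZMod.castHom (dvd_refl 3) k).mapMatrix.toMonoidHom).comp (Units.coeHom _)

variable [CharP k 3]

/-- The cast matrix is entrywise. -/
lemma castMat_apply (g : GL3) :
    castMat k g = (g.val).map (ZMod.castHom (dvd_refl 3) k) := rfl

lemma isUnit_castMat (g : GL3) : IsUnit (castMat k g) :=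
  g.isUnit.map ((ZMod.castHom (dvd_refl 3) k).mapMatrix)

lemma castMat_neg_one : castMat k (-1) = -1 := by
  rw [castMat_apply, Units.val_neg, Units.val_one]
  exact map_neg (ZMod.castHom (dvd_refl 3) k).mapMatrix 1 |>.trans (by rw [map_one])

/-- The cast commutes with determinants. -/
lemma castMat_det (g : GL3) :
    (castMat k g).det = ZMod.castHom (dvd_refl 3) k g.val.det :=
  ((ZMod.castHom (dvd_refl 3) k).map_det g.val).symm

/-- Two is nonzero. -/
lemma two_ne_zero' : (2 : k) ≠ 0 := fun h => by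
  have := (CharP.cast_eq_zero_iff k 3 2).1 (by exact_mod_cast h)
  omega

end

variable {k : Type} [Field k] [CharP k 3]

/-- Agreement with `R` at the primes `π π̄`, `π ≡ 1 (mod n)`: where the class is `± 1` the
characteristic polynomial of Frobenius is that of `± 1`. -/
def AgreesAt (R : OctaRep) (ρ : ResidualGaloisRep k) (n : ℕ) (S : Finset ℕ) : Prop :=
  ∀ p : ℕ, p.Prime → p ∉ S → IsCMPrime n p → ∀ A : ValuationSubring Qbar, A.LiesOverPrime p →
    ∀ σ : GQ, A.IsFrobeniusAt σ p →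
      (R.e σ = 1 → LinearMap.charpoly (ρ.ρ σ) = (X - C 1) ^ 2) ∧
      (R.e σ = -1 → LinearMap.charpoly (ρ.ρ σ) = (X - C (-1)) ^ 2)

/-- Cyclotomic determinant: Frobenius at `p` has determinant `p`. -/
def DetCyclo (ρ : ResidualGaloisRep k) (S : Finset ℕ) : Prop :=
  ∀ p : ℕ, p.Prime → p ∉ S → ∀ A : ValuationSubring Qbar, A.LiesOverPrime p →
    ∀ σ : GQ, A.IsFrobeniusAt σ p → LinearMap.det (ρ.ρ σ) = (p : k)

section GRep

variable (R : LT2.Fields.GRep) {n : ℕ}

/-- A number field inside the distinguished subgroup on which two representations are trivial. -/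
lemma exists_level {M : Type} [MulOneClass M] {ρ : GQ →* M} (hn : n ≠ 0)
    (hfin : GaloisFactorsThroughFiniteLevel ρ) :
    ∃ L : IntermediateField ℚ Qbar, FiniteDimensional ℚ L ∧
      ∀ σ ∈ L.fixingSubgroup, σ ∈ cmGroup n ∧ R.e σ = 1 ∧ ρ σ = 1 := by
  obtain ⟨L₁, hL₁, h₁⟩ := hfin
  have hopen : IsOpen ((cmGroup n ⊓ R.e.ker : Subgroup GQ) : Set GQ) :=
    (isOpen_cmGroup hn).inter R.open_ker
  obtain ⟨L₂, hL₂, h₂⟩ := (krullTopology_mem_nhds_one_iff ℚ Qbar
    ((cmGroup n ⊓ R.e.ker : Subgroup GQ) : Set GQ)).1 (hopen.mem_nhds (one_mem _))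
  have := hL₁; have := hL₂
  refine ⟨L₁ ⊔ L₂, inferInstance, fun σ hσ => ?_⟩
  have h := h₂ (IntermediateField.fixingSubgroup_antitone le_sup_right hσ)
  exact ⟨h.1, MonoidHom.mem_ker.1 h.2, h₁ σ fun x hx =>
    (IntermediateField.mem_fixingSubgroup_iff _ σ).1 hσ x (le_sup_left (b := L₂) hx)⟩

/-- Lifts of the quaternion generators by commutators. -/
lemma exists_lift {g : GL3} (hg : ∃ a b : GL3, a.val.det = 1 ∧ b.val.det = 1 ∧ ⁅a, b⁆ = g)
    (hn : n ≠ 0) (F : Type) [Field F] :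
    ∃ d ∈ cmGroup n, R.e d = g ∧ ∀ α : GQ →* F, α d = 1 := by
  obtain ⟨a, b, ha, hb, hab⟩ := hg
  obtain ⟨σ, rfl⟩ := R.surj a
  obtain ⟨τ, rfl⟩ := R.surj b
  have : NeZero ((3 : ℕ) : Qbar) := ⟨by norm_num⟩
  obtain ⟨ζ, hζ⟩ := HasEnoughRootsOfUnity.exists_primitiveRoot Qbar 3
  have hfix : ∀ g : GQ, (R.e g).val.det = 1 → g ζ = ζ := fun g hg => by
    rw [R.det g ζ hζ.pow_eq_one, hg, ZMod.val_one, pow_one]
  refine ⟨⁅σ, τ⁆, commutator_mem_cmGroup hn hζ (hfix σ ha) (hfix τ hb), ?_, fun α => ?_⟩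
  · rw [map_commutatorElement, hab]
  · have h1 : ∀ x : GQ, α x⁻¹ * α x = 1 := fun x => by rw [← map_mul, inv_mul_cancel, map_one]
    rw [commutatorElement_def, map_mul, map_mul, map_mul]
    linear_combination (α τ⁻¹ * α τ) * h1 σ + h1 τ

/-- The Frobenius approximations of an element. -/
lemma exists_approx {M : Type} [Monoid M] {ρ : GQ →* M} (hn : n ≠ 0)
    (hfin : GaloisFactorsThroughFiniteLevel ρ) (g : GQ) (S : Finset ℕ) :
    ∃ (p : ℕ) (A : ValuationSubring Qbar) (σ : GQ) (j : ℕ), p.Prime ∧ p ∉ S ∧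
      A.LiesOverPrime p ∧ A.IsFrobeniusAt σ p ∧ ρ g = ρ σ ^ j ∧ R.e g = R.e σ ^ j ∧
      (g ∈ cmGroup n ⊓ pmOne.comap R.e → σ ∈ cmGroup n ⊓ pmOne.comap R.e) := by
  obtain ⟨L, hL, hfix⟩ := exists_level R hn hfin
  obtain ⟨p, A, σ, j, i, hp, hpS, hA, hσ, -, hj, hi⟩ :=
    GaloisBasic.exists_frobenius_pow_congr L g S
  refine ⟨p, A, σ, j, hp, hpS, hA, hσ, ?_, ?_, fun hg => ?_⟩
  · rw [← map_pow, show g = σ ^ j * ((σ ^ j)⁻¹ * g) by group, map_mul, (hfix _ hj).2.2, mul_one]
  · rw [← map_pow, show g = σ ^ j * ((σ ^ j)⁻¹ * g) by group, map_mul, (hfix _ hj).2.1, mul_one]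
  · rw [show σ = g ^ i * ((g ^ i)⁻¹ * σ) by group]
    refine mul_mem (pow_mem hg i) ⟨(hfix _ hi).1, ?_⟩
    show R.e ((g ^ i)⁻¹ * σ) ∈ pmOne
    rw [(hfix _ hi).2.1]
    exact one_mem _

/-- A representation which on the distinguished subgroup is the sign of the class is, after
conjugation, the product of a character and any `Φ` with `Φ (-1) = -1` composed with the class. -/
theorem exists_conj_eq_smul {k : Type} [Field k] (h2 : (2 : k) ≠ 0) (hn : n ≠ 0)
    (r : GQ →* GL (Fin 2) k) (hr : ∀ h ∈ cmGroup n,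
      (R.e h = 1 → r h = 1) ∧ (R.e h = -1 → (r h).val = -1))
    (Φ : GL3 →* GL (Fin 2) k) (hΦ : (Φ (-1)).val = -1) :
    ∃ (u : GL (Fin 2) k) (ψ : GQ →* k),
      ∀ g, (u * r g * u⁻¹).val = ψ g • (Φ (R.e g)).val := by
  obtain ⟨dI, hdI, heI, -⟩ := exists_lift R exists_commutator_gI hn k
  obtain ⟨dJ, hdJ, heJ, -⟩ := exists_lift R exists_commutator_gJ hn k
  have hsq : ∀ d ∈ cmGroup n, R.e d * R.e d = -1 → (r d).val * (r d).val = -1 :=
    fun d hd e => by
      rw [← Units.val_mul, ← map_mul]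
      exact (hr _ (mul_mem hd hd)).2 (by rw [map_mul, e])
  have hanti : (r dI).val * (r dJ).val = -((r dJ).val * (r dI).val) := by
    have h := (hr _ (show dI * dJ * (dJ * dI)⁻¹ ∈ cmGroup n from
      mul_mem (mul_mem hdI hdJ) (inv_mem (mul_mem hdJ hdI)))).2
        (by rw [map_mul, map_inv, map_mul, map_mul, heI, heJ, gIJ, mul_inv_cancel_right])
    rw [← Units.val_mul, ← Units.val_mul, ← map_mul, ← map_mul,
      show dI * dJ = dI * dJ * (dJ * dI)⁻¹ * (dJ * dI) by group, map_mul r, Units.val_mul, h,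
      neg_one_mul]
  have hQ : IsQuatPair (Φ gI).val (Φ gJ).val :=
    ⟨by rw [← Units.val_mul, ← map_mul, gI_sq, hΦ], by rw [← Units.val_mul, ← map_mul, gJ_sq, hΦ],
      by rw [← Units.val_mul, ← map_mul, gIJ, map_mul, Units.val_mul, hΦ, neg_one_mul, map_mul,
        Units.val_mul]⟩
  obtain ⟨P, hP, hPI, hPJ⟩ := hQ.exists_conj h2
    ⟨hsq dI hdI (heI ▸ gI_sq), hsq dJ hdJ (heJ ▸ gJ_sq), hanti⟩
  set t : GQ →* GL (Fin 2) k := (MulAut.conj hP.unit).toMonoidHom.comp r
  have ht : ∀ {d : GQ} {q : GL3}, (Φ q).val * P = P * (r d).val → t d = Φ q := fun {d q} e => by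
    show hP.unit * r d * hP.unit⁻¹ = Φ q
    rw [mul_inv_eq_iff_eq_mul]
    exact Units.ext e.symm
  -- where `t` is `Φ` of the class
  let K : Subgroup GQ := cmGroup n ⊓ MonoidHom.eqLocus t (Φ.comp R.e)
  have hI : dI ∈ K := ⟨hdI, (ht hPI).trans (congrArg Φ heI.symm)⟩
  have hJ : dJ ∈ K := ⟨hdJ, (ht hPJ).trans (congrArg Φ heJ.symm)⟩
  have hq : ∀ d ∈ cmGroup n, IsQ8 (R.e d) → t d = Φ (R.e d) := by
    intro d hd hd8
    have hgI : gI ∈ K.map R.e := ⟨dI, hI, heI⟩
    have hgJ : gJ ∈ K.map R.e := ⟨dJ, hJ, heJ⟩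
    have hm := gI_sq ▸ mul_mem hgI hgI
    obtain ⟨d', hd', he'⟩ : R.e d ∈ K.map R.e := by
      rcases q8_cases _ hd8 with e | e | e | e | e | e | e | e <;> rw [e]
      exacts [one_mem _, hm, hgI, mul_mem hgI hm, hgJ, mul_mem hgJ hm, mul_mem hgI hgJ,
        mul_mem hgJ hgI]
    have hk : d'⁻¹ * d ∈ K := by
      have e : R.e (d'⁻¹ * d) = 1 := by rw [map_mul, map_inv, he', inv_mul_cancel]
      have hmem := mul_mem (inv_mem (show d' ∈ cmGroup n from hd'.1)) hd
      refine ⟨hmem, show t _ = Φ (R.e _) from ?_⟩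
      rw [e, map_one, show t _ = MulAut.conj hP.unit (r _) from rfl, (hr _ hmem).1 e, map_one]
    exact (mul_inv_cancel_left d' d ▸ mul_mem hd' hk : d ∈ K).2
  -- the scalar
  have hscal : ∀ g, ((Φ (R.e g))⁻¹ * t g).val = ((Φ (R.e g))⁻¹ * t g).val 0 0 • 1 := by
    intro g
    have hcomm : ∀ d ∈ K, IsQ8 (R.e d) →
        Commute ((Φ (R.e g))⁻¹ * t g).val (Φ (R.e d)).val := by
      intro d hd hd8
      have h := hq (g * d * g⁻¹) ((inferInstance : (cmGroup n).Normal).conj_mem d hd.1 g) (by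
        rw [map_mul, map_mul, map_inv]; exact Octa.q8_conj _ _ hd8)
      rw [map_mul t, map_mul t, map_inv t, show t d = Φ (R.e d) from hd.2, map_mul, map_mul,
        map_inv, map_mul, map_mul, map_inv, mul_inv_eq_iff_eq_mul] at h
      refine (show Commute ((Φ (R.e g))⁻¹ * t g) (Φ (R.e d)) from ?_).map (Units.coeHom _)
      show _ * _ = _ * _
      rw [mul_assoc, h]
      group
    exact hQ.eq_smul_one h2 (heI ▸ hcomm dI hI (by rw [heI]; decide))
      (heJ ▸ hcomm dJ hJ (by rw [heJ]; decide))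
  refine ⟨hP.unit,
    { toFun := fun g => ((Φ (R.e g))⁻¹ * t g).val 0 0
      map_one' := by simp
      map_mul' := fun g h => ?_ }, fun g => ?_⟩
  · have e : ((Φ (R.e (g * h)))⁻¹ * t (g * h)).val =
        ((Φ (R.e h))⁻¹).val * ((Φ (R.e g))⁻¹ * t g).val * ((Φ (R.e h)).val *
          ((Φ (R.e h))⁻¹ * t h).val) := by
      rw [← Units.val_mul, ← Units.val_mul, ← Units.val_mul, mul_inv_cancel_left,
        map_mul R.e, map_mul Φ, map_mul t, mul_inv_rev]
      congr 1
      group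
    rw [e, hscal g, hscal h]
    simp only [mul_smul_comm, mul_one, smul_mul_assoc, ← Units.val_mul, inv_mul_cancel,
      Units.val_one]
    simp [mul_comm]
  · show (t g).val = ((Φ (R.e g))⁻¹ * t g).val 0 0 • (Φ (R.e g)).val
    conv_lhs => rw [← mul_inv_cancel_left (Φ (R.e g)) (t g), Units.val_mul, hscal g]
    rw [mul_smul_comm, mul_one]

end GRep

variable (R : OctaRep) (ρ : ResidualGaloisRep k) {n : ℕ} {S : Finset ℕ}

lemma det_eq (hn : n ≠ 0) (hdet : DetCyclo ρ S) (g : GQ) :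
    LinearMap.det (ρ.ρ g) = (castMat k (R.e g)).det := by
  obtain ⟨p, A, σ, j, hp, hpS, hA, hσ, hρ, he, -⟩ :=
    exists_approx R.toGRep hn ρ.factorsThroughFiniteLevel g (insert 3 S)
  rw [Finset.mem_insert, not_or] at hpS
  have hd : (R.e σ).val.det = (p : ZMod 3) := by
    have : NeZero ((3 : ℕ) : Qbar) := ⟨by norm_num⟩
    obtain ⟨ζ, hζ⟩ := HasEnoughRootsOfUnity.exists_primitiveRoot Qbar 3
    have h1 := R.det σ ζ hζ.pow_eq_one
    rw [frobenius_rootOfUnity hp (fun h =>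
      hpS.1 ((Nat.prime_dvd_prime_iff_eq hp Nat.prime_three).1 h))
      hA hσ hζ.pow_eq_one, ← pow_mod_orderOf, ← hζ.eq_orderOf] at h1
    have h2 := hζ.pow_inj (Nat.mod_lt _ (by norm_num)) (ZMod.val_lt _) h1
    rw [← ZMod.natCast_zmod_val (R.e σ).val.det, ← h2, ZMod.natCast_mod]
  rw [hρ, map_pow, hdet p hp hpS.2 A hA σ hσ, he, map_pow, Matrix.det_pow, castMat_det, hd,
    map_natCast]

variable (hagree : AgreesAt R ρ n S)
include hagree

/-- The characteristic polynomial on the distinguished subgroup. -/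
lemma charpoly_of_mem (hn : n ≠ 0) {h : GQ} (hh : h ∈ cmGroup n) :
    (R.e h = 1 → LinearMap.charpoly (ρ.ρ h) = (X - C 1) ^ 2) ∧
      (R.e h = -1 → LinearMap.charpoly (ρ.ρ h) = (X - C (-1)) ^ 2) := by
  suffices key : ∀ ε : k, (R.e h = 1 ∧ ε = 1) ∨ (R.e h = -1 ∧ ε = -1) →
      LinearMap.charpoly (ρ.ρ h) = (X - C ε) ^ 2 from
    ⟨fun e => key 1 (Or.inl ⟨e, rfl⟩), fun e => key (-1) (Or.inr ⟨e, rfl⟩)⟩
  intro ε hε
  obtain ⟨p, A, σ, j, hp, hpS, hA, hσ, hρ, he, hmem⟩ :=
    exists_approx R.toGRep hn ρ.factorsThroughFiniteLevel h (S ∪ (6 * n).primeFactors)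
  rw [Finset.mem_union, not_or, Nat.mem_primeFactors] at hpS
  have hσmem : σ ∈ cmGroup n ⊓ pmOne.comap R.e := hmem ⟨hh, hε.imp (·.1) (·.1)⟩
  have hcm := isCMPrime_of_frobenius hn hp (fun hd => hpS.2 ⟨hp, hd, by omega⟩) hA hσ hσmem.1
  obtain ⟨h1, h2⟩ := hagree p hp hpS.1 hcm A hA σ hσ
  obtain ⟨δ, hδe, hδ⟩ : ∃ δ : k, castMat k (R.e σ) = δ • 1 ∧
      LinearMap.charpoly (ρ.ρ σ) = (X - C δ) ^ 2 := by
    rcases mem_pmOne.1 hσmem.2 with e | e
    · exact ⟨1, by rw [e, map_one, one_smul], h1 e⟩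
    · exact ⟨-1, by rw [e, castMat_neg_one, neg_smul, one_smul], h2 e⟩
  have hεe : castMat k (R.e h) = ε • 1 := by
    rcases hε with ⟨e, rfl⟩ | ⟨e, rfl⟩
    · rw [e, map_one, one_smul]
    · rw [e, castMat_neg_one, neg_smul, one_smul]
  rw [he, map_pow, hδe, _root_.smul_pow, one_pow] at hεe
  have hδj : δ ^ j = ε := by simpa using congrFun (congrFun hεe 0) 0
  let b : Module.Basis (Fin 2) k ρ.V := Module.finBasisOfFinrankEq k ρ.V ρ.finrank_eq
  have hcs : ∀ c : k, (c • (1 : Matrix (Fin 2) (Fin 2) k)).charpoly = (X - C c) ^ 2 := fun c => by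
    rw [Matrix.charpoly_fin_two]
    simp
    simp only [map_ofNat]
    ring
  rw [← LinearMap.charpoly_toMatrix (ρ.ρ h) b, hρ, ← hδj, ← hcs,
    show LinearMap.toMatrix b b (ρ.ρ σ ^ j) = LinearMap.toMatrixAlgEquiv b (ρ.ρ σ) ^ j from
      map_pow (LinearMap.toMatrixAlgEquiv b) _ _, show δ ^ j • (1 : Matrix (Fin 2) (Fin 2) k) =
      (δ • 1) ^ j by rw [_root_.smul_pow, one_pow]]
  refine GaloisBasic.charpoly_pow_eq_of_charpoly_eq ?_ j
  rw [hcs, ← hδ, ← LinearMap.charpoly_toMatrix (ρ.ρ σ) b]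
  rfl

/-- A representation agreeing with `R` at those primes has no stable line. -/
theorem irreducible (hn : n ≠ 0) :
    ∀ N : Submodule k ρ.V, (∀ g, ∀ x ∈ N, ρ.ρ g x ∈ N) → N = ⊥ ∨ N = ⊤ := by
  intro N hN
  by_contra hcon
  rw [not_or] at hcon
  obtain ⟨dI, hdI, heI, hαI⟩ := exists_lift R.toGRep exists_commutator_gI hn k
  have h0 : Module.finrank k N ≠ 0 := fun e => hcon.1 (Submodule.finrank_eq_zero.1 e)
  have h2 : Module.finrank k N < 2 := ρ.finrank_eq ▸ Submodule.finrank_lt hcon.2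
  obtain ⟨v, hv, -⟩ := finrank_eq_one_iff'.1 (show Module.finrank k N = 1 by omega)
  have hspan : ∀ x : N, ∃ c : k, c • v = x := fun x =>
    exists_smul_eq_of_finrank_eq_one (by omega) hv x
  choose α hα using fun g => hspan ⟨ρ.ρ g v.1, hN g _ v.2⟩
  have hα' : ∀ g, ρ.ρ g v.1 = α g • v.1 := fun g => (congrArg Subtype.val (hα g)).symm
  have hv' : v.1 ≠ 0 := fun e => hv (Subtype.ext e)
  let αh : GQ →* k :=
    { toFun := α
      map_one' := smul_left_injective k hv' (by
        show α 1 • v.1 = (1 : k) • v.1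
        rw [← hα', map_one, one_smul]; rfl)
      map_mul' := fun g h => smul_left_injective k hv' (by
        show α (g * h) • v.1 = (α g * α h) • v.1
        rw [← hα', map_mul, Module.End.mul_apply, hα', map_smul, hα', smul_smul, mul_comm]) }
  have hfix : ρ.ρ (dI * dI) v.1 = v.1 := by
    rw [hα']
    have := hαI αh
    show α (dI * dI) • v.1 = v.1
    rw [show α (dI * dI) = αh dI * αh dI from map_mul αh dI dI, this, mul_one, one_smul]
  have hc := (charpoly_of_mem R ρ hagree hn (mul_mem hdI hdI)).2 (by rw [map_mul, heI, gI_sq])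
  have hz := LinearMap.congr_fun (LinearMap.aeval_self_charpoly (ρ.ρ (dI * dI))) v.1
  rw [hc, map_pow, map_sub, aeval_X, aeval_C, map_neg (algebraMap k (Module.End k ρ.V)), map_one,
    sub_neg_eq_add, pow_two, Module.End.mul_apply, LinearMap.zero_apply] at hz
  simp only [LinearMap.add_apply, Module.End.one_apply, map_add, hfix] at hz
  have h4 : (4 : k) • v.1 = 0 := by
    rw [show (4 : k) = 1 + 1 + (1 + 1) by norm_num, add_smul, add_smul, one_smul]
    exact hz
  refine hv' ((smul_eq_zero.1 h4).resolve_left ?_)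
  rw [show (4 : k) = 2 * 2 by norm_num]
  exact mul_ne_zero two_ne_zero' two_ne_zero'

/-- On the distinguished subgroup the representation is the sign. -/
theorem eq_of_mem (hn : n ≠ 0) {h : GQ} (hh : h ∈ cmGroup n) :
    (R.e h = 1 → ρ.ρ h = 1) ∧ (R.e h = -1 → ρ.ρ h = -1) := by
  have hone : ∀ g ∈ cmGroup n ⊓ R.e.ker, ρ.ρ g = 1 :=
    Assembly.eq_one_of_charpoly_eq ρ.finrank_eq ρ.ρ (cmGroup n ⊓ R.e.ker)
      (irreducible R ρ hagree hn)
      fun g hg => (charpoly_of_mem R ρ hagree hn hg.1).1 (MonoidHom.mem_ker.1 hg.2)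
  refine ⟨fun e => hone h ⟨hh, MonoidHom.mem_ker.2 e⟩, fun e => ?_⟩
  set f := ρ.ρ h
  have hsq : f * f = 1 := by
    rw [← map_mul]
    exact hone _ ⟨mul_mem hh hh, MonoidHom.mem_ker.2 (by rw [map_mul, e]; simp)⟩
  have hc := LinearMap.aeval_self_charpoly f
  rw [(charpoly_of_mem R ρ hagree hn hh).2 e] at hc
  simp only [map_pow, map_add, aeval_X, map_neg, map_one, sub_neg_eq_add] at hc
  have h2 : (2 : k) • (f + 1) = 0 := by
    rw [two_smul]
    calc f + 1 + (f + 1) = (f + 1) ^ 2 - (f * f - 1) := by noncomm_ring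
      _ = 0 := by rw [hc, hsq, sub_self, sub_zero]
  exact eq_neg_of_add_eq_zero_left ((smul_eq_zero.1 h2).resolve_left two_ne_zero')

/-- **The twist**: a representation agreeing with `R` at those primes, with cyclotomic determinant,
is `ψ ⊗ R` in some basis, with `ψ² = 1`. -/
theorem exists_twist (hn : n ≠ 0) (hdet : DetCyclo ρ S) :
    ∃ (b : Module.Basis (Fin 2) k ρ.V) (ψ : GQ →* k), (∀ g, ψ g ^ 2 = 1) ∧
      ∀ g, LinearMap.toMatrix b b (ρ.ρ g) = ψ g • castMat k (R.e g) := by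
  classical
  let b₀ := Module.finBasisOfFinrankEq k ρ.V ρ.finrank_eq
  let r : GQ →* GL (Fin 2) k := ((LinearMap.toMatrixAlgEquiv b₀).toMonoidHom.comp ρ.ρ).toHomUnits
  have hr : ∀ g, (r g).val = LinearMap.toMatrix b₀ b₀ (ρ.ρ g) := fun _ => rfl
  obtain ⟨u, ψ, hψ⟩ := exists_conj_eq_smul R.toGRep two_ne_zero' hn r
    (fun h hh => ⟨fun e => Units.ext (by
      rw [hr, (eq_of_mem R ρ hagree hn hh).1 e, LinearMap.toMatrix_one, Units.val_one]),
      fun e => by rw [hr, (eq_of_mem R ρ hagree hn hh).2 e, map_neg, LinearMap.toMatrix_one]⟩)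
    (Matrix.GeneralLinearGroup.map (ZMod.castHom (dvd_refl 3) k)) castMat_neg_one
  let b : Module.Basis (Fin 2) k ρ.V :=
    Module.Basis.ofEquivFun (b₀.equivFun.trans (Matrix.GeneralLinearGroup.toLin u).toLinearEquiv)
  have hb : b.toMatrix b₀ = u.val := by
    ext i j
    fin_cases i <;> fin_cases j <;> simp [b, Module.Basis.toMatrix_apply]
  have hb' : b₀.toMatrix b = (u⁻¹).val := by
    refine (Units.inv_eq_of_mul_eq_one_right (?_ : u.val * b₀.toMatrix b = 1)).symm
    rw [← hb, Module.Basis.toMatrix_mul_toMatrix_flip]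
  have htw : ∀ g, LinearMap.toMatrix b b (ρ.ρ g) = ψ g • castMat k (R.e g) := fun g => by
    rw [← basis_toMatrix_mul_linearMap_toMatrix_mul_basis_toMatrix b b₀ b b₀ (ρ.ρ g), hb, hb',
      ← hr, ← Units.val_mul, ← Units.val_mul, hψ g]
    rfl
  refine ⟨b, ψ, fun g => ?_, htw⟩
  have h := congrArg Matrix.det (htw g)
  rw [Matrix.det_smul, Fintype.card_fin, LinearMap.det_toMatrix, det_eq R ρ hn hdet g] at h
  have hne : (castMat k (R.e g)).det ≠ 0 :=
    ((Matrix.isUnit_iff_isUnit_det _).1 (isUnit_castMat _)).ne_zero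
  exact mul_right_cancel₀ hne (h.symm.trans (one_mul _).symm)

end FermatAgent.LT.Mod3
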